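/-
(M)/S12, node [N-∗] (helper5, prefix `s12s_`), part 1: the identity
`(e₂-e₁)^p P₃² + (e₃-e₂)^p P₁² + (e₁-e₃)^p P₂² = 0`, `P_i = Π_{0<k<p} (x(kQ) - e_i)`,
for a point `Q` of odd prime order `p` on a Weierstrass curve over `ℂ` with `2`-torsion abscissae
`e₁, e₂, e₃` (the discriminant relation `s15da_half_relation` for the three pairs, summed).
-/
import Mathlib
import Fermat.Agent.Lib.S15.DAnFinal

set_option autoImplicit false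

open Filter Topology PeriodPair WeierstrassCurve UpperHalfPlane
open Fermat.Agent.Lib.RR Fermat.Agent.Lib.FF Fermat.Agent.Lib.S15

noncomputable section

namespace Fermat.Agent.Lib.S12

/-- `P_e = Π_{0<k<p} (x(kQ) - e)`. -/
def s12s_P {K : Type*} [Field K] [DecidableEq K] (W : WeierstrassCurve K) (Q : W.toAffine.Point)
    (p : ℕ) (e : K) : K :=
  ∏ k ∈ Finset.range (p - 1), (s15d_px W ((k + 1) • Q) - e)

/-- the identity for lattices. -/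
theorem s12s_star_lat {L L' : PeriodPair} {m : ℕ} {z₀ : ℂ} (hΔ : L.g₂ ^ 3 - 27 * L.g₃ ^ 2 ≠ 0)
    (hC : s15da_Cyc L L' m z₀) {h1 h2 h3 ε1 ε2 ε3 : ℂ}
    (n1 : h1 ∉ L'.lattice) (n2 : h2 ∉ L'.lattice) (n3 : h3 ∉ L'.lattice)
    (t1 : 2 * h1 ∈ L.lattice) (t2 : 2 * h2 ∈ L.lattice) (t3 : 2 * h3 ∈ L.lattice)
    (hε1 : ℘[L] h1 = ε1) (hε2 : ℘[L] h2 = ε2) (hε3 : ℘[L] h3 = ε3)
    (s : ε1 + ε2 + ε3 = 0) (hg2 : L.g₂ = -4 * (ε1 * ε2 + ε1 * ε3 + ε2 * ε3))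
    (hg3 : L.g₃ = 4 * ε1 * ε2 * ε3) :
    (ε2 - ε1) ^ (m + 1) * s15da_Pe L m z₀ ε3 ^ 2 + (ε3 - ε2) ^ (m + 1) * s15da_Pe L m z₀ ε1 ^ 2 +
      (ε1 - ε3) ^ (m + 1) * s15da_Pe L m z₀ ε2 ^ 2 = 0 := by
  have r12 := s15da_half_relation hΔ hC (el := ε3) n1 n2 t2 hε1 hε2 s hg2 hg3
  have r23 := s15da_half_relation hΔ hC (el := ε1) n2 n3 t3 hε2 hε3
    (by linear_combination s) (by rw [hg2]; ring) (by rw [hg3]; ring)
  have r31 := s15da_half_relation hΔ hC (el := ε2) n3 n1 t1 hε3 hε1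
    (by linear_combination s) (by rw [hg2]; ring) (by rw [hg3]; ring)
  linear_combination (-(s15da_Pe L m z₀ ε3)) * r12 - s15da_Pe L m z₀ ε1 * r23 -
    s15da_Pe L m z₀ ε2 * r31

/-- **normal form of a point of order `p`** (the first half of the proof of `s15da_An`). -/
theorem s12s_normal_form (p : ℕ) [NeZero p] (hp : p.Prime) (W : WeierstrassCurve ℂ) (hΔ : W.Δ ≠ 0)
    (Q : W.toAffine.Point) (hQ : addOrderOf Q = p) :
    ∃ (c : ℂ) (hc : c ≠ 0) (τ : ℍ) (h2 : 12 * (s15da_lat c hc τ).g₂ = W.c₄)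
      (h3 : 216 * (s15da_lat c hc τ).g₃ = W.c₆) (d : ℕ),
      ¬ p ∣ d ∧ Q = d • s15da_Phi h2 h3 hΔ (c / p) := by
  have hpC : (p : ℂ) ≠ 0 := Nat.cast_ne_zero.mpr hp.ne_zero
  have hrel := W.c_relation
  have hne : W.c₄ ^ 3 - W.c₆ ^ 2 ≠ 0 := by
    rw [← hrel]; exact mul_ne_zero (by norm_num) hΔ
  obtain ⟨τ, c, hc, h2, h3⟩ := s15da_exists_lat W.c₄ W.c₆ hne
  obtain ⟨z₁, hz₁⟩ := s15da_Phi_surjective h2 h3 hΔ Q
  have hpQ : p • Q = 0 := by rw [← hQ]; exact addOrderOf_nsmul_eq_zero Q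
  have hQ0 : Q ≠ 0 := by
    intro h
    rw [h, addOrderOf_zero] at hQ
    exact hp.one_lt.ne hQ
  have hz₁L : z₁ ∉ (s15da_lat c hc τ).lattice := fun h =>
    hQ0 (by rw [← hz₁]; exact (s15da_Phi_eq_zero_iff h2 h3 hΔ).mpr h)
  have hpz : (p : ℂ) * z₁ ∈ (s15da_lat c hc τ).lattice := by
    rw [← s15da_Phi_eq_zero_iff h2 h3 hΔ, ← nsmul_eq_mul, map_nsmul, hz₁, hpQ]
  obtain ⟨a, b, hab⟩ := PeriodPair.mem_lattice.mp hpz
  rw [s15da_lat_ω₁, s15da_lat_ω₂] at hab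
  -- the gcd
  have hd0 : Int.gcd a b ≠ 0 := by
    intro h0
    obtain ⟨ha0, hb0⟩ := Int.gcd_eq_zero_iff.mp h0
    rw [ha0, hb0] at hab
    have : z₁ = 0 := by
      have h' : (p : ℂ) * z₁ = 0 := by rw [← hab]; simp
      exact (mul_eq_zero.mp h').resolve_left hpC
    exact hz₁L (this ▸ zero_mem _)
  obtain ⟨a', b', hco, ha, hb⟩ := Int.exists_gcd_one (Nat.pos_of_ne_zero hd0)
  set d := Int.gcd a b with hd
  have hpd : ¬ p ∣ d := by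
    rintro ⟨e, he⟩
    apply hz₁L
    rw [PeriodPair.mem_lattice]
    refine ⟨a' * e, b' * e, ?_⟩
    rw [s15da_lat_ω₁, s15da_lat_ω₂]
    apply mul_left_cancel₀ hpC
    rw [← hab, ha, hb, he]
    push_cast
    ring
  -- the matrix
  have hcop : IsCoprime a' b' := Int.isCoprime_iff_gcd_eq_one.mpr hco
  obtain ⟨γ, hγ0, hγ1⟩ := hcop.exists_SL2_row 1
  have hden : (a' : ℂ) * τ + b' ≠ 0 := by
    intro h0
    obtain ⟨h1, h2⟩ := int_mul_add_eq_zero τ a' b' h0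
    rw [h1, h2] at hco
    simp at hco
  have hc' : c * ((γ 1 0 : ℂ) * τ + (γ 1 1 : ℂ)) ≠ 0 := by
    rw [hγ0, hγ1]; exact mul_ne_zero hc hden
  have hlat := s15da_lat_change c hc τ γ hc'
  have h2' : 12 * (s15da_lat _ hc' (γ • τ)).g₂ = W.c₄ := by
    rw [← h2]; unfold PeriodPair.g₂; rw [s15da_G_congr hlat]
  have h3' : 216 * (s15da_lat _ hc' (γ • τ)).g₃ = W.c₆ := by
    rw [← h3]; unfold PeriodPair.g₃; rw [s15da_G_congr hlat]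
  have hz : z₁ = (d : ℂ) * (c * ((γ 1 0 : ℂ) * τ + (γ 1 1 : ℂ)) / p) := by
    apply mul_left_cancel₀ hpC
    rw [← hab, ha, hb, hγ0, hγ1]
    push_cast
    field_simp
  have hQd : Q = d • s15da_Phi h2' h3' hΔ (c * ((γ 1 0 : ℂ) * τ + (γ 1 1 : ℂ)) / p) := by
    rw [← map_nsmul, nsmul_eq_mul, ← hz, ← s15da_Phi_congr hΔ hlat.symm h2 h3 h2' h3', hz₁]
  exact ⟨_, hc', γ • τ, h2', h3', d, hpd, hQd⟩

/-- a root of the `2`-division polynomial is `℘` of a half-period. -/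
theorem s12s_half_period {W : WeierstrassCurve ℂ} (hΔ : W.Δ ≠ 0) {L : PeriodPair}
    (h2 : 12 * L.g₂ = W.c₄) (h3 : 216 * L.g₃ = W.c₆) {e : ℂ}
    (he : 4 * e ^ 3 + W.b₂ * e ^ 2 + 2 * W.b₄ * e + W.b₆ = 0) :
    ∃ h : ℂ, h ∉ L.lattice ∧ 2 * h ∈ L.lattice ∧ ℘[L] h = e + W.b₂ / 12 := by
  obtain ⟨z, hz, hwp⟩ := s15da_wp_surjective L (e + W.b₂ / 12)
  refine ⟨z, hz, ?_, hwp⟩
  have hpx : s15d_px W (s15da_Phi h2 h3 hΔ z) = e := by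
    rw [s15da_px_Phi h2 h3 hΔ hz, hwp]; ring
  have hu1 : ℘'[L] z ^ 2 = 0 := by
    rw [← s15da_u1_Phi h2 h3 hΔ hz]
    unfold s15d_u1
    rw [hpx]
    exact he
  have hd : ℘'[L] z = 0 := pow_eq_zero_iff (two_ne_zero) |>.mp hu1
  have hpsi : s15d_psi2 W (s15da_Phi h2 h3 hΔ z) = 0 := by
    rw [s15da_psi2_Phi h2 h3 hΔ hz, hd]
  -- `-P = P`
  have hneg : -(s15da_Phi h2 h3 hΔ z) = s15da_Phi h2 h3 hΔ z := by
    obtain ⟨hn, e1⟩ := s15da_Phi_of_not h2 h3 hΔ hz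
    rw [e1] at hpsi ⊢
    rw [Affine.Point.neg_some]
    congr 1
    have h0 : 2 * (℘'[L] z / 2 - W.a₁ / 2 * ℘[L] z + (W.a₁ * W.b₂ / 24 - W.a₃ / 2)) +
        W.a₁ * (℘[L] z - W.b₂ / 12) + W.a₃ = 0 := hpsi
    rw [Affine.negY]
    linear_combination (-1 : ℂ) * h0
  have h2z : s15da_Phi h2 h3 hΔ (2 * z) = 0 := by
    rw [two_mul, map_add]
    nth_rewrite 1 [← hneg]
    exact neg_add_cancel _
  exact (s15da_Phi_eq_zero_iff h2 h3 hΔ).mp h2z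

/-- **[N-∗] over `ℂ`.** -/
theorem s12s_star_C (p : ℕ) (hp : p.Prime) (hp2 : p ≠ 2) (W : WeierstrassCurve ℂ) (hΔ : W.Δ ≠ 0)
    (Q : W.toAffine.Point) (hQ : addOrderOf Q = p) (e₁ e₂ e₃ : ℂ)
    (hs1 : e₁ + e₂ + e₃ = -W.b₂ / 4) (hs2 : e₁ * e₂ + e₁ * e₃ + e₂ * e₃ = W.b₄ / 2)
    (hs3 : e₁ * e₂ * e₃ = -W.b₆ / 4) :
    (e₂ - e₁) ^ p * s12s_P W Q p e₃ ^ 2 + (e₃ - e₂) ^ p * s12s_P W Q p e₁ ^ 2 +
      (e₁ - e₃) ^ p * s12s_P W Q p e₂ ^ 2 = 0 := by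
  have : NeZero p := ⟨hp.ne_zero⟩
  have := Fact.mk hp
  obtain ⟨c, hc, τ, h2, h3, d, hpd, hQd⟩ := s12s_normal_form p hp W hΔ Q hQ
  set L := s15da_lat c hc τ with hL
  set L' := s15da_over c hc τ p with hL'
  have hC : s15da_Cyc L L' (p - 1) (c / p) := s15da_cyc c hc τ p hp.pos
  have hΔL : L.g₂ ^ 3 - 27 * L.g₃ ^ 2 ≠ 0 := by rw [s15da_disc_of h2 h3]; exact hΔ
  set Q' := s15da_Phi h2 h3 hΔ (c / p) with hQ'
  have hpQ' : p • Q' = 0 := s15da_p_smul_Q' hΔ c hc τ h2 h3 p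
  have hp1 : p - 1 + 1 = p := Nat.sub_add_cancel hp.pos
  -- the products
  have hP : ∀ e : ℂ, s12s_P W Q p e = s15da_Pe L (p - 1) (c / p) (e + W.b₂ / 12) := by
    intro e
    unfold s12s_P s15da_Pe
    rw [hQd, s15da_prod_change_gen p hpQ' d hpd (fun P => s15d_px W P - e)]
    refine Finset.prod_congr rfl fun k hk => ?_
    rw [hQ', s15da_smul_Q', s15da_px_Phi h2 h3 hΔ
      (s15da_mul_not_mem c hc τ p (Finset.mem_range.mp hk))]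
    ring
  -- the half-periods
  have hroot : ∀ e : ℂ, (e - e₁) * (e - e₂) * (e - e₃) = 0 →
      ∃ h : ℂ, h ∉ L'.lattice ∧ 2 * h ∈ L.lattice ∧ ℘[L] h = e + W.b₂ / 12 := by
    intro e he
    have he' : 4 * e ^ 3 + W.b₂ * e ^ 2 + 2 * W.b₄ * e + W.b₆ = 0 := by
      linear_combination 4 * he + 4 * e ^ 2 * hs1 - 4 * e * hs2 + 4 * hs3
    obtain ⟨h, hh, h2h, hwp⟩ := s12s_half_period hΔ h2 h3 he'
    refine ⟨h, ?_, h2h, hwp⟩
    intro hL'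
    obtain ⟨k, hk⟩ := hC.gen h hL'
    -- `T = Φ(h) = k • Q'` is killed by `2` and by `p`
    set T := s15da_Phi h2 h3 hΔ h with hT
    have hT0 : T ≠ 0 := fun h0 => hh ((s15da_Phi_eq_zero_iff h2 h3 hΔ).mp h0)
    have hTk : T = k • Q' := by
      have h1 : s15da_Phi h2 h3 hΔ (h - (k : ℂ) * (c / p)) = 0 :=
        (s15da_Phi_eq_zero_iff h2 h3 hΔ).mpr hk
      rw [map_sub, sub_eq_zero] at h1
      rw [hT, h1, hQ', s15da_smul_Q']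
    have h2T : 2 • T = 0 := by
      rw [hT, ← map_nsmul, nsmul_eq_mul]
      exact (s15da_Phi_eq_zero_iff h2 h3 hΔ).mpr (by exact_mod_cast h2h)
    have hpT : p • T = 0 := by rw [hTk, smul_comm, hpQ', nsmul_zero]
    obtain ⟨j, hj⟩ := hp.odd_of_ne_two hp2
    apply hT0
    have : T = p • T - j • (2 • T) := by
      rw [← mul_nsmul', hj, add_nsmul, one_nsmul, mul_comm]
      abel
    rw [this, hpT, h2T, nsmul_zero, sub_zero]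
  obtain ⟨h1, n1, t1, w1⟩ := hroot e₁ (by ring)
  obtain ⟨h2', n2, t2, w2⟩ := hroot e₂ (by ring)
  obtain ⟨h3', n3, t3, w3⟩ := hroot e₃ (by ring)
  have e2 : L.g₂ = W.c₄ / 12 := by rw [← h2]; ring
  have e3 : L.g₃ = W.c₆ / 216 := by rw [← h3]; ring
  have key := s12s_star_lat hΔL hC n1 n2 n3 t1 t2 t3 w1 w2 w3
    (by linear_combination hs1)
    (by
      rw [e2]
      simp only [WeierstrassCurve.c₄]
      linear_combination (4 : ℂ) * hs2 + (2 / 3 : ℂ) * W.b₂ * hs1)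
    (by
      rw [e3]
      simp only [WeierstrassCurve.c₆]
      linear_combination (-4 : ℂ) * hs3 - (1 / 3 : ℂ) * W.b₂ * hs2 - (1 / 36 : ℂ) * W.b₂ ^ 2 * hs1)
  rw [hp1] at key
  rw [hP e₁, hP e₂, hP e₃]
  have d21 : e₂ + W.b₂ / 12 - (e₁ + W.b₂ / 12) = e₂ - e₁ := by ring
  have d32 : e₃ + W.b₂ / 12 - (e₂ + W.b₂ / 12) = e₃ - e₂ := by ring
  have d13 : e₁ + W.b₂ / 12 - (e₃ + W.b₂ / 12) = e₁ - e₃ := by ring
  rw [d21, d32, d13] at key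
  exact key

end Fermat.Agent.Lib.S12
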