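/-
S12 shortcut, node [N-INT] (helper2, prefix `s12b_`), part 1: **the curve-free core, in the frame of
`Lib/S58/GRed.lean`** (`A` a valuation subring of a field `K`, `WA : WeierstrassCurve A`).

* `s12b_px_sub_unit` : `R` a point killed by an odd prime `p` (`|p| = 1`) with NONSINGULAR
  reduction, `T = (e, f)` an `A`-integral point of order `2`: `x(R) - e` is a unit of `A`
  (otherwise `±R - T ∈ E₁`, hence `2R ∈ E₁` is `p`-torsion, `2R = 0`);
* `s12b_P_unit` : `∏_{0<k<p} (x(kQ) - e)` is a unit for `Q` of order `p` with nonsingular reduction.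
-/
import Fermat.Agent.Lib.S15.BRedD
import Fermat.Agent.Lib.S12.StarAn

set_option autoImplicit false
set_option linter.unusedSectionVars false
set_option linter.unusedVariables false

noncomputable section

namespace Fermat.Agent.Lib.S12

open WeierstrassCurve WeierstrassCurve.Affine IsLocalRing Finset
open Fermat.Agent.Lib.S58 Fermat.Agent.Lib.S41 Fermat.Agent.Lib.Frey Fermat.Agent.Lib.EN
open Fermat.Agent.Lib.S15

variable {K : Type*} [Field K] [DecidableEq K] {A : ValuationSubring K} {WA : WeierstrassCurve A}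
  [DecidableEq (ResidueField A)]

/-- a point killed by `2` and by an odd number is `0`. -/
theorem s12b_eq_zero_of_two_of_odd {G : Type*} [AddCommGroup G] {R : G} {p : ℕ} (hp : Odd p)
    (h2 : 2 • R = 0) (hpR : p • R = 0) : R = 0 := by
  obtain ⟨m, rfl⟩ := hp
  rw [add_nsmul, mul_nsmul, h2, smul_zero, zero_add, one_nsmul] at hpR
  exact hpR

/-- a point `S` of `E₁` with `2S` killed by `p` has `2S = 0`. -/
theorem s12b_two_nsmul_E1 {p : ℕ} (hp : p.Prime) (hp2 : p ≠ 2) (hvp : A.valuation (p : K) = 1)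
    {S : (s41a_WK A WA).toAffine.Point} (hS : frd_E1 A.valuation (s41a_WK A WA).toAffine S)
    (hpS : p • (2 • S) = 0) : 2 • S = 0 := by
  obtain ⟨hb2, hb4, hb6, hb8⟩ :=
    s58e_b_integral A.valuation (s41a_WK A WA) (s41a_frd_integral A WA)
  have hE1 : fe1_E1 A.valuation S := (s58e_E1_iff A.valuation (s41a_WK A WA) _).mp hS
  have h2 : fe1_E1 A.valuation (2 • S) := by
    rw [two_nsmul]
    exact s58e_E1_add (s41a_WK A WA) A.valuation hb2 hb4 hb6 hb8 hE1 hE1
  exact s58e_E1_torsion_free (s41a_WK A WA) A.valuation hb2 hb4 hb6 hb8 hp hp2 hvp h2 hpS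

/-- **`x(R) - e` is a unit.** -/
theorem s12b_px_sub_unit {p : ℕ} (hp : p.Prime) (hp2 : p ≠ 2) (hvp : A.valuation (p : K) = 1)
    {R : (s41a_WK A WA).toAffine.Point} {Rt : (s41a_Wk A WA).toAffine.Point}
    (hR : s58g_Red A WA R Rt) (hpR : p • R = 0)
    {e f : A} (hT : (s41a_WK A WA).toAffine.Nonsingular (e : K) (f : K))
    (h2T : 2 • (Point.some _ _ hT : (s41a_WK A WA).toAffine.Point) = 0) :
    A.valuation (s15d_px (s41a_WK A WA) R - (e : K)) = 1 := by
  have hodd : Odd p := hp.odd_of_ne_two hp2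
  have hR0 : R ≠ 0 := (s58g_red_ne_zero hR).1
  have hR' := hR
  obtain ⟨a, b, h₁, h₂, rfl, rfl⟩ := hR
  show A.valuation ((a : K) - (e : K)) = 1
  by_contra hne
  have hle : A.valuation ((a : K) - (e : K)) ≤ 1 := by
    have := A.valuation_le_one (a - e)
    rwa [AddSubgroupClass.coe_sub] at this
  have hlt : A.valuation ((a : K) - (e : K)) < 1 := lt_of_le_of_ne hle hne
  have hres : residue A a = residue A e := (s41a_res_eq_iff A a e).mpr hlt
  have heT : WA.toAffine.Equation e f := s58g_equation_of_nonsingular hT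
  have hekT : (s41a_Wk A WA).toAffine.Equation (residue A e) (residue A f) :=
    heT.map (residue A)
  -- the key: `S = ±R - T ∈ E₁`
  have key : ∃ S : (s41a_WK A WA).toAffine.Point,
      frd_E1 A.valuation (s41a_WK A WA).toAffine S ∧
        ((2 : ℕ) • S = (2 : ℕ) • (Point.some (a : K) (b : K) h₁ : (s41a_WK A WA).toAffine.Point) ∨
          (2 : ℕ) • S =
            -((2 : ℕ) • (Point.some (a : K) (b : K) h₁ : (s41a_WK A WA).toAffine.Point))) := by
    rcases Y_eq_of_X_eq hekT h₂.1 hres.symm with hy | hy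
    · have h' : (s41a_Wk A WA).toAffine.Nonsingular (residue A e) (residue A f) := by
        rw [← hres, hy]; exact h₂
      have hsame : (Point.some (residue A e) (residue A f) h' :
          (s41a_Wk A WA).toAffine.Point) = Point.some (residue A a) (residue A b) h₂ :=
        s58x_some_eq _ _ hres.symm hy
      have hredT : s58g_Red A WA (Point.some (e : K) (f : K) hT)
          (Point.some (residue A a) (residue A b) h₂) := by
        rw [← hsame]
        exact ⟨e, f, hT, h', rfl, rfl⟩
      refine ⟨_, s58g_sub_mem_E1 hR' hredT, Or.inl ?_⟩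
      rw [nsmul_sub, h2T, sub_zero]
    · have hnegns : (s41a_Wk A WA).toAffine.Nonsingular (residue A a)
          ((s41a_Wk A WA).toAffine.negY (residue A a) (residue A b)) :=
        (nonsingular_neg ..).mpr h₂
      have h' : (s41a_Wk A WA).toAffine.Nonsingular (residue A e) (residue A f) := by
        rw [← hres, hy]; exact hnegns
      have hsame : (Point.some (residue A e) (residue A f) h' :
          (s41a_Wk A WA).toAffine.Point) = -Point.some (residue A a) (residue A b) h₂ := by
        rw [Point.neg_some]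
        exact s58x_some_eq _ _ hres.symm hy
      have hredT : s58g_Red A WA (Point.some (e : K) (f : K) hT)
          (-Point.some (residue A a) (residue A b) h₂) := by
        rw [← hsame]
        exact ⟨e, f, hT, h', rfl, rfl⟩
      refine ⟨_, s58g_sub_mem_E1 (s58g_red_neg hR') hredT, Or.inr ?_⟩
      rw [nsmul_sub, h2T, sub_zero, smul_neg]
  obtain ⟨S, hS, hS2⟩ := key
  have hp2R : p • (2 • Point.some (a : K) (b : K) h₁) = 0 := by
    rw [smul_comm, hpR, smul_zero]
  have h2S : 2 • S = 0 := by
    refine s12b_two_nsmul_E1 hp hp2 hvp hS ?_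
    rcases hS2 with h | h
    · rw [h, hp2R]
    · rw [h, smul_neg, hp2R, neg_zero]
  have h2R : 2 • Point.some (a : K) (b : K) h₁ = 0 := by
    rcases hS2 with h | h
    · rw [← h, h2S]
    · rw [← neg_eq_zero, ← h, h2S]
  exact hR0 (s12b_eq_zero_of_two_of_odd hodd h2R hpR)

/-- **`P_e` is a unit** for `Q` of order `p` with nonsingular reduction and `e` the abscissa of an
integral point of order `2`. -/
theorem s12b_P_unit {p : ℕ} (hp : p.Prime) (hp2 : p ≠ 2) (hvp : A.valuation (p : K) = 1)
    {Q : (s41a_WK A WA).toAffine.Point} {Qt : (s41a_Wk A WA).toAffine.Point}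
    (hQ : addOrderOf Q = p) (hR : s58g_Red A WA Q Qt)
    {e f : A} (hT : (s41a_WK A WA).toAffine.Nonsingular (e : K) (f : K))
    (h2T : 2 • (Point.some _ _ hT : (s41a_WK A WA).toAffine.Point) = 0) :
    A.valuation (s12s_P (s41a_WK A WA) Q p (e : K)) = 1 := by
  unfold s12s_P
  rw [map_prod]
  refine prod_eq_one fun k hk => ?_
  rw [mem_range] at hk
  have h2 := hp.two_le
  exact s12b_px_sub_unit hp hp2 hvp
    (s15b_red_all hp hp2 hvp hQ hR (k + 1) (by omega) (by omega)) (s15b_nsmul_tors hQ (k + 1))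
    hT h2T

/-- good reduction: every nonzero `p`-torsion point has nonsingular reduction. -/
theorem s12b_red_of_good {p : ℕ} (hp : p.Prime) (hp2 : p ≠ 2) (hvp : A.valuation (p : K) = 1)
    (hΔ : A.valuation (s41a_WK A WA).Δ = 1)
    {Q : (s41a_WK A WA).toAffine.Point} (hpQ : p • Q = 0) (hQ0 : Q ≠ 0) :
    ∃ Qt, s58g_Red A WA Q Qt := by
  obtain ⟨a, b, h, rfl⟩ := s15b_torsion_int hp hp2 hvp hpQ hQ0
  have he : WA.toAffine.Equation a b := s58g_equation_of_nonsingular h
  have hek : (s41a_Wk A WA).toAffine.Equation (residue A a) (residue A b) := he.map (residue A)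
  have hΔk : (s41a_Wk A WA).Δ ≠ 0 := s15b_lift_ne_zero_of_eq s15b_lift_Δ hΔ
  have h' := (equation_iff_nonsingular_of_Δ_ne_zero hΔk).mp hek
  exact ⟨_, a, b, h, h', rfl, rfl⟩

end Fermat.Agent.Lib.S12
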