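/-
S12 shortcut, nodes [N-VO]/[N-V2] (helper2, prefix `s12b_`), part 2: transfer of `s12b_P_unit`
(`BInt.lean`) to the Prelude's shapes, and the points of order `2`.

* `s12b_two_torsion`  : a root `e` of `4X³ + b₂X² + 2b₄X + b₆` gives the point
  `(e, -(a₁e + a₃)/2)` of order `2` (char `≠ 2`, `Δ ≠ 0`);
* `s12b_P_unit_key`   : `|P_e| = 1` for curves propositionally equal to the fibres of a model;
* `s12b_P_unit_int`   : the same for `W : WeierstrassCurve ℤ`, `A ∣ ℓ`, `ℓ ≠ p`:
  good reduction at `ℓ`, or `W.InZeroComponentAt A Q`.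
-/
import Fermat.Agent.Lib.S12.BInt

set_option autoImplicit false
set_option linter.unusedSectionVars false
set_option linter.unusedVariables false

noncomputable section

namespace Fermat.Agent.Lib.S12

open WeierstrassCurve WeierstrassCurve.Affine IsLocalRing Finset
open Fermat.Agent.Lib.S58 Fermat.Agent.Lib.S41 Fermat.Agent.Lib.S18
open Fermat.Agent.Lib.S15

local notation "Kb" => AlgebraicClosure ℚ

section TwoTorsion

variable {F : Type*} [Field F] [DecidableEq F] (W : WeierstrassCurve F)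

/-- the point of order `2` above a root of the `2`-division polynomial. -/
theorem s12b_two_torsion (h2 : (2 : F) ≠ 0) (hΔ : W.Δ ≠ 0) {e : F}
    (he : 4 * e ^ 3 + W.b₂ * e ^ 2 + 2 * W.b₄ * e + W.b₆ = 0) :
    ∃ hT : W.toAffine.Nonsingular e (-(W.a₁ * e + W.a₃) / 2),
      (2 : ℕ) • (Point.some e (-(W.a₁ * e + W.a₃) / 2) hT : W.toAffine.Point) = 0 := by
  have h4 : (4 : F) ≠ 0 := by
    have : (4 : F) = 2 * 2 := by norm_num
    rw [this]; exact mul_ne_zero h2 h2
  have heq : W.toAffine.Equation e (-(W.a₁ * e + W.a₃) / 2) := by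
    rw [Affine.equation_iff]
    simp only [WeierstrassCurve.b₂, WeierstrassCurve.b₄, WeierstrassCurve.b₆] at he
    field_simp
    linear_combination (-1 : F) * he
  have hT := (equation_iff_nonsingular_of_Δ_ne_zero hΔ).mp heq
  refine ⟨hT, ?_⟩
  have hneg : -(Point.some e (-(W.a₁ * e + W.a₃) / 2) hT : W.toAffine.Point) =
      Point.some e (-(W.a₁ * e + W.a₃) / 2) hT := by
    rw [Point.neg_some]
    apply s58x_some_eq
    · rfl
    · rw [Affine.negY]
      field_simp
      ring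
  rw [two_nsmul]
  nth_rewrite 1 [← hneg]
  exact neg_add_cancel _

end TwoTorsion

section Key

variable {K : Type*} [Field K] [DecidableEq K] (A : ValuationSubring K)

/-- a point of order `p` in the zero component reduces to a nonsingular point. -/
theorem s12b_red_of_inZero (WA : WeierstrassCurve A) [DecidableEq (ResidueField A)] {p : ℕ}
    (hp : p.Prime) (hp2 : p ≠ 2) (hvp : A.valuation (p : K) = 1)
    (Q : (s41a_WK A WA).toAffine.Point) (hpQ : p • Q = 0) (hQ0 : Q ≠ 0)
    (hin : s15b_InZero A (s41a_WK A WA) (s41a_Wk A WA) Q) : ∃ Qt, s58g_Red A WA Q Qt := by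
  rcases hin with h0 | ⟨x, y, h, hQxy, hx | ⟨hx, hy, h'⟩⟩
  · exact absurd h0 hQ0
  · exfalso
    obtain ⟨a, b, hab, hQab⟩ := s15b_torsion_int hp hp2 hvp hpQ hQ0
    rw [hQxy, Point.some.injEq] at hQab
    apply hx
    rw [hQab.1]
    exact a.2
  · exact ⟨Point.some _ _ h', ⟨x, hx⟩, ⟨y, hy⟩, h, h', hQxy, rfl⟩

/-- `|P_e| = 1`, for curves propositionally equal to the two fibres of a model over `A`. -/
theorem s12b_P_unit_key (WA : WeierstrassCurve A) [DecidableEq (ResidueField A)] {p : ℕ}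
    (hp : p.Prime) (hp2 : p ≠ 2) (hvp : A.valuation (p : K) = 1)
    (W' : WeierstrassCurve K) (hW' : s41a_WK A WA = W')
    (Wκ : WeierstrassCurve (ResidueField A)) (hWκ : s41a_Wk A WA = Wκ)
    (Q : W'.toAffine.Point) (hQ : addOrderOf Q = p)
    (hE0 : A.valuation W'.Δ = 1 ∨ s15b_InZero A W' Wκ Q)
    {e f : K} (he : e ∈ A) (hf : f ∈ A) (hT : W'.toAffine.Nonsingular e f)
    (h2T : (2 : ℕ) • (Point.some e f hT : W'.toAffine.Point) = 0) :
    A.valuation (s12s_P W' Q p e) = 1 := by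
  subst hW' hWκ
  have h2 := hp.two_le
  have hQ0 : Q ≠ 0 := by
    have := s15b_nsmul_ne_zero hQ (j := 1) (by omega) (by omega)
    rwa [one_nsmul] at this
  have hpQ : p • Q = 0 := by rw [← hQ, addOrderOf_nsmul_eq_zero]
  obtain ⟨Qt, hR⟩ : ∃ Qt, s58g_Red A WA Q Qt := by
    rcases hE0 with hgood | hin
    · exact s12b_red_of_good hp hp2 hvp hgood hpQ hQ0
    · exact s12b_red_of_inZero A WA hp hp2 hvp Q hpQ hQ0 hin
  exact s12b_P_unit hp hp2 hvp hQ hR (e := ⟨e, he⟩) (f := ⟨f, hf⟩) hT h2T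

end Key

section IntShape

/-- `|P_e| = 1` for an integral Weierstrass curve, at a place `A ∣ ℓ`, `ℓ ≠ p`. -/
theorem s12b_P_unit_int (W : WeierstrassCurve ℤ) {p ℓ : ℕ} (hp : p.Prime) (hp2 : p ≠ 2)
    (hℓ : ℓ.Prime) (hℓp : ℓ ≠ p) (A : ValuationSubring Kb) (hA : A.LiesOverPrime ℓ)
    (Q : ((W.map (Int.castRingHom ℚ))⁄Kb).Point) (hQ : addOrderOf Q = p)
    (hE0 : ¬ (ℓ : ℤ) ∣ W.Δ ∨ W.InZeroComponentAt A Q)
    {e f : Kb} (he : e ∈ A) (hf : f ∈ A)
    (hT : ((W.map (Int.castRingHom ℚ)).baseChange Kb).toAffine.Nonsingular e f)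
    (h2T : (2 : ℕ) • (Point.some e f hT :
      ((W.map (Int.castRingHom ℚ)).baseChange Kb).toAffine.Point) = 0) :
    A.valuation (s12s_P ((W.map (Int.castRingHom ℚ)).baseChange Kb) Q p e) = 1 := by
  classical
  have hvp : A.valuation ((p : ℕ) : Kb) = 1 :=
    s41a_valuation_natCast_eq_one A hℓ hA (fun hdv =>
      hℓp ((Nat.prime_dvd_prime_iff_eq hℓ hp).mp hdv))
  have hWK : s41a_WK A (W.map (Int.castRingHom A)) =
      (W.map (Int.castRingHom ℚ)).baseChange Kb := by
    show (W.map (Int.castRingHom A)).map A.subtype =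
      (W.map (Int.castRingHom ℚ)).map (algebraMap ℚ Kb)
    rw [WeierstrassCurve.map_map, WeierstrassCurve.map_map]
    congr 1
  have hWk : s41a_Wk A (W.map (Int.castRingHom A)) =
      W.map (Int.castRingHom (ResidueField A)) := by
    show (W.map (Int.castRingHom A)).map (residue A) = _
    rw [WeierstrassCurve.map_map]
    congr 1
  refine s12b_P_unit_key A (W.map (Int.castRingHom A)) hp hp2 hvp _ hWK _ hWk Q hQ ?_ he hf hT h2T
  rcases hE0 with hgood | hin
  · left
    rw [s15b_bc_Δ]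
    exact s41a_valuation_intCast_eq_one A hℓ hA hgood
  · right
    exact hin

end IntShape

end Fermat.Agent.Lib.S12
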