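/-
(M) BLUEPRINT S12 (helper6, prefix `s12n_`): the Frey curve has no Galois-stable cofixed line for
`p ≥ 17` — contract graph and CHECKED wiring.  NOT FOR MAIN yet.

ROUTE (no quotient curve, no Vélu theorem, no Tate curve).  `N = ⟨Q⟩ ⊂ E[p]` cofixed.
* the place `x` of `X₀(p)` with VALUES `(j', j(E))`, `j' = s15d_j' E Q p` (Vélu quantities), is
  Galois-fixed; `Q ∈ E₀` at `A ∣ ℓ` iff `x` reduces to the cusp `0`, `Q ∉ E₀` iff to `∞`
  (`s15d_Val`, `s15d_Dich`, `s15d_Red`);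
* [N-CORE] (= the wiring of `m15_S15_of'` for an abstract place): reduction to the cusp `0` at `2`
  and `3` forces reduction `≠ ∞` at every `ℓ ≥ 5`, `ℓ ≠ p`;
* [N-L2], [N-L3]: `Q ∈ E₀` at `2` and `3` (and `3 ∣ abc`);
* [N-STAR] (DONE, helper5 `s12s_star_Kb`, StarKb.lean):
  `(e₂-e₁)^p P₃² + (e₃-e₂)^p P₁² + (e₁-e₃)^p P₂² = 0`, `P_i = s12s_P E Q p e_i =
  Π_{0<k<p} (x(kQ) - e_i)`, `e_i` the `2`-torsion abscissae; [N-RAT] (DONE, helper5 `s12s_j'_rat`,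
  `s12s_P_rat`, StarRat.lean): `j'`, `P_e ∈ ℚ`;
* [N-VAL]: the valuations of the `P_i`; [N-FIN]: the final inequality.
-/
import Fermat.Agent.Lib.S15.MGraph2
import Fermat.Agent.Lib.S15.DMod
import Fermat.Agent.Lib.S12.StarAn
import Fermat.Prelude.Def_FLTPrelim_CofixedLine

set_option autoImplicit false
set_option linter.unusedSectionVars false
set_option linter.unusedVariables false
set_option linter.style.haveILetI false

noncomputable section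

namespace Fermat.Agent.Lib.S12

open ModularCurve AlgebraicCurve WeierstrassCurve WeierstrassCurve.Affine
open Fermat.Agent.Lib.S15

local notation "Kb" => AlgebraicClosure ℚ
local notation "GQ" => (AlgebraicClosure ℚ ≃ₐ[ℚ] AlgebraicClosure ℚ)

/-! ### [N-CORE] -/

/-- **[N-CORE]** the wiring of `m15_S15_of'` for an abstract Galois-fixed place. -/
theorem s12n_core (hC : m15_CuspNode) (hE : m15_Eis') (hR : m15_R) (hT : m15_Tprime')
    (h23 : m15_Red23) {p : ℕ} [NeZero p] (hp : p.Prime)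
    (hp' : p ∉ ({2, 3, 5, 7, 13} : Finset ℕ)) :
    ∃ c : m15_Cusps p, ∀ x : m15_Pl p, (∀ σ : GQ, m15_gal p σ x = x) →
      (∀ (A : ValuationSubring Kb), A.LiesOverPrime 2 → ∀ h : ReductionInputsModL A p,
        placeReductionModL h x = placeReductionModL h c.zero) →
      (∀ (A : ValuationSubring Kb), A.LiesOverPrime 3 → ∀ h : ReductionInputsModL A p,
        placeReductionModL h x = placeReductionModL h c.zero) →
      ∀ ℓ : ℕ, ℓ.Prime → 5 ≤ ℓ → ℓ ≠ p → ∀ (A : ValuationSubring Kb), A.LiesOverPrime ℓ →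
        ∀ h : ReductionInputsModL A p, placeReductionModL h x ≠ placeReductionModL h c.inf := by
  have hp5 : 5 ≤ p := by
    by_contra hlt
    rw [not_le] at hlt
    have h2' := hp.two_le
    simp only [Finset.mem_insert, Finset.mem_singleton, not_or] at hp'
    interval_cases p
    · exact hp'.1 rfl
    · exact hp'.2.1 rfl
    · exact absurd hp (by norm_num)
  have h2np : ¬ 2 ∣ p := fun h => by
    have := (Nat.prime_dvd_prime_iff_eq Nat.prime_two hp).mp h; omega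
  have h3np : ¬ 3 ∣ p := fun h => by
    have := (Nat.prime_dvd_prime_iff_eq Nat.prime_three hp).mp h; omega
  haveI : Fact (Nat.Prime 2) := ⟨Nat.prime_two⟩
  haveI : Fact (Nat.Prime 3) := ⟨Nat.prime_three⟩
  obtain ⟨A₂, hA₂⟩ := Fermat.Agent.Lib.Mz.ptm_exists_liesOverPrime 2 Nat.prime_two
  obtain ⟨A₃, hA₃⟩ := Fermat.Agent.Lib.Mz.ptm_exists_liesOverPrime 3 Nat.prime_three
  have hred₂ : ReductionInputsModL A₂ p := by
    obtain ⟨r, hr⟩ := h23 p hp hp5 2 (Or.inl rfl) A₂ hA₂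
    exact ⟨r, hr, Fermat.Agent.Lib.S37.s37g_principalGenerated p h2np A₂ hA₂⟩
  have hred₃ : ReductionInputsModL A₃ p := by
    obtain ⟨r, hr⟩ := h23 p hp hp5 3 (Or.inr rfl) A₃ hA₃
    exact ⟨r, hr, Fermat.Agent.Lib.S37.s37g_principalGenerated p h3np A₃ hA₃⟩
  obtain ⟨c, hcinf, hczero, hdeg⟩ := hC p hp
  obtain ⟨t, htT', httors, htc⟩ := hE p hp hp' c
  have htT : t ∈ m15_T p := m15_Tg_le p htT'
  refine ⟨c, ?_⟩
  intro x hxfix hx2 hx3 ℓ hℓ hℓ5 hℓp A hA hred hin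
  -- Step A: `t • cl(x − 0) = 0`
  have hz'fix : ∀ σ : GQ, σ • m15_cl p x c.zero = m15_cl p x c.zero := by
    intro σ
    rw [m15_gal_cl hdeg, hxfix, hczero]
  obtain ⟨m, hm, hmt⟩ := httors _ hz'fix
  have hA2 : reductionModL A₂ p (t (m15_cl p x c.zero)) = 0 := by
    refine hR p hp 2 Nat.prime_two (by omega) A₂ hA₂ hred₂ t htT _ ?_
    exact m15_red_cl hdeg hred₂ (hx2 A₂ hA₂ hred₂)
  have hA3 : reductionModL A₃ p (t (m15_cl p x c.zero)) = 0 := by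
    refine hR p hp 3 Nat.prime_three (by omega) A₃ hA₃ hred₃ t htT _ ?_
    exact m15_red_cl hdeg hred₃ (hx3 A₃ hA₃ hred₃)
  have hstepA : t (m15_cl p x c.zero) = 0 :=
    m15_eq_zero_of_red23 h2np h3np hA₂ hA₃ hred₂ hred₃ _ hm hmt hA2 hA3
  -- Step B: `red_A (t • cl(x − ∞)) = 0`
  have hB : reductionModL A p (t (m15_cl p x c.inf)) = 0 := by
    refine hR p hp ℓ hℓ hℓp A hA hred t htT _ ?_
    exact m15_red_cl hdeg hred hin
  have hsplit : m15_cl p x c.inf = m15_cl p x c.zero + m15_cl p c.zero c.inf :=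
    m15_cl_add hdeg x c.zero c.inf
  rw [hsplit, map_add, hstepA, zero_add] at hB
  exact htc (hT p hp c ℓ hℓ hℓ5 hℓp A hA hred t htT' hB)


/-! ### Vocabulary -/

/-- the points of the Frey curve over `ℚ̄`, on the integral model, in the shape of S15. -/
abbrev s12n_Pt (P : FreyPackage) : Type :=
  ((P.freyCurveInt.map (Int.castRingHom ℚ))⁄Kb).Point

/-- the Frey curve over `ℚ̄`. -/
abbrev s12n_E (P : FreyPackage) : WeierstrassCurve Kb :=
  (P.freyCurveInt.map (Int.castRingHom ℚ)).baseChange Kb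

/-- `Q` generates a Galois-stable cofixed line of `E[p]`. -/
def s12n_IsCofixed (P : FreyPackage) (Q : s12n_Pt P) : Prop :=
  addOrderOf Q = P.p ∧ (∀ σ : GQ, ∃ k : ℕ, σ • Q = k • Q) ∧
    ∀ (σ : GQ) (x : s12n_Pt P), P.p • x = 0 → ∃ k : ℕ, σ • x - x = k • Q

/-- the abscissa `A/4` of a `2`-torsion point of the Frey model, `A = a^p`. -/
def s12n_e2 (P : FreyPackage) : ℚ := (P.a : ℚ) ^ P.p / 4

/-- the abscissa `-B/4` of a `2`-torsion point of the Frey model, `B = b^p`. -/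
def s12n_e3 (P : FreyPackage) : ℚ := -((P.b : ℚ) ^ P.p) / 4

/-! ### The nodes -/

/-- **[N-AR]** arithmetic of the integral Frey model. -/
def s12n_Arith : Prop :=
  ∀ P : FreyPackage,
    P.freyCurveInt.map (Int.castRingHom ℚ) = P.freyCurve ∧ P.freyCurveInt.Δ ≠ 0 ∧
    (∀ ℓ : ℕ, ℓ.Prime → ((ℓ : ℤ) ∣ P.freyCurveInt.Δ ↔ (ℓ : ℤ) ∣ P.a * P.b * P.c)) ∧
    (∀ ℓ : ℕ, ℓ.Prime → (ℓ : ℤ) ∣ P.freyCurveInt.Δ → ¬ (ℓ : ℤ) ∣ P.freyCurveInt.c₄)

/-- **[N-AR2]** the `2`-torsion abscissae `0`, `A/4`, `-B/4` of the Frey model over `ℚ̄` (Vieta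
form, as consumed by `s12s_star_Kb`). -/
def s12n_Roots : Prop :=
  ∀ P : FreyPackage, (s12n_E P).Δ ≠ 0 ∧
    algebraMap ℚ Kb (s12n_e2 P) + algebraMap ℚ Kb (s12n_e3 P) = -(s12n_E P).b₂ / 4 ∧
    algebraMap ℚ Kb (s12n_e2 P) * algebraMap ℚ Kb (s12n_e3 P) = (s12n_E P).b₄ / 2 ∧
    (s12n_E P).b₆ = 0

/-- **[N-LINE]** a Galois-stable cofixed line is generated by a point `Q` of order `p`
(uses `#E[p] = p²`, S13-(A)). -/
def s12n_Line : Prop :=
  ∀ P : FreyPackage,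
    WeierstrassCurve.Affine.Point.HasGaloisStableCofixedLine (K := Kb) ℚ P.freyCurve P.p →
      ∃ Q : s12n_Pt P, s12n_IsCofixed P Q

/-- **[N-PL]** the two places over `(E, ⟨Q⟩)`: values `(j, j')` and (Atkin–Lehner) `(j', j)`;
and (AN1).  From `s15d_AnKb`, `s15d_Bridge` (at `τ` and at `-1/(pτ)`), `s15d_PlaceExists`. -/
def s12n_Places : Prop :=
  ∀ (p : ℕ) [NeZero p], p.Prime → p ≠ 2 → ∀ (W : WeierstrassCurve ℤ), W.Δ ≠ 0 →
    ∀ Q : ((W.map (Int.castRingHom ℚ))⁄Kb).Point, addOrderOf Q = p →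
      s15d_AN1 ((W.map (Int.castRingHom ℚ)).baseChange Kb) Q p ∧
      (∃ y : m15_Pl p, s15d_HasValues p y (algebraMap ℚ Kb (s15d_j W))
        (s15d_j' ((W.map (Int.castRingHom ℚ)).baseChange Kb) Q p)) ∧
      (∃ x : m15_Pl p, s15d_HasValues p x
        (s15d_j' ((W.map (Int.castRingHom ℚ)).baseChange Kb) Q p) (algebraMap ℚ Kb (s15d_j W)))

/-- **[N-L2]** a cofixed line is canonical at `2`. -/
def s12n_L2 : Prop :=
  ∀ (P : FreyPackage) (Q : s12n_Pt P), s12n_IsCofixed P Q →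
    ∀ A : ValuationSubring Kb, A.LiesOverPrime 2 → P.freyCurveInt.InZeroComponentAt A Q

/-- **[N-L3]** a cofixed line forces `3 ∣ abc` (point count on the good fibre) and is canonical
at `3` (point count on the nodal fibre). -/
def s12n_L3 : Prop :=
  ∀ (P : FreyPackage), 11 ≤ P.p → ∀ Q : s12n_Pt P, s12n_IsCofixed P Q →
    (3 : ℤ) ∣ P.a * P.b * P.c ∧
      ∀ A : ValuationSubring Kb, A.LiesOverPrime 3 → P.freyCurveInt.InZeroComponentAt A Q

/-- **[N-VO]** at an odd prime `ℓ ≠ p` the three `P_e` are units, provided the line is canonical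
at `ℓ` when `ℓ ∣ abc`. -/
def s12n_ValOdd : Prop :=
  ∀ (P : FreyPackage) (Q : s12n_Pt P), s12n_IsCofixed P Q → ∀ ℓ : ℕ, ℓ.Prime → ℓ ≠ 2 → ℓ ≠ P.p →
    ∀ A : ValuationSubring Kb, A.LiesOverPrime ℓ →
      ((ℓ : ℤ) ∣ P.a * P.b * P.c → P.freyCurveInt.InZeroComponentAt A Q) →
      A.valuation (s12s_P (s12n_E P) Q P.p 0) = 1 ∧
      A.valuation (s12s_P (s12n_E P) Q P.p (algebraMap ℚ Kb (s12n_e2 P))) = 1 ∧
      A.valuation (s12s_P (s12n_E P) Q P.p (algebraMap ℚ Kb (s12n_e3 P))) = 1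

/-- **[N-V2]** at `2` (canonical line): `P_0`, `P_{-B/4}` are units and `|P_{A/4}| = |2|^{-2(p-1)}`. -/
def s12n_ValTwo : Prop :=
  ∀ (P : FreyPackage) (Q : s12n_Pt P), s12n_IsCofixed P Q →
    ∀ A : ValuationSubring Kb, A.LiesOverPrime 2 → P.freyCurveInt.InZeroComponentAt A Q →
      A.valuation (s12s_P (s12n_E P) Q P.p 0) = 1 ∧
      A.valuation (s12s_P (s12n_E P) Q P.p (algebraMap ℚ Kb (s12n_e2 P))) *
        A.valuation (2 : Kb) ^ (2 * (P.p - 1)) = 1 ∧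
      A.valuation (s12s_P (s12n_E P) Q P.p (algebraMap ℚ Kb (s12n_e3 P))) = 1

/-- **[N-VP]** at `p`: the line lies in the kernel of reduction, so the three `P_e` have the same
absolute value. -/
def s12n_ValP : Prop :=
  ∀ (P : FreyPackage) (Q : s12n_Pt P), s12n_IsCofixed P Q →
    ∀ A : ValuationSubring Kb, A.LiesOverPrime P.p →
      A.valuation (s12s_P (s12n_E P) Q P.p 0) =
        A.valuation (s12s_P (s12n_E P) Q P.p (algebraMap ℚ Kb (s12n_e2 P))) ∧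
      A.valuation (s12s_P (s12n_E P) Q P.p 0) =
        A.valuation (s12s_P (s12n_E P) Q P.p (algebraMap ℚ Kb (s12n_e3 P)))

/-- **[N-FIN]** the final arithmetic: rationals `r₁ r₂ r₃ ≠ 0` with `|r₁| = |r₃|` at all primes,
`|r₂| = |r₁|` at all odd primes and `|r₂| = |2|^{-2(p-1)} |r₁|` at `2` cannot satisfy
`A^p r₃² - (A+B)^p r₁² + B^p r₂² = 0`. -/
def s12n_Fin : Prop :=
  ∀ (p : ℕ), Odd p → 3 ≤ p → ∀ (a b r₁ r₂ r₃ : ℚ), a ≠ 0 → b ≠ 0 → a + b ≠ 0 →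
    r₁ ≠ 0 → r₂ ≠ 0 → r₃ ≠ 0 →
    (∀ ℓ : ℕ, ℓ.Prime → padicValRat ℓ r₃ = padicValRat ℓ r₁) →
    (∀ ℓ : ℕ, ℓ.Prime → ℓ ≠ 2 → padicValRat ℓ r₂ = padicValRat ℓ r₁) →
    padicValRat 2 r₂ = padicValRat 2 r₁ - 2 * ((p : ℤ) - 1) →
    a ^ p * r₃ ^ 2 - (a + b) ^ p * r₁ ^ 2 + b ^ p * r₂ ^ 2 ≠ 0

end Fermat.Agent.Lib.S12
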