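/-
S12 shortcut, node [N-VO] (helper2, prefix `s12b_`): **`s12b_ValOdd : s12n_Arith → s12n_Roots →
s12n_ValOdd`** — at an odd prime `ℓ ≠ p` the three `P_e`, `e ∈ {0, A/4, -B/4}`, are units, provided
the line is canonical at `ℓ` when `ℓ ∣ abc`.
-/
import Fermat.Agent.Lib.S12.BKey
import Fermat.Agent.Lib.S12.NGraph

set_option autoImplicit false
set_option linter.unusedSectionVars false
set_option linter.unusedVariables false

noncomputable section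

namespace Fermat.Agent.Lib.S12

open WeierstrassCurve WeierstrassCurve.Affine IsLocalRing Finset
open Fermat.Agent.Lib.S58 Fermat.Agent.Lib.S41 Fermat.Agent.Lib.S18
open Fermat.Agent.Lib.S15

local notation "Kb" => AlgebraicClosure ℚ

/-- the three roots of the `2`-division polynomial, from Vieta. -/
theorem s12b_roots {F : Type*} [Field F] (W : WeierstrassCurve F) {e₂ e₃ : F}
    (hs : e₂ + e₃ = -W.b₂ / 4) (hp : e₂ * e₃ = W.b₄ / 2) (hb6 : W.b₆ = 0) (h2 : (2 : F) ≠ 0) :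
    (4 * (0 : F) ^ 3 + W.b₂ * (0 : F) ^ 2 + 2 * W.b₄ * (0 : F) + W.b₆ = 0) ∧
    (4 * e₂ ^ 3 + W.b₂ * e₂ ^ 2 + 2 * W.b₄ * e₂ + W.b₆ = 0) ∧
    (4 * e₃ ^ 3 + W.b₂ * e₃ ^ 2 + 2 * W.b₄ * e₃ + W.b₆ = 0) := by
  have h4 : (4 : F) ≠ 0 := by
    have : (4 : F) = 2 * 2 := by norm_num
    rw [this]; exact mul_ne_zero h2 h2
  have hb2 : W.b₂ = -4 * (e₂ + e₃) := by rw [hs]; field_simp
  have hb4 : W.b₄ = 2 * (e₂ * e₃) := by rw [hp]; field_simp
  refine ⟨by rw [hb6]; ring, by rw [hb6, hb2, hb4]; ring, by rw [hb6, hb2, hb4]; ring⟩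

/-- a rational number `n / d`, `ℓ ∤ d`, is integral at `A ∣ ℓ`. -/
theorem s12b_div_mem {A : ValuationSubring Kb} {ℓ : ℕ} (hℓ : ℓ.Prime) (hA : A.LiesOverPrime ℓ)
    (n : ℤ) {d : ℕ} (hd : ¬ ℓ ∣ d) : ((n : ℤ) : Kb) / ((d : ℕ) : Kb) ∈ A := by
  rw [← A.valuation_le_one_iff, map_div₀, s41a_valuation_natCast_eq_one A hℓ hA hd, div_one]
  exact (A.valuation_le_one_iff _).mpr (intCast_mem A n)

theorem s12b_ValOdd (hAr : s12n_Arith) (hRoots : s12n_Roots) : s12n_ValOdd := by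
  intro P Q hcof ℓ hℓ hℓ2 hℓp A hA hE0
  obtain ⟨hcurve, hΔ, hbad, hc4⟩ := hAr P
  obtain ⟨hΔK, hsum, hprod, hb6⟩ := hRoots P
  have hQ : addOrderOf Q = P.p := hcof.1
  have hp2 : P.p ≠ 2 := by have := P.hp5; omega
  have hE0' : ¬ (ℓ : ℤ) ∣ P.freyCurveInt.Δ ∨ P.freyCurveInt.InZeroComponentAt A Q := by
    by_cases h : (ℓ : ℤ) ∣ P.freyCurveInt.Δ
    · exact Or.inr (hE0 ((hbad ℓ hℓ).mp h))
    · exact Or.inl h
  have h2K : (2 : Kb) ≠ 0 := two_ne_zero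
  obtain ⟨r0, r2, r3⟩ := s12b_roots (s12n_E P) hsum hprod hb6 h2K
  -- `2` and `4` are units at `ℓ`
  have hℓ2' : ¬ ℓ ∣ 2 := fun h => hℓ2 ((Nat.prime_dvd_prime_iff_eq hℓ Nat.prime_two).mp h)
  have hℓ4 : ¬ ℓ ∣ 4 := fun h => by
    have : ℓ ∣ 2 * 2 := by simpa using h
    rcases (Nat.Prime.dvd_mul hℓ).mp this with h' | h' <;> exact hℓ2' h'
  have hv2 : A.valuation (2 : Kb) = 1 := by
    have := s41a_valuation_natCast_eq_one A hℓ hA hℓ2'
    simpa using this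
  -- integrality of the coefficients
  have hW := s58e_integral P.freyCurveInt A
  have ha1 : (s12n_E P).a₁ ∈ A := (A.valuation_le_one_iff _).mp hW.a1
  have ha3 : (s12n_E P).a₃ ∈ A := (A.valuation_le_one_iff _).mp hW.a3
  have hhalf : ∀ z : Kb, z ∈ A → z / 2 ∈ A := by
    intro z hz
    rw [← A.valuation_le_one_iff, map_div₀, hv2, div_one]
    exact (A.valuation_le_one_iff _).mpr hz
  have hf : ∀ e : Kb, e ∈ A → -((s12n_E P).a₁ * e + (s12n_E P).a₃) / 2 ∈ A := fun e he =>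
    hhalf _ (neg_mem (add_mem (mul_mem ha1 he) ha3))
  -- integrality of the abscissae
  have he0 : (0 : Kb) ∈ A := zero_mem A
  have he2 : algebraMap ℚ Kb (s12n_e2 P) ∈ A := by
    have : algebraMap ℚ Kb (s12n_e2 P) = (((P.a ^ P.p : ℤ) : ℤ) : Kb) / ((4 : ℕ) : Kb) := by
      unfold s12n_e2
      rw [map_div₀, map_pow]
      push_cast
      simp
    rw [this]
    exact s12b_div_mem hℓ hA _ hℓ4
  have he3 : algebraMap ℚ Kb (s12n_e3 P) ∈ A := by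
    have : algebraMap ℚ Kb (s12n_e3 P) = (((-(P.b ^ P.p) : ℤ) : ℤ) : Kb) / ((4 : ℕ) : Kb) := by
      unfold s12n_e3
      rw [map_div₀, map_neg, map_pow]
      push_cast
      simp
    rw [this]
    exact s12b_div_mem hℓ hA _ hℓ4
  obtain ⟨hT0, h2T0⟩ := s12b_two_torsion (s12n_E P) h2K hΔK r0
  obtain ⟨hT2, h2T2⟩ := s12b_two_torsion (s12n_E P) h2K hΔK r2
  obtain ⟨hT3, h2T3⟩ := s12b_two_torsion (s12n_E P) h2K hΔK r3
  exact ⟨s12b_P_unit_int P.freyCurveInt P.pp hp2 hℓ hℓp A hA Q hQ hE0' he0 (hf 0 he0) hT0 h2T0,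
    s12b_P_unit_int P.freyCurveInt P.pp hp2 hℓ hℓp A hA Q hQ hE0' he2 (hf _ he2) hT2 h2T2,
    s12b_P_unit_int P.freyCurveInt P.pp hp2 hℓ hℓp A hA Q hQ hE0' he3 (hf _ he3) hT3 h2T3⟩

end Fermat.Agent.Lib.S12
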