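/-
S12 shortcut, node [N-V2] (helper2, prefix `s12b_`): **`s12b_ValTwo : s12n_Roots → s12n_ValTwo`** —
at `2` (canonical line): `P_0`, `P_{-B/4}` are units and `|P_{A/4}| |2|^{2(p-1)} = 1`.
-/
import Fermat.Agent.Lib.S12.BValOdd
import Fermat.Agent.Lib.F2.WireArith

set_option autoImplicit false
set_option linter.unusedSectionVars false
set_option linter.unusedVariables false

noncomputable section

namespace Fermat.Agent.Lib.S12

open WeierstrassCurve WeierstrassCurve.Affine IsLocalRing Finset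
open Fermat.Agent.Lib.S58 Fermat.Agent.Lib.S41 Fermat.Agent.Lib.S18 Fermat.Agent.Lib.F2
open Fermat.Agent.Lib.S15

local notation "Kb" => AlgebraicClosure ℚ

/-- `8 ∣ b^p`. -/
theorem s12b_eight_dvd (P : FreyPackage) : ∃ m : ℤ, P.b ^ P.p = 8 * m := by
  obtain ⟨b', hb'⟩ := ftx_b_even P
  have h5 := P.hp5
  refine ⟨2 ^ (P.p - 3) * b' ^ P.p, ?_⟩
  rw [hb', mul_pow]
  have : (2 : ℤ) ^ P.p = 8 * 2 ^ (P.p - 3) := by
    have e : P.p = 3 + (P.p - 3) := by omega
    nth_rewrite 1 [e]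
    rw [pow_add]
    norm_num
  rw [this]
  ring

theorem s12b_E_a₁ (P : FreyPackage) : (s12n_E P).a₁ = 1 := by
  show algebraMap ℚ Kb ((Int.castRingHom ℚ) (1 : ℤ)) = 1
  simp

theorem s12b_E_a₃ (P : FreyPackage) : (s12n_E P).a₃ = 0 := by
  show algebraMap ℚ Kb ((Int.castRingHom ℚ) (0 : ℤ)) = 0
  simp

theorem s12b_ValTwo (hRoots : s12n_Roots) : s12n_ValTwo := by
  intro P Q hcof A hA hin
  obtain ⟨hΔK, hsum, hprod, hb6⟩ := hRoots P
  have hQ : addOrderOf Q = P.p := hcof.1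
  have h5 := P.hp5
  have hp2 : P.p ≠ 2 := by omega
  have hℓp : (2 : ℕ) ≠ P.p := by omega
  have h2K : (2 : Kb) ≠ 0 := two_ne_zero
  obtain ⟨r0, r2, r3⟩ := s12b_roots (s12n_E P) hsum hprod hb6 h2K
  obtain ⟨hT0, h2T0⟩ := s12b_two_torsion (s12n_E P) h2K hΔK r0
  obtain ⟨hT3, h2T3⟩ := s12b_two_torsion (s12n_E P) h2K hΔK r3
  obtain ⟨m, hm⟩ := s12b_eight_dvd P
  have hv2 : A.valuation (2 : Kb) < 1 := by
    have : A.valuation ((2 : ℕ) : Kb) < 1 := hA
    simpa using this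
  have hv2ne : A.valuation (2 : Kb) ≠ 0 := (map_ne_zero _).mpr h2K
  -- the abscissa `-B/4 = -2m` and the ordinate `m`
  have he3 : algebraMap ℚ Kb (s12n_e3 P) = (((-2 * m : ℤ) : ℤ) : Kb) := by
    unfold s12n_e3
    have : -((P.b : ℚ) ^ P.p) / 4 = ((-2 * m : ℤ) : ℚ) := by
      have h : ((P.b : ℚ) ^ P.p) = 8 * (m : ℚ) := by exact_mod_cast hm
      rw [h]
      push_cast
      ring
    rw [this, map_intCast]
  have he3A : algebraMap ℚ Kb (s12n_e3 P) ∈ A := by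
    rw [he3]; exact intCast_mem A _
  have hf3A : -((s12n_E P).a₁ * algebraMap ℚ Kb (s12n_e3 P) + (s12n_E P).a₃) / 2 ∈ A := by
    have : -((s12n_E P).a₁ * algebraMap ℚ Kb (s12n_e3 P) + (s12n_E P).a₃) / 2 =
        ((m : ℤ) : Kb) := by
      rw [s12b_E_a₁, s12b_E_a₃, he3]
      push_cast
      field_simp
      ring
    rw [this]; exact intCast_mem A _
  have hf0A : -((s12n_E P).a₁ * (0 : Kb) + (s12n_E P).a₃) / 2 ∈ A := by
    rw [s12b_E_a₃, mul_zero, add_zero, neg_zero, zero_div]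
    exact zero_mem A
  refine ⟨s12b_P_unit_int P.freyCurveInt P.pp hp2 Nat.prime_two hℓp A hA Q hQ (Or.inr hin)
      (zero_mem A) hf0A hT0 h2T0, ?_,
    s12b_P_unit_int P.freyCurveInt P.pp hp2 Nat.prime_two hℓp A hA Q hQ (Or.inr hin)
      he3A hf3A hT3 h2T3⟩
  -- the middle one
  have hva : A.valuation (((P.a ^ P.p : ℤ) : ℤ) : Kb) = 1 := by
    refine s41a_valuation_intCast_eq_one A Nat.prime_two hA ?_
    intro hd
    exact ftx_a_odd P (Int.Prime.dvd_pow' Nat.prime_two (by exact_mod_cast hd))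
  have he2 : algebraMap ℚ Kb (s12n_e2 P) = (((P.a ^ P.p : ℤ) : ℤ) : Kb) / (2 : Kb) ^ 2 := by
    unfold s12n_e2
    rw [map_div₀, map_pow]
    push_cast
    norm_num
  have hve2 : A.valuation (algebraMap ℚ Kb (s12n_e2 P)) = (A.valuation (2 : Kb) ^ 2)⁻¹ := by
    rw [he2, map_div₀, hva, map_pow, one_div]
  have hgt : 1 < A.valuation (algebraMap ℚ Kb (s12n_e2 P)) := by
    rw [hve2]
    apply one_lt_inv₀ (pow_pos (zero_lt_iff.mpr hv2ne) 2) |>.mpr
    exact pow_lt_one₀ zero_le hv2 two_ne_zero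
  -- each factor
  have hfac : ∀ k ∈ range (P.p - 1),
      A.valuation (s15d_px (s12n_E P) ((k + 1) • Q) - algebraMap ℚ Kb (s12n_e2 P)) =
        (A.valuation (2 : Kb) ^ 2)⁻¹ := by
    intro k hk
    rw [mem_range] at hk
    have hx : A.valuation (s15d_px (s12n_E P) ((k + 1) • Q)) ≤ 1 := by
      rcases hkQ : (k + 1) • Q with _ | ⟨x, y, h⟩
      · show A.valuation (0 : Kb) ≤ 1
        rw [map_zero]; exact zero_le_one
      · have htors : P.p ^ 1 • (Point.some x y h : (s58e_EK P.freyCurveInt).Point) = 0 := by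
          rw [pow_one, ← hkQ, smul_comm, ← hQ, addOrderOf_nsmul_eq_zero, smul_zero]
        exact (s58e_torsion_integral Nat.prime_two hA P.pp hp2 (Ne.symm hℓp) 1 h htors).1
    rw [Valuation.map_sub_eq_of_lt_right _ (lt_of_le_of_lt hx hgt), hve2]
  unfold s12s_P
  rw [map_prod, prod_congr rfl hfac, prod_const, card_range, ← inv_pow, ← pow_mul, inv_pow,
    mul_comm 2 (P.p - 1)]
  exact inv_mul_cancel₀ (pow_ne_zero _ hv2ne)

end Fermat.Agent.Lib.S12
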