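/-
(M) S12 shortcut, node [N-L2] (helper4, prefix `s12c_`), part b: the Frey curve at `2`.

A point `Q` of order `p` of the Frey curve generating a Galois-stable line lies in `E₀` at every
`A ∣ 2`: otherwise every `σ ∈ I_A` maps `Q` to `± Q` (`s12c_X_fixed`), so `X(Q)` is inertia-fixed,
`v (X(Q)) ∈ ℤ` (`s56r_inertia_int`), which contradicts `gcd (p, 2 m) = 1`, `m = v₂(a₄) = p v₂(b) - 4`
(`ftx_noRat_level`).  (Cofixedness is not needed at `2`.)
-/
import Fermat.Agent.Lib.S12.CL2a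
import Fermat.Agent.Lib.F2.WireNoRatLevel
import Fermat.Agent.Lib.F2.WireArith
import Fermat.Agent.Lib.S56.RLocal
import Fermat.Prelude.Def_EllipticCurve_ZeroComponentAt

set_option autoImplicit false

noncomputable section

namespace Fermat.Agent.Lib.S12

open WeierstrassCurve WeierstrassCurve.Affine WeierstrassCurve.Affine.Point
open Fermat.Agent.Lib.Frey Fermat.Agent.Lib.F2 Fermat.Agent.Lib.S56

local notation "Kb" => AlgebraicClosure ℚ
local notation "GQ" => (AlgebraicClosure ℚ ≃ₐ[ℚ] AlgebraicClosure ℚ)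

/-! ### the integral model -/

/-- `16 ∣ a^p b^p`. -/
theorem s12c_sixteen_dvd (P : FreyPackage) : (16 : ℤ) ∣ -(P.a ^ P.p) * (P.b ^ P.p) := by
  obtain ⟨b', hb'⟩ := ftx_b_even P
  have h16 : (16 : ℤ) ∣ P.b ^ P.p := by
    rw [hb', mul_pow]
    have h4 : (2 : ℤ) ^ 4 ∣ 2 ^ P.p := pow_dvd_pow 2 (by have := P.hp5; omega)
    exact Dvd.dvd.mul_right (by simpa using h4) _
  exact Dvd.dvd.mul_left h16 _

/-- the integral Frey model is a model of the Frey curve. -/
theorem s12c_freyInt_map (P : FreyPackage) :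
    P.freyCurveInt.map (Int.castRingHom ℚ) = P.freyCurve := by
  obtain ⟨k, hk⟩ := ftx_four_dvd P
  obtain ⟨l, hl⟩ := s12c_sixteen_dvd P
  have e2 : (((P.b ^ P.p - 1 - P.a ^ P.p) / 4 : ℤ) : ℚ) =
      ((P.b : ℚ) ^ P.p - 1 - (P.a : ℚ) ^ P.p) / 4 := by
    rw [hk, Int.mul_ediv_cancel_left _ (by norm_num)]
    have : ((P.b : ℚ) ^ P.p - 1 - (P.a : ℚ) ^ P.p) = 4 * (k : ℚ) := by exact_mod_cast hk
    rw [this]; ring
  have e4 : (((-(P.a ^ P.p) * (P.b ^ P.p)) / 16 : ℤ) : ℚ) =
      -((P.a : ℚ) ^ P.p) * ((P.b : ℚ) ^ P.p) / 16 := by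
    rw [hl, Int.mul_ediv_cancel_left _ (by norm_num)]
    have : -((P.a : ℚ) ^ P.p) * ((P.b : ℚ) ^ P.p) = 16 * (l : ℚ) := by exact_mod_cast hl
    rw [this]; ring
  ext
  · simp [FreyPackage.freyCurveInt, FreyPackage.freyCurve]
  · simpa [FreyPackage.freyCurveInt, FreyPackage.freyCurve] using e2
  · simp [FreyPackage.freyCurveInt, FreyPackage.freyCurve]
  · simpa [FreyPackage.freyCurveInt, FreyPackage.freyCurve] using e4
  · simp [FreyPackage.freyCurveInt, FreyPackage.freyCurve]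

/-! ### transport of the Galois action -/

/-- the Galois action on the points of `W'⁄ℚ̄` is the abstract action `fab_sigma`. -/
theorem s12c_transport {W' : WeierstrassCurve ℚ} {a₂ a₄ : Kb}
    (heq : W'.baseChange Kb = ftw_curve a₂ a₄) (σ : GQ)
    (hW : (ftw_curve a₂ a₄).map (σ : Kb →+* Kb) = ftw_curve a₂ a₄)
    (Q : (W'⁄Kb).Point) :
    fab_congr heq (σ • Q) = fab_sigma (σ : Kb →+* Kb) _ hW (fab_congr heq Q) := by
  rcases Q with _ | ⟨X, Y, h⟩
  · have e : σ • (0 : (W'⁄Kb).Point) = 0 := rfl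
    change fab_congr heq (σ • (0 : (W'⁄Kb).Point)) = fab_sigma _ _ hW (fab_congr heq 0)
    rw [e, _root_.map_zero, _root_.map_zero]
  · rw [algEquiv_smul_def, Point.map_some, fab_congr_some, fab_congr_some, fab_sigma_some]
    rfl

/-! ### the node -/

/-- **[N-L2], core form**: a point of order `p` of the Frey curve generating a Galois-stable line
has non-singular reduction at every `A ∣ 2`. -/
theorem s12c_L2_core (P : FreyPackage)
    (Q : ((P.freyCurveInt.map (Int.castRingHom ℚ))⁄Kb).Point)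
    (hord : addOrderOf Q = P.p) (hstab : ∀ σ : GQ, ∃ k : ℕ, σ • Q = k • Q)
    (A : ValuationSubring Kb) (hA : A.LiesOverPrime 2) :
    P.freyCurveInt.InZeroComponentAt A Q := by
  have hq := Nat.prime_two
  set v := ford_vQ A hq hA with hv
  have hv2 : v (2 : Kb) = 1 := by
    have := ford_vQ_q hq hA
    simpa using this
  have hpos2 : (0 : WithTop ℚ) < v (2 : Kb) := by rw [hv2]; exact zero_lt_one
  have hint : ∀ z : ℤ, 0 ≤ v (z : Kb) := ford_vQ_intCast_nonneg hq hA
  rcases Q with _ | ⟨X, Y, h⟩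
  · exact Or.inl rfl
  right
  refine ⟨X, Y, h, rfl, ?_⟩
  by_cases hXA : X ∈ A
  swap
  · exact Or.inl hXA
  right
  have hX0 : 0 ≤ v X := (ford_vQ_nonneg_iff hq hA X).mpr hXA
  -- the model
  set a₂ : Kb := algebraMap ℚ Kb P.freyCurve.a₂ with ha₂
  set a₄ : Kb := algebraMap ℚ Kb P.freyCurve.a₄ with ha₄
  have heq : (P.freyCurveInt.map (Int.castRingHom ℚ)).baseChange Kb = ftw_curve a₂ a₄ := by
    rw [s12c_freyInt_map]
    exact ftx_frey_baseChange P Kb
  have hva₂ : 0 ≤ v a₂ := by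
    obtain ⟨k, hk⟩ := ftx_a₂_int P
    rw [ha₂, hk]
    have : algebraMap ℚ Kb (k : ℚ) = (k : Kb) := map_intCast _ k
    rw [this]
    exact hint k
  have hva₄ : v a₄ = (((ftx_m P : ℕ) : ℚ) : WithTop ℚ) := by
    rw [ha₄, hv, ford_vQ_algebraMap hq hA (ftx_a₄_ne_zero P), ftx_padicValRat_a₄]
    norm_cast
  have hmpos : (0 : ℚ) < ((ftx_m P : ℕ) : ℚ) := by exact_mod_cast ftx_m_pos P
  have hva₄' : 0 ≤ v a₄ := by rw [hva₄]; exact_mod_cast hmpos.le
  have h' : (ftw_curve a₂ a₄).toAffine.Nonsingular X Y := heq ▸ h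
  have hpx : P.p • (Point.some X Y h' : (ftw_curve a₂ a₄).toAffine.Point) = 0 := by
    have h0 : P.p • (Point.some X Y h :
        ((P.freyCurveInt.map (Int.castRingHom ℚ))⁄Kb).Point) = 0 := by
      rw [← hord]; exact addOrderOf_nsmul_eq_zero _
    have := congrArg (fab_congr heq) h0
    rwa [map_nsmul, fab_congr_some, _root_.map_zero] at this
  -- `v X ≤ 0`
  have hvX : v X ≤ 0 := by
    by_contra hpos
    rw [not_le] at hpos
    have hfix : ∀ σ ∈ A.inertiaSubgroupIn ℚ, σ X = X := by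
      intro σ hσ
      obtain ⟨hσv, -⟩ := ford_vQ_inertia hq hA σ hσ
      obtain ⟨k, hk⟩ := hstab σ
      have hWσ : (ftw_curve a₂ a₄).map (σ : Kb →+* Kb) = ftw_curve a₂ a₄ :=
        ftw_curve_map _ (σ.commutes _) (σ.commutes _)
      have hk' := congrArg (fab_congr heq) hk
      rw [s12c_transport heq σ hWσ, map_nsmul, fab_congr_some] at hk'
      exact s12c_X_fixed v hWσ hσv hpos2 hva₂ hva₄ hmpos P.pp h' hpx hpos hk'
    refine ftx_noRat_level v hpos2 hva₂ hva₄ (ftx_m_pos P) (ftx_coprime P) h' hpx hpos ?_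
    intro hXne
    exact s56r_inertia_int hq A hA X hfix hXne
  have hvX0 : v X = 0 := le_antisymm hvX hX0
  have hY0 : 0 ≤ v Y := ftw_y_integral v hva₂ hva₄' hX0 (ftw_eqn h')
  have hYA : Y ∈ A := (ford_vQ_nonneg_iff hq hA Y).mp hY0
  refine ⟨hXA, hYA, ?_⟩
  -- the reduction is non-singular
  have hmap1 : (P.freyCurveInt.map (Int.castRingHom A)).map A.subtype =
      (P.freyCurveInt.map (Int.castRingHom ℚ)).baseChange Kb := by
    rw [WeierstrassCurve.baseChange, WeierstrassCurve.map_map, WeierstrassCurve.map_map]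
    congr 1
  have hmap2 : (P.freyCurveInt.map (Int.castRingHom A)).map (IsLocalRing.residue A) =
      P.freyCurveInt.map (Int.castRingHom (IsLocalRing.ResidueField A)) := by
    rw [WeierstrassCurve.map_map]
    congr 1
  have hE1 : ((P.freyCurveInt.map (Int.castRingHom A)).map A.subtype).toAffine.Equation X Y := by
    rw [hmap1]; exact h.1
  have hEA : (P.freyCurveInt.map (Int.castRingHom A)).toAffine.Equation
      (⟨X, hXA⟩ : A) ⟨Y, hYA⟩ :=
    (Affine.map_equation (W := (P.freyCurveInt.map (Int.castRingHom A)).toAffine)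
      (f := A.subtype) Subtype.val_injective ⟨X, hXA⟩ ⟨Y, hYA⟩).mp hE1
  have hEk : (P.freyCurveInt.map
      (Int.castRingHom (IsLocalRing.ResidueField A))).toAffine.Equation
      (IsLocalRing.residue A ⟨X, hXA⟩) (IsLocalRing.residue A ⟨Y, hYA⟩) := by
    rw [← hmap2]; exact hEA.map (IsLocalRing.residue A)
  rw [Affine.nonsingular_iff']
  refine ⟨hEk, Or.inr ?_⟩
  have h2k : (2 : IsLocalRing.ResidueField A) = 0 := by
    have h2A : ((2 : A) : Kb) ∈ A.nonunits := by
      have h2N : ((2 : ℕ) : Kb) ∈ A.nonunits := hA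
      have e : ((2 : A) : Kb) = (2 : Kb) := map_ofNat A.subtype 2
      rw [e]
      simpa using h2N
    have : (2 : A) ∈ IsLocalRing.maximalIdeal A :=
      (ValuationSubring.coe_mem_nonunits_iff (A := A)).mp h2A
    have h3 := (IsLocalRing.residue_eq_zero_iff (2 : A)).mpr this
    rwa [map_ofNat] at h3
  have hxk : IsLocalRing.residue A ⟨X, hXA⟩ ≠ 0 := by
    intro h0
    have hmem : (⟨X, hXA⟩ : A) ∈ IsLocalRing.maximalIdeal A :=
      (IsLocalRing.residue_eq_zero_iff _).mp h0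
    have : X ∈ A.nonunits := (ValuationSubring.coe_mem_nonunits_iff (A := A)).mpr hmem
    have := (ford_vQ_pos_iff hq hA X).mpr this
    rw [← hv, hvX0] at this
    exact lt_irrefl _ this
  have ha1 : (P.freyCurveInt.map (Int.castRingHom (IsLocalRing.ResidueField A))).a₁ = 1 := by
    simp [FreyPackage.freyCurveInt]
  have ha3 : (P.freyCurveInt.map (Int.castRingHom (IsLocalRing.ResidueField A))).a₃ = 0 := by
    simp [FreyPackage.freyCurveInt]
  rw [ha1, ha3, h2k, zero_mul, zero_add, one_mul, add_zero]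
  exact hxk

end Fermat.Agent.Lib.S12
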