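/-
(M) S12 shortcut, node [N-L2] (helper4, prefix `s12c_`): **`s12c_L2 : s12n_L2`** — a cofixed line
of the Frey curve is canonical at `2` (only the Galois-stability of the line is used).
-/
import Fermat.Agent.Lib.S12.NGraph
import Fermat.Agent.Lib.S12.CL2b

set_option autoImplicit false

namespace Fermat.Agent.Lib.S12

/-- **[N-L2]**. -/
theorem s12c_L2 : s12n_L2 :=
  fun P Q hQ A hA => s12c_L2_core P Q hQ.1 hQ.2.1 A hA

end Fermat.Agent.Lib.S12
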