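/-
(M) S12 shortcut, node [N-L2] (helper4, prefix `s12c_`), part a: the ABSTRACT step.

On `Y² + XY = X³ + a₂ X² + a₄ X` in residue characteristic `2` (`0 < v 2`, `0 ≤ v a₂`,
`v a₄ = m > 0`): if a `p`-torsion point `Q` outside `E₀` generates a line stable under a ring
endomorphism `σ` which preserves `v` and the curve (`σ Q = k • Q`), then `σ Q = ± Q`, hence `σ`
fixes the abscissa of `Q`.  (Unsigned level law: `lvl (σ Q) = lvl Q`, `lvl (k • Q) ≡ ± k lvl Q`.)
-/
import Fermat.Agent.Lib.F2.Inertia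

set_option autoImplicit false

namespace Fermat.Agent.Lib.S12

open WeierstrassCurve WeierstrassCurve.Affine WeierstrassCurve.Affine.Point
open Fermat.Agent.Lib.Frey

/-! ### the abstract level computation -/

section abstractLevel

variable {G : Type*} [AddCommGroup G] {a : G → ℚ} {m : ℚ}

/-- a multiple `k • x` of a `p`-torsion element of non-zero level which has the same level as `x`
is `± x`. -/
theorem s12c_mult_pm (hm : 0 < m) (h0 : ∀ P, 0 ≤ a P) (hle : ∀ P, a P ≤ m)
    (hU : fuc_Law a m) {p : ℕ} (hp : p.Prime) {x : G} (hx : p • x = 0) (hax : a x ≠ 0) {k : ℕ}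
    (hk : a (k • x) = a x) : k • x = x ∨ k • x = -x := by
  have hppos : (0 : ℚ) < p := by exact_mod_cast hp.pos
  have hp2 : (2 : ℚ) ≤ p := by exact_mod_cast hp.two_le
  -- `p * a x = z' * 2m`, `0 < z' < p`
  obtain ⟨z', hz'⟩ : ∃ z' : ℤ, (p : ℚ) * a x = z' * (2 * m) := by
    obtain ⟨z, hz⟩ := fuc_level_nsmul hm h0 hle hU x p
    rw [hx, fuc_level_zero hU] at hz
    rcases hz with hz | hz
    · exact ⟨-z, by push_cast; linarith⟩
    · exact ⟨z, by linarith⟩
  have hapos : 0 < a x := lt_of_le_of_ne (h0 x) (Ne.symm hax)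
  have hz'pos : 0 < z' := by
    by_contra hneg
    rw [not_lt] at hneg
    have : (z' : ℚ) ≤ 0 := by exact_mod_cast hneg
    have h1 : (p : ℚ) * a x ≤ 0 := by rw [hz']; nlinarith
    nlinarith
  have hz'lt : z' < p := by
    by_contra hge
    rw [not_lt] at hge
    have : (p : ℚ) ≤ z' := by exact_mod_cast hge
    have h1 := hle x
    have h2 : (p : ℚ) * (2 * m) ≤ (z' : ℚ) * (2 * m) := by nlinarith
    rw [← hz'] at h2
    nlinarith
  have hpz' : ¬ (p : ℤ) ∣ z' := fun h => by
    have := Int.le_of_dvd hz'pos h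
    omega
  have hpZ : Prime (p : ℤ) := Nat.prime_iff_prime_int.mp hp
  -- the level of `k • x`
  obtain ⟨z, hz⟩ := fuc_level_nsmul hm h0 hle hU x k
  rw [hk] at hz
  have hm2 : (2 * m : ℚ) ≠ 0 := by positivity
  rcases hz with hz | hz
  · -- `(1 - k) a x = z * 2m`
    left
    have h1 : ((1 - (k : ℤ)) * z' : ℤ) = z * p := by
      have : ((1 - (k : ℚ)) * z') * (2 * m) = (z * p) * (2 * m) := by
        have e1 : (1 - (k : ℚ)) * a x = z * (2 * m) := by linarith
        calc ((1 - (k : ℚ)) * z') * (2 * m) = (1 - (k : ℚ)) * (z' * (2 * m)) := by ring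
          _ = (1 - (k : ℚ)) * (p * a x) := by rw [hz']
          _ = p * ((1 - (k : ℚ)) * a x) := by ring
          _ = p * (z * (2 * m)) := by rw [e1]
          _ = (z * p) * (2 * m) := by ring
      have := mul_right_cancel₀ hm2 this
      exact_mod_cast this
    have hdvd : (p : ℤ) ∣ (1 - (k : ℤ)) * z' := ⟨z, by rw [h1]; ring⟩
    rcases hpZ.dvd_or_dvd hdvd with h | h
    · obtain ⟨t, ht⟩ := h
      have hkz : ((k : ℕ) : ℤ) = 1 - p * t := by linarith
      have : ((k : ℕ) : ℤ) • x = x := by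
        rw [hkz, sub_smul, one_smul, mul_comm, mul_smul, natCast_zsmul, hx, smul_zero, sub_zero]
      rwa [natCast_zsmul] at this
    · exact absurd h hpz'
  · -- `(1 + k) a x = z * 2m`
    right
    have h1 : ((1 + (k : ℤ)) * z' : ℤ) = z * p := by
      have : ((1 + (k : ℚ)) * z') * (2 * m) = (z * p) * (2 * m) := by
        have e1 : (1 + (k : ℚ)) * a x = z * (2 * m) := by linarith
        calc ((1 + (k : ℚ)) * z') * (2 * m) = (1 + (k : ℚ)) * (z' * (2 * m)) := by ring
          _ = (1 + (k : ℚ)) * (p * a x) := by rw [hz']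
          _ = p * ((1 + (k : ℚ)) * a x) := by ring
          _ = p * (z * (2 * m)) := by rw [e1]
          _ = (z * p) * (2 * m) := by ring
      have := mul_right_cancel₀ hm2 this
      exact_mod_cast this
    have hdvd : (p : ℤ) ∣ (1 + (k : ℤ)) * z' := ⟨z, by rw [h1]; ring⟩
    rcases hpZ.dvd_or_dvd hdvd with h | h
    · obtain ⟨t, ht⟩ := h
      have hkz : ((k : ℕ) : ℤ) = p * t - 1 := by linarith
      have : ((k : ℕ) : ℤ) • x = -x := by
        rw [hkz, sub_smul, one_smul, mul_comm, mul_smul, natCast_zsmul, hx, smul_zero, zero_sub]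
      rwa [natCast_zsmul] at this
    · exact absurd h hpz'

end abstractLevel

/-! ### the model at `2` -/

section model

variable {K : Type*} [Field K] [DecidableEq K] (v : AddValuation K (WithTop ℚ))
variable {a₂ a₄ : K} {m : ℚ} {σ : K →+* K}
  (hW : (ftw_curve a₂ a₄).map σ = ftw_curve a₂ a₄)

/-- a valuation-preserving `σ` preserves the unsigned level. -/
theorem s12c_lvl_sigma (hm : 0 < m) (hσv : ∀ a, v (σ a) = v a)
    (P : (ftw_curve a₂ a₄).toAffine.Point) :
    fuc_lvl v m (fab_sigma σ _ hW P) = fuc_lvl v m P := by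
  rcases P with _ | ⟨x, y, h⟩
  · change fuc_lvl v m (fab_sigma σ _ hW 0) = fuc_lvl v m 0
    rw [_root_.map_zero]
  · rw [fab_sigma_some]
    refine fuc_lvl_eq_of_isLvl v hm _ ?_
    have := fuc_lvl_some_spec v m h
    unfold fuc_IsLvl at this ⊢
    rw [hσv]
    exact this

/-- **the abstract step**: `σ` fixes the abscissa of a `p`-torsion point outside `E₀` which
generates a `σ`-stable line. -/
theorem s12c_X_fixed (hσv : ∀ a, v (σ a) = v a) (h2 : 0 < v 2) (ha2 : 0 ≤ v a₂)
    (ha4 : v a₄ = (m : WithTop ℚ)) (hm : 0 < m) {p : ℕ} (hp : p.Prime)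
    {X Y : K} (h : (ftw_curve a₂ a₄).toAffine.Nonsingular X Y)
    (hpx : p • (Point.some X Y h) = 0) (hX : 0 < v X) {k : ℕ}
    (hk : fab_sigma σ _ hW (Point.some X Y h) = k • (Point.some X Y h)) : σ X = X := by
  have hc := ftw_ctx_of_two h2 ha2 ha4 hm
  have hlvl : fuc_lvl v m (W := (ftw_curve a₂ a₄).toAffine) (Point.some X Y h) ≠ 0 := by
    intro h0
    rcases (ftw_lvl_eq_zero_iff v hm).mp h0 with h' | ⟨x, y, hxy, hP, hx⟩
    · exact Point.some_ne_zero _ h'
    · have hxx : X = x := by injection hP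
      rw [← hxx] at hx
      exact absurd hX (not_lt.mpr hx)
  have hsame : fuc_lvl v m (k • (Point.some X Y h)) = fuc_lvl v m (Point.some X Y h) := by
    rw [← hk]; exact s12c_lvl_sigma v hW hm hσv _
  rcases s12c_mult_pm hm (fuc_lvl_nonneg v hm) (fuc_lvl_le v hm) (ftw_law v hc) hp hpx hlvl hsame
    with hpm | hpm
  · rw [hpm, fab_sigma_some, Point.some.injEq] at hk
    exact hk.1
  · rw [hpm, fab_sigma_some, Point.neg_some, Point.some.injEq] at hk
    exact hk.1

end model

end Fermat.Agent.Lib.S12
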