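/-
(M)/S12, nodes [N-AR] `s12n_Arith` and [N-AR2] `s12n_Roots` (helper5, prefix `s12s_`): arithmetic of
the integral Frey model `y² + xy = x³ + ((B-1-A)/4) x² - (AB/16) x`, `A = a^p`, `B = b^p`:
`Δ = (AB/16)² (A+B)²`, `c₄ = A² + AB + B²`; the `2`-torsion abscissae `0`, `A/4`, `-B/4`.
-/
import Mathlib
import Fermat.Agent.Lib.S12.NGraph
import Fermat.Agent.Lib.F2.WireArith
import Fermat.Agent.Lib.Frey.FqArith

set_option autoImplicit false
set_option linter.unusedSectionVars false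
set_option linter.unusedVariables false

open WeierstrassCurve Fermat.Agent.Lib.Frey Fermat.Agent.Lib.F2

noncomputable section

namespace Fermat.Agent.Lib.S12

local notation "Kb" => AlgebraicClosure ℚ

/-- `32 ∣ b^p`. -/
theorem s12s_32_dvd (P : FreyPackage) : (32 : ℤ) ∣ P.b ^ P.p := by
  obtain ⟨b', hb'⟩ := ftx_b_even P
  rw [hb', mul_pow]
  have h5 : (2 : ℤ) ^ 5 ∣ 2 ^ P.p := pow_dvd_pow 2 P.hp5
  exact Dvd.dvd.mul_right (by simpa using h5) _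

/-- the coefficients of the integral Frey model. -/
theorem s12s_coeffs (P : FreyPackage) :
    ∃ k n : ℤ, P.b ^ P.p - 1 - P.a ^ P.p = 4 * k ∧ P.b ^ P.p = 32 * n ∧
      P.freyCurveInt.a₁ = 1 ∧ P.freyCurveInt.a₂ = k ∧ P.freyCurveInt.a₃ = 0 ∧
      P.freyCurveInt.a₄ = -2 * P.a ^ P.p * n ∧ P.freyCurveInt.a₆ = 0 := by
  obtain ⟨k, hk⟩ := ftx_four_dvd P
  obtain ⟨n, hn⟩ := s12s_32_dvd P
  refine ⟨k, n, hk, hn, rfl, ?_, rfl, ?_, rfl⟩
  · show (P.b ^ P.p - 1 - P.a ^ P.p) / 4 = k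
    rw [hk]
    exact Int.mul_ediv_cancel_left k (by norm_num)
  · show -(P.a ^ P.p) * (P.b ^ P.p) / 16 = -2 * P.a ^ P.p * n
    rw [hn, show -(P.a ^ P.p) * (32 * n) = 16 * (-2 * P.a ^ P.p * n) by ring]
    exact Int.mul_ediv_cancel_left _ (by norm_num)

/-- `Δ = (2 A n)² (A + B)²`, `B = 32 n`. -/
theorem s12s_Δ (P : FreyPackage) :
    ∃ n : ℤ, P.b ^ P.p = 32 * n ∧
      P.freyCurveInt.Δ = (2 * P.a ^ P.p * n) ^ 2 * (P.a ^ P.p + P.b ^ P.p) ^ 2 ∧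
      P.freyCurveInt.c₄ = (P.a ^ P.p) ^ 2 + P.a ^ P.p * P.b ^ P.p + (P.b ^ P.p) ^ 2 := by
  obtain ⟨k, n, hk, hn, h1, h2, h3, h4, h6⟩ := s12s_coeffs P
  refine ⟨n, hn, ?_, ?_⟩
  · simp only [WeierstrassCurve.Δ, WeierstrassCurve.b₂, WeierstrassCurve.b₄, WeierstrassCurve.b₆,
      WeierstrassCurve.b₈, h1, h2, h3, h4, h6]
    generalize P.a ^ P.p = A at *
    generalize P.b ^ P.p = B at *
    have hA : A = 32 * n - 1 - 4 * k := by linarith
    subst hA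
    subst hn
    ring
  · simp only [WeierstrassCurve.c₄, WeierstrassCurve.b₂, WeierstrassCurve.b₄, h1, h2, h3, h4]
    generalize P.a ^ P.p = A at *
    generalize P.b ^ P.p = B at *
    have hA : A = 32 * n - 1 - 4 * k := by linarith
    subst hA
    subst hn
    ring

/-- the integral model maps to the Frey curve. -/
theorem s12s_map_eq (P : FreyPackage) :
    P.freyCurveInt.map (Int.castRingHom ℚ) = P.freyCurve := by
  obtain ⟨k, n, hk, hn, h1, h2, h3, h4, h6⟩ := s12s_coeffs P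
  have hkq : ((P.b : ℚ) ^ P.p - 1 - (P.a : ℚ) ^ P.p) = 4 * (k : ℚ) := by exact_mod_cast hk
  have hnq : (P.b : ℚ) ^ P.p = 32 * (n : ℚ) := by exact_mod_cast hn
  ext
  · show ((P.freyCurveInt.a₁ : ℤ) : ℚ) = 1
    rw [h1]; simp
  · show ((P.freyCurveInt.a₂ : ℤ) : ℚ) = ((P.b : ℚ) ^ P.p - 1 - (P.a : ℚ) ^ P.p) / 4
    rw [h2, hkq]; ring
  · show ((P.freyCurveInt.a₃ : ℤ) : ℚ) = 0
    rw [h3]; simp
  · show ((P.freyCurveInt.a₄ : ℤ) : ℚ) = -((P.a : ℚ) ^ P.p) * ((P.b : ℚ) ^ P.p) / 16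
    rw [h4, hnq]; push_cast; ring
  · show ((P.freyCurveInt.a₆ : ℤ) : ℚ) = 0
    rw [h6]; simp

/-- **[N-AR]**. -/
theorem s12s_Arith : s12n_Arith := by
  intro P
  obtain ⟨n, hn, hΔ, hc₄⟩ := s12s_Δ P
  have hABC : P.a ^ P.p + P.b ^ P.p = P.c ^ P.p := P.hFLT
  have hA0 : P.a ^ P.p ≠ 0 := pow_ne_zero _ P.ha0
  have hB0 : P.b ^ P.p ≠ 0 := pow_ne_zero _ P.hb0
  have hC0 : P.c ^ P.p ≠ 0 := pow_ne_zero _ P.hc0
  have hn0 : n ≠ 0 := by
    rintro rfl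
    rw [mul_zero] at hn
    exact hB0 hn
  -- divisibility of `Δ`
  have hdiv : ∀ ℓ : ℕ, ℓ.Prime → ((ℓ : ℤ) ∣ P.freyCurveInt.Δ ↔ (ℓ : ℤ) ∣ P.a * P.b * P.c) := by
    intro ℓ hℓ
    have hpr : Prime (ℓ : ℤ) := Nat.prime_iff_prime_int.mp hℓ
    rw [hΔ, hABC]
    constructor
    · intro h
      rcases hpr.dvd_or_dvd h with h1 | h1
      · have h2 := hpr.dvd_of_dvd_pow h1
        rcases hpr.dvd_or_dvd h2 with h3 | h3
        · rcases hpr.dvd_or_dvd h3 with h4 | h4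
          · -- `ℓ ∣ 2`: then `ℓ ∣ b`
            have hb : (ℓ : ℤ) ∣ P.b := h4.trans (ftx_b_even P)
            exact Dvd.dvd.mul_right (Dvd.dvd.mul_left hb _) _
          · exact Dvd.dvd.mul_right (Dvd.dvd.mul_right (hpr.dvd_of_dvd_pow h4) _) _
        · have hB : (ℓ : ℤ) ∣ P.b ^ P.p := by rw [hn]; exact Dvd.dvd.mul_left h3 _
          exact Dvd.dvd.mul_right (Dvd.dvd.mul_left (hpr.dvd_of_dvd_pow hB) _) _
      · exact Dvd.dvd.mul_left (hpr.dvd_of_dvd_pow (hpr.dvd_of_dvd_pow h1)) _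
    · intro h
      rcases hpr.dvd_or_dvd h with h1 | h1
      · rcases hpr.dvd_or_dvd h1 with h2 | h2
        · have hA : (ℓ : ℤ) ∣ P.a ^ P.p := dvd_pow h2 P.hp0
          exact Dvd.dvd.mul_right (dvd_pow (Dvd.dvd.mul_right (Dvd.dvd.mul_left hA _) _)
            two_ne_zero) _
        · have hB : (ℓ : ℤ) ∣ 32 * n := by rw [← hn]; exact dvd_pow h2 P.hp0
          have h2n : (ℓ : ℤ) ∣ 2 * n := by
            rcases hpr.dvd_or_dvd hB with h3 | h3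
            · have : (ℓ : ℤ) ∣ 2 := by
                have h32 : (32 : ℤ) = 2 ^ 5 := by norm_num
                rw [h32] at h3
                exact hpr.dvd_of_dvd_pow h3
              exact Dvd.dvd.mul_right this _
            · exact Dvd.dvd.mul_left h3 _
          have : (ℓ : ℤ) ∣ 2 * P.a ^ P.p * n := by
            rw [show 2 * P.a ^ P.p * n = (2 * n) * P.a ^ P.p by ring]
            exact Dvd.dvd.mul_right h2n _
          exact Dvd.dvd.mul_right (dvd_pow this two_ne_zero) _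
      · exact Dvd.dvd.mul_left (dvd_pow (dvd_pow h1 P.hp0) two_ne_zero) _
  refine ⟨s12s_map_eq P, ?_, hdiv, ?_⟩
  · rw [hΔ, hABC]
    exact mul_ne_zero (pow_ne_zero _ (mul_ne_zero (mul_ne_zero two_ne_zero hA0) hn0))
      (pow_ne_zero _ hC0)
  · intro ℓ hℓ hΔℓ hc₄ℓ
    have hpr : Prime (ℓ : ℤ) := Nat.prime_iff_prime_int.mp hℓ
    have habc := (hdiv ℓ hℓ).mp hΔℓ
    rw [hc₄] at hc₄ℓ
    rcases fq_cases P hℓ with ⟨ha, hb, hc⟩ | ⟨ha, hb, hc⟩ | ⟨hb, ha, hc⟩ | ⟨hc, ha, hb⟩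
    · rcases hpr.dvd_or_dvd habc with h1 | h1
      · rcases hpr.dvd_or_dvd h1 with h2 | h2
        · exact ha h2
        · exact hb h2
      · exact hc h1
    · -- `ℓ ∣ a`: `c₄ ≡ B²`
      have hA : (ℓ : ℤ) ∣ P.a ^ P.p := dvd_pow ha P.hp0
      have h1 : (ℓ : ℤ) ∣ (P.b ^ P.p) ^ 2 := by
        have h2 : (ℓ : ℤ) ∣ (P.a ^ P.p) ^ 2 + P.a ^ P.p * P.b ^ P.p :=
          dvd_add (dvd_pow hA two_ne_zero) (Dvd.dvd.mul_right hA _)
        have := dvd_sub hc₄ℓ h2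
        rwa [add_sub_cancel_left] at this
      exact hb (hpr.dvd_of_dvd_pow (hpr.dvd_of_dvd_pow h1))
    · -- `ℓ ∣ b`: `c₄ ≡ A²`
      have hB : (ℓ : ℤ) ∣ P.b ^ P.p := dvd_pow hb P.hp0
      have h1 : (ℓ : ℤ) ∣ (P.a ^ P.p) ^ 2 := by
        have h2 : (ℓ : ℤ) ∣ P.a ^ P.p * P.b ^ P.p + (P.b ^ P.p) ^ 2 :=
          dvd_add (Dvd.dvd.mul_left hB _) (dvd_pow hB two_ne_zero)
        have := dvd_sub hc₄ℓ h2
        rwa [add_assoc, add_sub_cancel_right] at this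
      exact ha (hpr.dvd_of_dvd_pow (hpr.dvd_of_dvd_pow h1))
    · -- `ℓ ∣ c`: `c₄ = C² - AB`
      have hC : (ℓ : ℤ) ∣ P.a ^ P.p + P.b ^ P.p := by rw [hABC]; exact dvd_pow hc P.hp0
      have h1 : (ℓ : ℤ) ∣ P.a ^ P.p * P.b ^ P.p := by
        have h2 : (ℓ : ℤ) ∣ (P.a ^ P.p + P.b ^ P.p) ^ 2 := dvd_pow hC two_ne_zero
        have := dvd_sub h2 hc₄ℓ
        rwa [show (P.a ^ P.p + P.b ^ P.p) ^ 2 -
          ((P.a ^ P.p) ^ 2 + P.a ^ P.p * P.b ^ P.p + (P.b ^ P.p) ^ 2) =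
            P.a ^ P.p * P.b ^ P.p by ring] at this
      rcases hpr.dvd_or_dvd h1 with h2 | h2
      · exact ha (hpr.dvd_of_dvd_pow h2)
      · exact hb (hpr.dvd_of_dvd_pow h2)

/-- **[N-AR2]**. -/
theorem s12s_Roots : s12n_Roots := by
  intro P
  obtain ⟨hmap, hΔ, -, -⟩ := s12s_Arith P
  have hE : s12n_E P = P.freyCurve.baseChange Kb := by
    unfold s12n_E
    rw [hmap]
  have hbc : ∀ r : ℚ, algebraMap ℚ Kb r = (algebraMap ℚ Kb) r := fun _ => rfl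
  refine ⟨?_, ?_, ?_, ?_⟩
  · unfold s12n_E
    simp only [WeierstrassCurve.baseChange, WeierstrassCurve.map_Δ, eq_intCast]
    rw [map_intCast]
    exact_mod_cast hΔ
  · rw [hE]
    simp only [WeierstrassCurve.baseChange, WeierstrassCurve.map_b₂]
    rw [← map_add, ← map_neg, show (4 : Kb) = algebraMap ℚ Kb 4 by simp, ← map_div₀]
    congr 1
    unfold s12n_e2 s12n_e3 FreyPackage.freyCurve
    simp only [WeierstrassCurve.b₂]
    ring
  · rw [hE]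
    simp only [WeierstrassCurve.baseChange, WeierstrassCurve.map_b₄]
    rw [← map_mul, show (2 : Kb) = algebraMap ℚ Kb 2 by simp, ← map_div₀]
    congr 1
    unfold s12n_e2 s12n_e3 FreyPackage.freyCurve
    simp only [WeierstrassCurve.b₄]
    ring
  · rw [hE]
    simp only [WeierstrassCurve.baseChange, WeierstrassCurve.map_b₆]
    unfold FreyPackage.freyCurve
    simp [WeierstrassCurve.b₆]

end Fermat.Agent.Lib.S12
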