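/-
S12 shortcut (helper6's graph `NGraph.lean`), node [N-LINE] (helper1, prefix `s12k_`):
a Galois-stable cofixed line of `E[p]` is generated by a point `Q` of order `p` with
`σ • Q ∈ ⟨Q⟩` and `σ • x - x ∈ ⟨Q⟩` for every `p`-torsion point `x`.
(`#E[p] = p²` (`ent_ifaceCard`), `ptm_card_line`, `ptm_exists_generator`; the transport from the
frozen Frey curve `P.freyCurve` to the integral model is a `subst` along helper5's `s12s_map_eq`.)
-/
import Fermat.Agent.Lib.S12.NArith
import Fermat.Agent.Lib.Mz.IfaceAssembly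
import Fermat.Agent.Lib.EN.FreyCard

set_option autoImplicit false
set_option linter.unusedSectionVars false
set_option linter.unusedVariables false
set_option linter.style.haveILetI false

noncomputable section

namespace Fermat.Agent.Lib.S12

open WeierstrassCurve WeierstrassCurve.Affine WeierstrassCurve.Affine.Point
open FreyPackage Fermat.Agent.Lib.S13 Fermat.Agent.Lib.Mz

local notation "Kb" => AlgebraicClosure ℚ
local notation "GQ" => (AlgebraicClosure ℚ ≃ₐ[ℚ] AlgebraicClosure ℚ)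

/-- a cofixed generator, on an arbitrary model over `ℚ`. -/
def s12k_IsCofixedW (W : WeierstrassCurve ℚ) (p : ℕ) (Q : (W⁄Kb).Point) : Prop :=
  addOrderOf Q = p ∧ (∀ σ : GQ, ∃ k : ℕ, σ • Q = k • Q) ∧
    ∀ (σ : GQ) (x : (W⁄Kb).Point), p • x = 0 → ∃ k : ℕ, σ • x - x = k • Q

theorem s12k_isCofixed_iff (P : FreyPackage) (Q : s12n_Pt P) :
    s12n_IsCofixed P Q ↔ s12k_IsCofixedW (P.freyCurveInt.map (Int.castRingHom ℚ)) P.p Q :=
  Iff.rfl

/-- scalar multiplication by `a : ZMod p` on the `p`-torsion is multiplication by `a.val`. -/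
theorem s12k_coe_zmod_smul (P : FreyPackage) (a : ZMod P.p) (x : s13_V P) :
    ((a • x : s13_V P) : (P.freyCurve⁄Kb).Point) = a.val • (x : (P.freyCurve⁄Kb).Point) := by
  haveI : Fact P.p.Prime := ⟨P.pp⟩
  haveI : NeZero P.p := ⟨P.pp.ne_zero⟩
  conv_lhs => rw [← ZMod.natCast_zmod_val a, Nat.cast_smul_eq_nsmul]
  rfl

/-- **[N-LINE] on the Frey model.** -/
theorem s12k_line_frey (P : FreyPackage)
    (h : HasGaloisStableCofixedLine (K := Kb) ℚ P.freyCurve P.p) :
    ∃ Q : (P.freyCurve⁄Kb).Point, s12k_IsCofixedW P.freyCurve P.p Q := by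
  haveI : Fact P.p.Prime := ⟨P.pp⟩
  obtain ⟨N, hN, hNbot, hNtop, hcof⟩ := h
  have hcard : Nat.card (s13_V P) = P.p ^ 2 := Fermat.Agent.Lib.EN.ent_ifaceCard P
  have hNcard := ptm_card_line hcard N hNbot hNtop
  obtain ⟨n₀, hn₀, hne, hgen⟩ := ptm_exists_generator N hNcard
  refine ⟨(n₀ : (P.freyCurve⁄Kb).Point), ?_, ?_, ?_⟩
  · -- the order
    have h1 : P.p • (n₀ : (P.freyCurve⁄Kb).Point) = 0 := by
      have := (Submodule.mem_torsionBy_iff _ _).mp n₀.2
      rwa [natCast_zsmul] at this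
    have h2 : (n₀ : (P.freyCurve⁄Kb).Point) ≠ 0 := fun h0 => hne (Subtype.ext h0)
    exact addOrderOf_eq_prime h1 h2
  · intro σ
    obtain ⟨a, ha⟩ := hgen _ (hN σ n₀ hn₀)
    refine ⟨a.val, ?_⟩
    have := congrArg (fun y : s13_V P => (y : (P.freyCurve⁄Kb).Point)) ha
    rw [s12k_coe_zmod_smul] at this
    exact this
  · intro σ x hx
    have hxm : x ∈ Submodule.torsionBy ℤ (P.freyCurve⁄Kb).Point P.p := by
      rw [Submodule.mem_torsionBy_iff, natCast_zsmul]; exact hx
    obtain ⟨a, ha⟩ := hgen _ (hcof σ ⟨x, hxm⟩)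
    refine ⟨a.val, ?_⟩
    have := congrArg (fun y : s13_V P => (y : (P.freyCurve⁄Kb).Point)) ha
    rw [s12k_coe_zmod_smul] at this
    exact this

/-- transport along an equality of models. -/
theorem s12k_line_of_eq (P : FreyPackage) (W : WeierstrassCurve ℚ) (hW : W = P.freyCurve)
    (h : HasGaloisStableCofixedLine (K := Kb) ℚ P.freyCurve P.p) :
    ∃ Q : (W⁄Kb).Point, s12k_IsCofixedW W P.p Q := by
  subst hW
  exact s12k_line_frey P h

/-- **[N-LINE]** `s12n_Line`. -/
theorem s12k_Line : s12n_Line := fun P h =>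
  s12k_line_of_eq P _ (s12s_map_eq P) h

end Fermat.Agent.Lib.S12
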