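/-
(M) S12 (helper6, prefix `s12n_`): conversions between `A.valuation (algebraMap ℚ ℚ̄ r)` for a
valuation subring `A` of `ℚ̄` over `ℓ` and `padicValRat ℓ r`.
-/
import Mathlib
import Fermat.Agent.Lib.Frey.Ord
import Fermat.Prelude.Def_FLTPrelim_Ramification

set_option autoImplicit false

noncomputable section

namespace Fermat.Agent.Lib.S12

open Fermat.Agent.Lib.Frey

local notation "Kb" => AlgebraicClosure ℚ

variable {ℓ : ℕ} (hℓ : ℓ.Prime) {A : ValuationSubring Kb} (hA : A.LiesOverPrime ℓ)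

include hℓ hA

/-- equal absolute values ⇒ equal `ℓ`-adic valuations. -/
theorem s12n_padic_eq_of_val_eq {r s : ℚ} (hr : r ≠ 0) (hs : s ≠ 0)
    (h : A.valuation (algebraMap ℚ Kb r) = A.valuation (algebraMap ℚ Kb s)) :
    padicValRat ℓ r = padicValRat ℓ s := by
  have h1 := (ford_vQ_eq_iff hℓ hA (algebraMap ℚ Kb r) (algebraMap ℚ Kb s)).mpr h
  rw [ford_vQ_algebraMap hℓ hA hr, ford_vQ_algebraMap hℓ hA hs] at h1
  exact_mod_cast h1

/-- absolute value one ⇒ `ℓ`-adic valuation zero. -/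
theorem s12n_padic_of_val_eq_one {r : ℚ} (hr : r ≠ 0)
    (h : A.valuation (algebraMap ℚ Kb r) = 1) : padicValRat ℓ r = 0 := by
  have h1 : A.valuation (algebraMap ℚ Kb r) = A.valuation (algebraMap ℚ Kb 1) := by
    rw [h, map_one, map_one]
  have h2 := s12n_padic_eq_of_val_eq hℓ hA hr one_ne_zero h1
  rw [h2]
  simp

/-- a rational number outside `A` has negative `ℓ`-adic valuation. -/
theorem s12n_padic_neg_of_not_mem {r : ℚ} (h : algebraMap ℚ Kb r ∉ A) : padicValRat ℓ r < 0 := by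
  have hr : r ≠ 0 := by
    rintro rfl
    exact h (by rw [map_zero]; exact A.zero_mem)
  by_contra hge
  rw [not_lt] at hge
  apply h
  rw [← ford_vQ_nonneg_iff hℓ hA, ford_vQ_algebraMap hℓ hA hr]
  have : (0 : ℚ) ≤ (padicValRat ℓ r : ℚ) := by exact_mod_cast hge
  exact_mod_cast this

omit hℓ in
/-- the absolute value of `ℓ`-power multiples. -/
theorem s12n_padic_of_val_mul_pow {r : ℚ} (hr : r ≠ 0) (n : ℕ)
    (h : A.valuation (algebraMap ℚ Kb r) * A.valuation (ℓ : Kb) ^ n = 1) (hℓ' : ℓ.Prime) :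
    padicValRat ℓ r = -(n : ℤ) := by
  have hℓ0 : (ℓ : ℚ) ≠ 0 := by exact_mod_cast hℓ'.ne_zero
  have hs : r * (ℓ : ℚ) ^ n ≠ 0 := mul_ne_zero hr (pow_ne_zero _ hℓ0)
  have h1 : A.valuation (algebraMap ℚ Kb (r * (ℓ : ℚ) ^ n)) = 1 := by
    rw [map_mul, map_pow, map_natCast, map_mul, map_pow]
    exact h
  have h2 := s12n_padic_of_val_eq_one hℓ' hA hs h1
  haveI : Fact ℓ.Prime := ⟨hℓ'⟩
  rw [padicValRat.mul hr (pow_ne_zero _ hℓ0), padicValRat.pow (p := ℓ) (q := (ℓ : ℚ)) (k := n),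
    padicValRat.self hℓ'.one_lt] at h2
  linarith

end Fermat.Agent.Lib.S12
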