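/-
S12 shortcut (helper6's graph `NGraph.lean`), node [N-VP] (helper1, prefix `s12k_`):
at a place `A` over `p` the three products `P_e = Π_{0<k<p} (x(kQ) - e)`, `e ∈ {0, A/4, -B/4}`, of a
cofixed generator `Q` have the same absolute value.

The line `N = ⟨Q⟩` lies in the kernel of reduction `T = cfh_T` at `p` (`s12k_mem_T`): otherwise
`N ∩ T = 0`, inertia at `p` acts trivially on `N` (`cfh_T_quot` + cofixed), inertia at every
`ℓ ≠ p` too (S05, `ftx_s13_ifaceLocal2`), so `Q` is rational (Minkowski `ptm_subgroup_eq_top`),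
against `ftx_s13_ifaceNoRatPt`.  Hence `x(kQ) ∉ A` for `0 < k < p`, and `|x(kQ) - e| = |x(kQ)|`
for the `A`-integral `e`.
-/
import Fermat.Agent.Lib.S12.KLine
import Fermat.Agent.Lib.S12.NConv
import Fermat.Agent.Lib.S13.LocD
import Fermat.Agent.Lib.F2.WireLocal2Final
import Fermat.Agent.Lib.F2.WireNoRatFinal

set_option autoImplicit false
set_option linter.unusedSectionVars false
set_option linter.unusedVariables false
set_option linter.style.haveILetI false

noncomputable section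

namespace Fermat.Agent.Lib.S12

open WeierstrassCurve WeierstrassCurve.Affine WeierstrassCurve.Affine.Point
open FreyPackage Fermat.Agent.Lib.S13 Fermat.Agent.Lib.Mz Fermat.Agent.Lib.Frey
open Fermat.Agent.Lib.S15

local notation "Kb" => AlgebraicClosure ℚ
local notation "GQ" => (AlgebraicClosure ℚ ≃ₐ[ℚ] AlgebraicClosure ℚ)

/-- **a cofixed generator lies in the kernel of reduction at `p`.**  Otherwise `N ∩ T = 0`
(`T = cfh_T`, the kernel of reduction in `E[p]`), inertia at `p` acts trivially on `N`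
(`cfh_T_quot`), inertia at every `ℓ ≠ p` too (S05, `ftx_s13_ifaceLocal2`), so `N` consists of
rational points (Minkowski, `ptm_subgroup_eq_top`), against `ftx_s13_ifaceNoRatPt`. -/
theorem s12k_mem_T (P : FreyPackage) (Q : (P.freyCurve⁄Kb).Point)
    (hQ : s12k_IsCofixedW P.freyCurve P.p Q) (A : ValuationSubring Kb)
    (hA : A.LiesOverPrime P.p) : fl_InE1 (cfh_vp P A hA) Q := by
  haveI : Fact P.p.Prime := ⟨P.pp⟩
  obtain ⟨hord, hstab, hcof⟩ := hQ
  have hcard : Nat.card (s13_V P) = P.p ^ 2 := Fermat.Agent.Lib.EN.ent_ifaceCard P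
  haveI : Finite (s13_V P) :=
    Nat.finite_of_card_ne_zero (by rw [hcard]; exact pow_ne_zero _ P.pp.ne_zero)
  have hpQ : P.p • Q = 0 := by rw [← hord]; exact addOrderOf_nsmul_eq_zero Q
  have hQ0 : Q ≠ 0 := by
    intro h0
    rw [h0, addOrderOf_zero] at hord
    exact P.pp.one_lt.ne hord
  have hQm : Q ∈ Submodule.torsionBy ℤ (P.freyCurve⁄Kb).Point P.p := by
    rw [Submodule.mem_torsionBy_iff, natCast_zsmul]; exact hpQ
  set q₀ : s13_V P := ⟨Q, hQm⟩ with hq₀
  have hq₀ne : q₀ ≠ 0 := fun h => hQ0 (congrArg Subtype.val h)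
  by_contra hnot
  have hq₀T : q₀ ∉ cfh_T P A hA := fun h => hnot ((cfh_mem_T_iff P A hA q₀).mp h)
  set N : Submodule (ZMod P.p) (s13_V P) := Submodule.span (ZMod P.p) {q₀} with hN
  have hq₀N : q₀ ∈ N := Submodule.mem_span_singleton_self q₀
  -- `N` is Galois-stable
  have hσq₀ : ∀ σ : GQ, σ • q₀ ∈ N := by
    intro σ
    obtain ⟨k, hk⟩ := hstab σ
    have : σ • q₀ = k • q₀ := Subtype.ext hk
    rw [this]
    exact N.smul_of_tower_mem k hq₀N
  have hNst : ∀ σ : GQ, ∀ x ∈ N, σ • x ∈ N := by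
    intro σ x hx
    obtain ⟨a, rfl⟩ := Submodule.mem_span_singleton.mp hx
    rw [smul_comm]
    exact N.smul_mem a (hσq₀ σ)
  -- `N ⊓ T = ⊥`
  have hNT : ∀ x ∈ N, x ∈ cfh_T P A hA → x = 0 := by
    intro x hx hxT
    obtain ⟨a, rfl⟩ := Submodule.mem_span_singleton.mp hx
    by_contra hne
    have ha : a ≠ 0 := by
      rintro rfl
      exact hne (zero_smul _ _)
    apply hq₀T
    have := (cfh_T P A hA).smul_mem a⁻¹ hxT
    rwa [smul_smul, inv_mul_cancel₀ ha, one_smul] at this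
  -- the cardinality of `N`
  have hNcard : Nat.card N = P.p := by
    haveI : Module.Finite (ZMod P.p) (s13_V P) := Module.Finite.of_finite
    rw [ptm_card_eq_iff_finrank]
    exact finrank_span_singleton hq₀ne
  -- inertia at `p` (place `A`) acts trivially on `N`
  have hIA : ∀ σ ∈ A.inertiaSubgroupIn ℚ, ∀ x ∈ N, σ • x = x := by
    intro σ hσ x hx
    have h1 : σ • x - x ∈ N := N.sub_mem (hNst σ x hx) hx
    have h2 : σ • x - x ∈ cfh_T P A hA := cfh_T_quot P A hA σ hσ x
    exact sub_eq_zero.mp (hNT _ h1 h2)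
  -- inertia at `ℓ ≠ p` acts trivially on `N`
  have hI_N : ∀ ℓ : ℕ, ℓ.Prime → ℓ ≠ P.p → ∀ A' : ValuationSubring Kb, A'.LiesOverPrime ℓ →
      ∀ σ ∈ A'.inertiaSubgroupIn ℚ, ∀ x ∈ N, σ • x = x := by
    intro ℓ hℓ hℓp A' hA' σ hσ
    by_cases h2 : ℓ = 2
    · subst h2
      exact ptm_trivial_on_line N hNcard σ (hNst σ)
        (Fermat.Agent.Lib.F2.ftx_s13_ifaceLocal2 P A' hA' σ hσ)
    · intro x _
      exact Fermat.Agent.S05.result P hℓ h2 hℓp A' hA' σ hσ x
  obtain ⟨E, hEfin, hE⟩ := ptm_exists_level P.freyCurve P.p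
  haveI := ptm_fixLine_normal (G := GQ) N hNst
  have htop : ptm_fixLine GQ N = ⊤ := by
    refine ptm_subgroup_eq_top _ E ?_ ?_
    · intro σ hσ x _
      exact hE σ hσ x
    · intro ℓ hℓ A' hA' τ hτ
      by_cases hℓp : ℓ = P.p
      · rw [hℓp] at hA' hℓ
        obtain ⟨g, hg⟩ := ptm_inertia_conj hℓ A A' hA hA'
        have h1 : g * τ * g⁻¹ ∈ ptm_fixLine GQ N := hIA _ (hg τ hτ)
        have h2 := (ptm_fixLine_normal (G := GQ) N hNst).conj_mem _ h1 g⁻¹
        have h3 : g⁻¹ * (g * τ * g⁻¹) * g⁻¹⁻¹ = τ := by group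
        rwa [h3] at h2
      · exact hI_N ℓ hℓ hℓp A' hA' τ hτ
  apply hq₀ne
  apply Fermat.Agent.Lib.F2.ftx_s13_ifaceNoRatPt P q₀
  intro σ
  have hσ : σ ∈ ptm_fixLine GQ N := by rw [htop]; trivial
  exact hσ q₀ hq₀N

/-- the multiples of a point of the kernel of reduction lie in the kernel of reduction. -/
theorem s12k_nsmul_mem_T (P : FreyPackage) (Q : (P.freyCurve⁄Kb).Point) (hpQ : P.p • Q = 0)
    (A : ValuationSubring Kb) (hA : A.LiesOverPrime P.p) (hQT : fl_InE1 (cfh_vp P A hA) Q)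
    (k : ℕ) : fl_InE1 (cfh_vp P A hA) (k • Q) := by
  have hQm : Q ∈ Submodule.torsionBy ℤ (P.freyCurve⁄Kb).Point P.p := by
    rw [Submodule.mem_torsionBy_iff, natCast_zsmul]; exact hpQ
  have h1 : (⟨Q, hQm⟩ : s13_V P) ∈ cfh_T P A hA := (cfh_mem_T_iff P A hA _).mpr hQT
  have h2 := (cfh_T P A hA).smul_of_tower_mem k h1
  exact (cfh_mem_T_iff P A hA _).mp h2

/-- at a point of the kernel of reduction, `|x - e| = |x|` for integral `e`. -/
theorem s12k_val_px_sub (P : FreyPackage) (R : (P.freyCurve⁄Kb).Point) (hR0 : R ≠ 0)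
    (A : ValuationSubring Kb) (hA : A.LiesOverPrime P.p) (hRT : fl_InE1 (cfh_vp P A hA) R)
    (e : Kb) (he : e ∈ A) :
    A.valuation (s15d_px (P.freyCurve.baseChange Kb) R - e) =
      A.valuation (s15d_px (P.freyCurve.baseChange Kb) R) := by
  rcases hRT with h0 | ⟨X, Y, h, hR, hX⟩
  · exact absurd h0 hR0
  · rw [hR]
    show A.valuation (X - e) = A.valuation X
    have hXA : X ∉ A := by
      intro hmem
      have := (ford_vQ_nonneg_iff (A := A) (hq := P.pp) (hA := hA) X).mpr hmem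
      exact absurd hX (not_lt.mpr this)
    have h1 : 1 < A.valuation X := by
      rw [← not_le, A.valuation_le_one_iff]
      exact hXA
    have h2 : A.valuation e ≤ 1 := (A.valuation_le_one_iff e).mpr he
    exact Valuation.map_sub_eq_of_lt_left _ (lt_of_le_of_lt h2 h1)

/-- **the three `P_e` have the same absolute value at `p`** (Frey model, `e` integral at `A`). -/
theorem s12k_valP_frey (P : FreyPackage) (Q : (P.freyCurve⁄Kb).Point)
    (hQ : s12k_IsCofixedW P.freyCurve P.p Q) (A : ValuationSubring Kb)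
    (hA : A.LiesOverPrime P.p) (e : Kb) (he : e ∈ A) :
    A.valuation (s12s_P (P.freyCurve.baseChange Kb) Q P.p 0) =
      A.valuation (s12s_P (P.freyCurve.baseChange Kb) Q P.p e) := by
  have hQT := s12k_mem_T P Q hQ A hA
  obtain ⟨hord, -, -⟩ := hQ
  have hpQ : P.p • Q = 0 := by rw [← hord]; exact addOrderOf_nsmul_eq_zero Q
  unfold s12s_P
  rw [map_prod, map_prod]
  refine Finset.prod_congr rfl fun k hk => ?_
  have hk' : k < P.p - 1 := Finset.mem_range.mp hk
  have hne : (k + 1) • Q ≠ 0 := by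
    intro h0
    have hdvd := addOrderOf_dvd_of_nsmul_eq_zero h0
    rw [hord] at hdvd
    have := Nat.le_of_dvd (Nat.succ_pos k) hdvd
    omega
  have hT := s12k_nsmul_mem_T P Q hpQ A hA hQT (k + 1)
  rw [s12k_val_px_sub P _ hne A hA hT e he, s12k_val_px_sub P _ hne A hA hT 0 A.zero_mem]

/-- `A/4` and `-B/4` are integral at `p`. -/
theorem s12k_e_mem (P : FreyPackage) (A : ValuationSubring Kb) (hA : A.LiesOverPrime P.p) :
    algebraMap ℚ Kb (s12n_e2 P) ∈ A ∧ algebraMap ℚ Kb (s12n_e3 P) ∈ A := by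
  have h4 : A.valuation ((4 : ℕ) : Kb) = 1 := by
    refine ford_val_natCast_of_not_dvd P.pp hA ?_
    intro hd
    have h5 := P.hp5
    have := Nat.le_of_dvd (by norm_num) hd
    omega
  have h4' : A.valuation (4 : Kb) = 1 := by exact_mod_cast h4
  have hz : ∀ z : ℤ, A.valuation ((z : Kb) ^ P.p / 4) ≤ 1 := by
    intro z
    rw [map_div₀, h4', div_one, map_pow]
    exact pow_le_one₀ zero_le (ford_val_intCast_le_one A z)
  constructor
  · rw [← A.valuation_le_one_iff]
    have : algebraMap ℚ Kb (s12n_e2 P) = (P.a : Kb) ^ P.p / 4 := by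
      unfold s12n_e2
      simp
    rw [this]
    exact hz P.a
  · rw [← A.valuation_le_one_iff]
    have : algebraMap ℚ Kb (s12n_e3 P) = -((P.b : Kb) ^ P.p / 4) := by
      unfold s12n_e3
      simp [neg_div]
    rw [this, Valuation.map_neg]
    exact hz P.b

/-- transport along an equality of models. -/
theorem s12k_valP_of_eq (P : FreyPackage) (W : WeierstrassCurve ℚ) (hW : W = P.freyCurve)
    (Q : (W⁄Kb).Point) (hQ : s12k_IsCofixedW W P.p Q) (A : ValuationSubring Kb)
    (hA : A.LiesOverPrime P.p) (e : Kb) (he : e ∈ A) :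
    A.valuation (s12s_P (W.baseChange Kb) Q P.p 0) =
      A.valuation (s12s_P (W.baseChange Kb) Q P.p e) := by
  subst hW
  exact s12k_valP_frey P Q hQ A hA e he

/-- **[N-VP]** `s12n_ValP`. -/
theorem s12k_ValP : s12n_ValP := fun P Q hQ A hA =>
  ⟨s12k_valP_of_eq P _ (s12s_map_eq P) Q hQ A hA _ (s12k_e_mem P A hA).1,
    s12k_valP_of_eq P _ (s12s_map_eq P) Q hQ A hA _ (s12k_e_mem P A hA).2⟩

end Fermat.Agent.Lib.S12
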