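/-
S12 node [N-L3] (helper8, prefix `s12l_`), part 1: **translation by the kernel of reduction
preserves the reduction**.  Frame of `Lib/S58/GRed.lean`: `A` a valuation subring of `K`,
`W : WeierstrassCurve A`, `s58g_Red A W P P̃` (integral coordinates, NONSINGULAR reduced point; the
special fibre may be singular).

* `s12l_red_not_E1`  : a point with a reduction is not in `E₁`;
* `s12l_int_of_not_E1` : a point outside `E₁` has integral coordinates;
* `s12l_red_add_E1`  : `Red P P̃`, `S ∈ E₁` ⇒ `Red (P + S) P̃`;
* `s12l_red_sub_E1`  : `Red P P̃`, `S ∈ E₁` ⇒ `Red (P - S) P̃`.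
-/
import Mathlib
import Fermat.Agent.Lib.S58.GRed
import Fermat.Agent.Lib.S58.E1Inertia

set_option autoImplicit false
set_option linter.unusedSectionVars false
set_option linter.unusedVariables false
set_option linter.style.haveILetI false

namespace Fermat.Agent.Lib.S12

open WeierstrassCurve WeierstrassCurve.Affine IsLocalRing
open Fermat.Agent.Lib.S58 Fermat.Agent.Lib.S41 Fermat.Agent.Lib.Frey

variable {K : Type*} [Field K] [DecidableEq K] {A : ValuationSubring K} {W : WeierstrassCurve A}
  [DecidableEq (ResidueField A)]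

/-- a point with a reduction is not in `E₁`. -/
theorem s12l_red_not_E1 {P : (s41a_WK A W).toAffine.Point} {Pt : (s41a_Wk A W).toAffine.Point}
    (hP : s58g_Red A W P Pt) : ¬ fe1_E1 A.valuation P := by
  obtain ⟨a, b, h₁, h₂, rfl, rfl⟩ := hP
  rintro (h0 | h0)
  · exact Point.some_ne_zero _ h0
  · rw [fe1_X_some] at h0
    exact absurd (A.valuation_le_one a) (not_le.mpr h0)

/-- a point outside `E₁` has integral coordinates. -/
theorem s12l_int_of_not_E1 {P : (s41a_WK A W).toAffine.Point} (hP : ¬ fe1_E1 A.valuation P) :
    ∃ (a b : A) (h : (s41a_WK A W).toAffine.Nonsingular (a : K) (b : K)),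
      P = Point.some _ _ h := by
  rcases P with _ | ⟨x, y, h⟩
  · exact absurd (Or.inl rfl) hP
  · have hx : A.valuation x ≤ 1 := by
      by_contra hx
      rw [not_le] at hx
      exact hP (Or.inr hx)
    have hxA : x ∈ A := (A.valuation_le_one_iff x).mp hx
    exact ⟨⟨x, hxA⟩, ⟨y, s41a_y_mem A W hxA h.1⟩, h, rfl⟩

/-- **translation by `E₁` preserves the reduction.** -/
theorem s12l_red_add_E1 {P S : (s41a_WK A W).toAffine.Point}
    {Pt : (s41a_Wk A W).toAffine.Point} (hP : s58g_Red A W P Pt)
    (hS : fe1_E1 A.valuation S) : s58g_Red A W (P + S) Pt := by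
  obtain ⟨hb2, hb4, hb6, hb8⟩ :=
    s58e_b_integral A.valuation (s41a_WK A W) (s41a_frd_integral A W)
  -- `T = P + S` is not in `E₁`
  have hT1 : ¬ fe1_E1 A.valuation (P + S) := by
    intro hT
    have := s58e_E1_sub (s41a_WK A W) A.valuation hb2 hb4 hb6 hb8 hT hS
    rw [add_sub_cancel_right] at this
    exact s12l_red_not_E1 hP this
  obtain ⟨a', b', h', hT⟩ := s12l_int_of_not_E1 hT1
  have hPkeep := hP
  obtain ⟨a, b, h₁, h₁', hPe, hPte⟩ := hP
  -- the difference `T - P = S`
  have hSe : Point.some (a' : K) (b' : K) h' - Point.some (a : K) (b : K) h₁ = S := by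
    rw [← hT, ← hPe, add_sub_cancel_left]
  -- the abscissae are congruent
  have hres : residue A a' = residue A a := by
    by_contra hne
    have hu : IsUnit (a' - a) :=
      s41a_isUnit_of_res_ne_zero A (by rw [map_sub]; exact sub_ne_zero.mpr hne)
    obtain ⟨c, hc⟩ := hu.exists_right_inv
    have hxK : (a' : K) ≠ a := fun h => hne (by rw [Subtype.ext h])
    have hcK : ((a' : K) - a) * (c : K) = 1 := by
      have := congrArg Subtype.val hc
      simpa using this
    have hnK : (s41a_WK A W).toAffine.negY (a : K) (b : K) = ((W.toAffine.negY a b : A) : K) :=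
      map_negY (W' := W.toAffine) A.subtype a b
    have hxy : ¬ ((a' : K) = a ∧ (b' : K) =
        (s41a_WK A W).toAffine.negY (a : K) ((s41a_WK A W).toAffine.negY (a : K) (b : K))) :=
      fun h => hxK h.1
    have hsl : (s41a_WK A W).toAffine.slope (a' : K) (a : K) (b' : K)
        ((s41a_WK A W).toAffine.negY (a : K) (b : K)) =
        (((b' - W.toAffine.negY a b) * c : A) : K) := by
      rw [slope_of_X_ne hxK, div_eq_iff (sub_ne_zero.mpr hxK), hnK]
      push_cast
      linear_combination (-((b' : K) - (W.toAffine.negY a b : A))) * hcK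
    have hSx : fe1_X S = (s41a_WK A W).toAffine.addX (a' : K) (a : K)
        ((s41a_WK A W).toAffine.slope (a' : K) (a : K) (b' : K)
          ((s41a_WK A W).toAffine.negY (a : K) (b : K))) := by
      rw [← hSe, sub_eq_add_neg, Point.neg_some, Point.add_some hxy, fe1_X_some]
    have hS0 : S ≠ 0 := by
      rw [← hSe, sub_ne_zero]
      intro h
      rw [Point.some.injEq] at h
      exact hxK h.1
    have hlt : 1 < A.valuation (fe1_X S) := hS.resolve_left hS0
    rw [hSx, hsl] at hlt
    have hmem : (s41a_WK A W).toAffine.addX (a' : K) (a : K)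
        (((b' - W.toAffine.negY a b) * c : A) : K) ∈ A := by
      unfold Affine.addX
      simp only [map_a₁, map_a₂, ValuationSubring.subtype_apply]
      exact sub_mem (sub_mem (sub_mem (add_mem (pow_mem (SetLike.coe_mem _) 2)
        (mul_mem (SetLike.coe_mem _) (SetLike.coe_mem _))) (SetLike.coe_mem _)) a'.2) a.2
    exact absurd ((A.valuation_le_one_iff _).mpr hmem) (not_le.mpr hlt)
  -- the reduced point lies on the special fibre
  have he' : W.toAffine.Equation a' b' :=
    (Affine.map_equation (W := W.toAffine) (f := A.subtype) Subtype.val_injective a' b').mp h'.1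
  have hek : (s41a_Wk A W).toAffine.Equation (residue A a') (residue A b') :=
    he'.map (residue A)
  rcases Y_eq_of_X_eq hek h₁'.1 hres with hy | hy
  · -- same reduction
    have h'' : (s41a_Wk A W).toAffine.Nonsingular (residue A a') (residue A b') := by
      rw [hres, hy]; exact h₁'
    refine ⟨a', b', h', h'', hT, ?_⟩
    rw [hPte]
    exact s41a_some_congr hres.symm hy.symm _ _
  · -- opposite reduction: impossible unless it is the same
    by_cases hsame : residue A b' = residue A b
    · have h'' : (s41a_Wk A W).toAffine.Nonsingular (residue A a') (residue A b') := by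
        rw [hres, hsame]; exact h₁'
      refine ⟨a', b', h', h'', hT, ?_⟩
      rw [hPte]
      exact s41a_some_congr hres.symm hsame.symm _ _
    · exfalso
      have h'' : (s41a_Wk A W).toAffine.Nonsingular (residue A a') (residue A b') := by
        rw [hres, hy]; exact (nonsingular_neg ..).mpr h₁'
      have hTred : s58g_Red A W (P + S) (-Pt) := by
        refine ⟨a', b', h', h'', hT, ?_⟩
        rw [hPte, Point.neg_some]
        exact s41a_some_congr hres.symm hy.symm _ _
      have hne : Pt ≠ -Pt := by
        rw [hPte, Point.neg_some]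
        intro h
        rw [Point.some.injEq] at h
        apply hsame
        rw [hy, ← h.2]
      have h1 := (s58e_E1_iff A.valuation (s41a_WK A W) _).mp
        (s58g_sub_mem_E1 hTred (s58g_red_neg hPkeep))
      -- `(P + S) - (-P) - S = P + P`
      have h2 := s58e_E1_sub (s41a_WK A W) A.valuation hb2 hb4 hb6 hb8 h1 hS
      have e : P + S - -P - S = P + P := by abel
      rw [e] at h2
      exact s12l_red_not_E1 (s58g_red_add_self hPkeep hne) h2

/-- **translation by `E₁` preserves the reduction** (subtraction form). -/
theorem s12l_red_sub_E1 {P S : (s41a_WK A W).toAffine.Point}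
    {Pt : (s41a_Wk A W).toAffine.Point} (hP : s58g_Red A W P Pt)
    (hS : fe1_E1 A.valuation S) : s58g_Red A W (P - S) Pt := by
  rw [sub_eq_add_neg]
  exact s12l_red_add_E1 hP (fe1_E1_neg A.valuation hS)

end Fermat.Agent.Lib.S12
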