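/-
S12 node [N-L3] (helper8, prefix `s12l_`), part 2: **the point counts**, in the frame of
`Lib/S58/GRed.lean` (`A` a valuation subring of `K`, `WA : WeierstrassCurve A`), for an ABSTRACT
additive map `Φ` on the points acting on integral coordinates as a `q`-power Frobenius lift.

* `s12l_count`       : a point `x` of order `p` with non-singular reduction all of whose multiples
  have coordinates with `t̄^q = t̄` forces `p - 1 ≤ q²`;
* `s12l_fixed_false` : no `Φ`-fixed point of order `p` with non-singular reduction if `q² < p - 1`;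
* `s12l_good_false`  : good reduction + a cofixed line + `#E[p] > p` is contradictory;
* `s12l_mult_red`    : multiplicative reduction + a cofixed line `⟨Q⟩` ⇒ `Q` has non-singular
  reduction.
-/
import Mathlib
import Fermat.Agent.Lib.S12.L3Red
import Fermat.Agent.Lib.S15.BRedC
import Fermat.Agent.Lib.S58.GDiv
import Fermat.Agent.Lib.S58.MultNodePt

set_option autoImplicit false
set_option linter.unusedSectionVars false
set_option linter.unusedVariables false
set_option linter.style.haveILetI false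

namespace Fermat.Agent.Lib.S12

open WeierstrassCurve WeierstrassCurve.Affine IsLocalRing Finset
open Fermat.Agent.Lib.S58 Fermat.Agent.Lib.S41 Fermat.Agent.Lib.Frey Fermat.Agent.Lib.S15

/-- the coordinates of a point (junk at `0`). -/
def s12l_xy {F : Type*} [Field F] {W : WeierstrassCurve F} : W.toAffine.Point → F × F
  | .zero => (0, 0)
  | .some x y _ => (x, y)

theorem s12l_xy_inj {F : Type*} [Field F] {W : WeierstrassCurve F} {P Q : W.toAffine.Point}
    (hP : P ≠ 0) (hQ : Q ≠ 0) (h : s12l_xy P = s12l_xy Q) : P = Q := by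
  rcases P with _ | ⟨x, y, hxy⟩
  · exact absurd rfl hP
  rcases Q with _ | ⟨x', y', hxy'⟩
  · exact absurd rfl hQ
  have h1 : x = x' := congrArg Prod.fst h
  have h2 : y = y' := congrArg Prod.snd h
  subst h1 h2
  rfl

variable {K : Type*} [Field K] [DecidableEq K] {A : ValuationSubring K} {WA : WeierstrassCurve A}
  [DecidableEq (ResidueField A)]

/-- **the count**: at most `q²` reduced points with `q`-Frobenius-fixed coordinates. -/
theorem s12l_count {p q : ℕ} (hq : 2 ≤ q) (hp : p.Prime) (hp2 : p ≠ 2)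
    (hvp : A.valuation (p : K) = 1)
    {x : (s41a_WK A WA).toAffine.Point} {xt : (s41a_Wk A WA).toAffine.Point}
    (hx : addOrderOf x = p) (hred : s58g_Red A WA x xt)
    (hfix : ∀ (j : ℕ) (a b : A) (h : (s41a_WK A WA).toAffine.Nonsingular (a : K) (b : K)),
      j • x = Point.some (a : K) (b : K) h →
        residue A a ^ q = residue A a ∧ residue A b ^ q = residue A b) :
    p - 1 ≤ q ^ 2 := by
  classical
  have hpoly : (Polynomial.X ^ q - Polynomial.X : Polynomial (ResidueField A)) ≠ 0 :=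
    FiniteField.X_pow_card_sub_X_ne_zero _ (by omega)
  set S : Finset (ResidueField A) :=
    (Polynomial.X ^ q - Polynomial.X : Polynomial (ResidueField A)).roots.toFinset with hS
  have hScard : S.card ≤ q := by
    calc S.card ≤ Multiset.card
          (Polynomial.X ^ q - Polynomial.X : Polynomial (ResidueField A)).roots :=
          Multiset.toFinset_card_le _
      _ ≤ (Polynomial.X ^ q - Polynomial.X : Polynomial (ResidueField A)).natDegree :=
          Polynomial.card_roots' _
      _ = q := FiniteField.X_pow_card_sub_X_natDegree_eq _ (by omega)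
  have hmem : ∀ t : ResidueField A, t ^ q = t → t ∈ S := by
    intro t ht
    rw [hS, Multiset.mem_toFinset, Polynomial.mem_roots hpoly]
    simp [ht]
  have hmult := s15b_red_multiples hp hp2 hvp hx hred
  have hall := s15b_red_all hp hp2 hvp hx hred
  have hmaps : ∀ j ∈ Icc 1 (p - 1), s12l_xy (j • xt) ∈ S ×ˢ S := by
    intro j hj
    rw [mem_Icc] at hj
    have h2 := hp.two_le
    obtain ⟨a, b, h, h', e, e'⟩ := hall j (by omega) (by omega)
    obtain ⟨ha, hb⟩ := hfix j a b h e
    rw [e', mem_product]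
    exact ⟨hmem _ ha, hmem _ hb⟩
  have hinj : Set.InjOn (fun j : ℕ => s12l_xy (j • xt)) (Icc 1 (p - 1) : Finset ℕ) := by
    have h2 := hp.two_le
    have key : ∀ i j : ℕ, 1 ≤ i → i < j → j ≤ p - 1 → s12l_xy (i • xt) ≠ s12l_xy (j • xt) := by
      intro i j hi hij hj e
      have e2 := s12l_xy_inj (hmult i (by omega) (by omega)) (hmult j (by omega) (by omega)) e
      apply hmult (j - i) (by omega) (by omega)
      have e3 : j • xt = (j - i) • xt + i • xt := by
        rw [← add_nsmul]; congr 1; omega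
      rw [e3] at e2
      exact (add_eq_right.mp e2.symm)
    intro i hi j hj e
    rw [coe_Icc, Set.mem_Icc] at hi hj
    rcases Nat.lt_trichotomy i j with h | h | h
    · exact absurd e (key i j hi.1 h hj.2)
    · exact h
    · exact absurd e.symm (key j i hj.1 h hi.2)
  have hcard := Finset.card_le_card_of_injOn _ hmaps hinj
  rw [Nat.card_Icc, card_product] at hcard
  calc p - 1 = p - 1 + 1 - 1 := by omega
    _ ≤ S.card * S.card := hcard
    _ ≤ q * q := Nat.mul_le_mul hScard hScard
    _ = q ^ 2 := (sq q).symm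

/-- the shape of a `q`-Frobenius lift acting on the points. -/
def s12l_IsFrobLift (q : ℕ) (W' : WeierstrassCurve K)
    (Φ : W'.toAffine.Point →+ W'.toAffine.Point) : Prop :=
  ∀ (a b : A) (h : W'.toAffine.Nonsingular (a : K) (b : K)),
    ∃ (a' b' : A) (h' : W'.toAffine.Nonsingular (a' : K) (b' : K)),
      Φ (Point.some (a : K) (b : K) h) = Point.some (a' : K) (b' : K) h' ∧
        residue A a' = residue A a ^ q ∧ residue A b' = residue A b ^ q

/-- **no fixed point of order `p` with non-singular reduction.** -/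
theorem s12l_fixed_false {p q : ℕ} (hq : 2 ≤ q) (hqp : q ^ 2 < p - 1) (hp : p.Prime)
    (hp2 : p ≠ 2) (hvp : A.valuation (p : K) = 1)
    (Φ : (s41a_WK A WA).toAffine.Point →+ (s41a_WK A WA).toAffine.Point)
    (hΦ : s12l_IsFrobLift (A := A) q (s41a_WK A WA) Φ)
    {x : (s41a_WK A WA).toAffine.Point} {xt : (s41a_Wk A WA).toAffine.Point}
    (hx : addOrderOf x = p) (hred : s58g_Red A WA x xt) (hfix : Φ x = x) : False := by
  have h := s12l_count hq hp hp2 hvp hx hred ?_
  · omega
  intro j a b h e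
  obtain ⟨a', b', h', e', ha, hb⟩ := hΦ a b h
  have e2 : Φ (j • x) = j • x := by rw [map_nsmul, hfix]
  rw [e, e', Point.some.injEq] at e2
  have ea : a' = a := Subtype.ext e2.1
  have eb : b' = b := Subtype.ext e2.2
  rw [ea] at ha
  rw [eb] at hb
  exact ⟨ha.symm, hb.symm⟩

/-- a non-zero multiple of a point with non-singular reduction has non-singular reduction. -/
theorem s12l_red_of_multiple {p : ℕ} (hp : p.Prime) (hp2 : p ≠ 2)
    (hvp : A.valuation (p : K) = 1)
    {y Q : (s41a_WK A WA).toAffine.Point} {yt : (s41a_Wk A WA).toAffine.Point}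
    (hy : addOrderOf y = p) (hred : s58g_Red A WA y yt) (m : ℕ) (hQ : Q = m • y)
    (hQ0 : Q ≠ 0) : ∃ Qt, s58g_Red A WA Q Qt := by
  have e : (m % p) • y = m • y := by
    rw [← hy]; exact mod_addOrderOf_nsmul y m
  have h0 : m % p ≠ 0 := by
    intro h0
    rw [h0, zero_nsmul] at e
    exact hQ0 (by rw [hQ, ← e])
  have h1 : m % p < p := Nat.mod_lt _ hp.pos
  refine ⟨(m % p) • yt, ?_⟩
  rw [hQ, ← e]
  exact s15b_red_all hp hp2 hvp hy hred (m % p) (Nat.pos_of_ne_zero h0) h1

/-- a non-zero multiple of a point of prime order generates the same line. -/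
theorem s12l_generator {G : Type*} [AddGroup G] {p : ℕ} (hp : p.Prime) {Q : G}
    (hQ : addOrderOf Q = p) {k : ℕ} (hk : k • Q ≠ 0) : ∃ m : ℕ, Q = m • (k • Q) := by
  have hndvd : ¬ p ∣ k := by
    intro hd
    apply hk
    rw [← hQ] at hd
    exact addOrderOf_dvd_iff_nsmul_eq_zero.mp hd
  have hcop : Nat.Coprime k p := ((Nat.Prime.coprime_iff_not_dvd hp).mpr hndvd).symm
  obtain ⟨m, -, hm⟩ := Nat.exists_mul_mod_eq_one_of_coprime hcop hp.one_lt
  refine ⟨m, ?_⟩
  rw [← mul_nsmul, ← mod_addOrderOf_nsmul, hQ, hm, one_nsmul]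

/-- **good reduction**: a cofixed line and `#E[p] > p` are contradictory. -/
theorem s12l_good_false {p q : ℕ} (hq : 2 ≤ q) (hqp : q ^ 2 < p - 1) (hp : p.Prime)
    (hp2 : p ≠ 2) (hvp : A.valuation (p : K) = 1)
    (Φ : (s41a_WK A WA).toAffine.Point →+ (s41a_WK A WA).toAffine.Point)
    (hΦ : s12l_IsFrobLift (A := A) q (s41a_WK A WA) Φ)
    (hΔ : A.valuation (s41a_WK A WA).Δ = 1)
    {Q : (s41a_WK A WA).toAffine.Point} (hQ : addOrderOf Q = p)
    (hcof : ∀ x : (s41a_WK A WA).toAffine.Point, p • x = 0 → ∃ k : ℕ, Φ x - x = k • Q)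
    (hcard : p < Nat.card {x : (s41a_WK A WA).toAffine.Point // p • x = 0}) : False := by
  classical
  haveI : Fact p.Prime := ⟨hp⟩
  -- pigeonhole
  have hNcard : Nat.card (AddSubgroup.zmultiples Q) = p := by
    rw [Nat.card_zmultiples, hQ]
  haveI : Finite (AddSubgroup.zmultiples Q) :=
    Nat.finite_of_card_ne_zero (by rw [hNcard]; exact hp.ne_zero)
  let f : {x : (s41a_WK A WA).toAffine.Point // p • x = 0} → AddSubgroup.zmultiples Q :=
    fun x => ⟨Φ x.1 - x.1, by
      obtain ⟨k, hk⟩ := hcof x.1 x.2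
      rw [hk]
      exact AddSubgroup.nsmul_mem_zmultiples Q k⟩
  have hninj : ¬ Function.Injective f := by
    intro hinj
    have := Nat.card_le_card_of_injective f hinj
    rw [hNcard] at this
    omega
  rw [Function.not_injective_iff] at hninj
  obtain ⟨x, y, hxy, hne⟩ := hninj
  have hxy' : Φ x.1 - x.1 = Φ y.1 - y.1 := congrArg Subtype.val hxy
  set z := x.1 - y.1 with hz
  have hz0 : z ≠ 0 := by
    rw [hz, sub_ne_zero]
    exact fun h => hne (Subtype.ext h)
  have hpz : p • z = 0 := by rw [hz, smul_sub, x.2, y.2, sub_zero]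
  have hΦz : Φ z = z := by
    rw [hz, map_sub]
    have : Φ x.1 - Φ y.1 - (x.1 - y.1) = 0 := by
      have e : Φ x.1 - Φ y.1 - (x.1 - y.1) = (Φ x.1 - x.1) - (Φ y.1 - y.1) := by abel
      rw [e, hxy', sub_self]
    exact sub_eq_zero.mp this
  have hzord : addOrderOf z = p := addOrderOf_eq_prime hpz hz0
  -- `z` has non-singular reduction
  obtain ⟨a, b, h, hzab⟩ := s15b_torsion_int hp hp2 hvp hpz hz0
  have he : WA.toAffine.Equation a b :=
    (Affine.map_equation (W := WA.toAffine) (f := A.subtype) Subtype.val_injective a b).mp h.1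
  have hek : (s41a_Wk A WA).toAffine.Equation (residue A a) (residue A b) :=
    he.map (residue A)
  have hΔk : (s41a_Wk A WA).Δ ≠ 0 := s15b_lift_ne_zero_of_eq s15b_lift_Δ hΔ
  have hns : (s41a_Wk A WA).toAffine.Nonsingular (residue A a) (residue A b) :=
    (equation_iff_nonsingular_of_Δ_ne_zero hΔk).mp hek
  have hzred : s58g_Red A WA z (Point.some _ _ hns) := ⟨a, b, h, hns, hzab, rfl⟩
  exact s12l_fixed_false hq hqp hp hp2 hvp Φ hΦ hzord hzred hΦz

/-- **multiplicative reduction**: the generator of a cofixed line has non-singular reduction. -/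
theorem s12l_mult_red [IsAlgClosed K] [CharZero K] [IsAlgClosed (ResidueField A)] {p q : ℕ}
    (hq : 2 ≤ q) (hqp : q ^ 2 < p - 1) (hp : p.Prime)
    (hp2 : p ≠ 2) (hvp : A.valuation (p : K) = 1)
    (Φ : (s41a_WK A WA).toAffine.Point →+ (s41a_WK A WA).toAffine.Point)
    (hΦ : s12l_IsFrobLift (A := A) q (s41a_WK A WA) Φ)
    (hF : ∀ s t : ResidueField A, (s41a_Wk A WA).toAffine.Nonsingular s t →
      (s41a_Wk A WA).toAffine.Nonsingular (s ^ q) (t ^ q))
    (hΔ0 : (s41a_WK A WA).Δ ≠ 0) (hΔ : A.valuation (s41a_WK A WA).Δ < 1)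
    (hc₄ : A.valuation (s41a_WK A WA).c₄ = 1)
    {Q : (s41a_WK A WA).toAffine.Point} (hQ : addOrderOf Q = p)
    (hcof : ∀ x : (s41a_WK A WA).toAffine.Point, p • x = 0 → ∃ k : ℕ, Φ x - x = k • Q) :
    ∃ Qt, s58g_Red A WA Q Qt := by
  classical
  by_contra hno
  haveI : Fact p.Prime := ⟨hp⟩
  obtain ⟨hb2, hb4, hb6, hb8⟩ :=
    s58e_b_integral A.valuation (s41a_WK A WA) (s41a_frd_integral A WA)
  have hQ0 : Q ≠ 0 := by
    intro h0
    rw [h0, addOrderOf_zero] at hQ
    exact hp.one_lt.ne hQ
  have hpQ : p • Q = 0 := by rw [← hQ]; exact addOrderOf_nsmul_eq_zero Q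
  -- the special fibre is a nodal cubic
  have hΔk : (s41a_Wk A WA).Δ = 0 := s15b_lift_zero_of_lt s15b_lift_Δ hΔ
  have hc₄k : (s41a_Wk A WA).c₄ ≠ 0 := s15b_lift_ne_zero_of_eq s15b_lift_c₄ hc₄
  have hpk : ((p : ℕ) : ResidueField A) ≠ 0 :=
    s15b_lift_ne_zero_of_eq (s15b_lift_natCast p) hvp
  obtain ⟨Rt, hRt1, hRt2⟩ := s58m_exact_order (s41a_Wk A WA) hΔk hc₄k hp hpk 0
  rw [zero_add, pow_one] at hRt1
  rw [pow_zero, one_nsmul] at hRt2
  have hRtord : addOrderOf Rt = p := addOrderOf_eq_prime hRt1 hRt2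
  have hordk : ∀ k, 0 < k → k < p → k • Rt ≠ 0 := by
    intro k hk0 hkp h0
    have := addOrderOf_dvd_of_nsmul_eq_zero h0
    rw [hRtord] at this
    exact absurd (Nat.le_of_dvd hk0 this) (not_le.mpr hkp)
  obtain ⟨xt, yt, ht, rfl⟩ : ∃ (xt yt : ResidueField A)
      (ht : (s41a_Wk A WA).toAffine.Nonsingular xt yt), Rt = Point.some xt yt ht := by
    rcases Rt with _ | ⟨xt, yt, ht⟩
    · exact absurd rfl hRt2
    · exact ⟨xt, yt, ht, rfl⟩
  obtain ⟨R, hR⟩ := s58g_exists_lift (A := A) (W := WA) ht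
  have hmul := s58g_red_nsmul hR p hordk
  have h2p : 2 ≤ p := hp.two_le
  -- `p • R ∈ E₁`
  have hpR : fe1_E1 A.valuation (p • R) := by
    have h1 := hmul (p - 1) (by omega) (by omega)
    have e1 : (p - 1) • (Point.some xt yt ht : (s41a_Wk A WA).toAffine.Point) =
        -Point.some xt yt ht := by
      rw [eq_neg_iff_add_eq_zero, ← succ_nsmul, show p - 1 + 1 = p by omega]
      exact hRt1
    rw [e1] at h1
    have h2 := s58g_sub_mem_E1 h1 (s58g_red_neg hR)
    have e2 : (p - 1) • R - -R = p • R := by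
      rw [sub_neg_eq_add, ← succ_nsmul, show p - 1 + 1 = p by omega]
    rw [e2] at h2
    exact (s58e_E1_iff A.valuation _ _).mp h2
  obtain ⟨S, hS, hpS⟩ := s58d_E1_divisible (s41a_WK A WA) A.valuation hb2 hb4 hb6 hb8 hΔ0
    hp.pos hvp hpR
  -- the torsion point `x = R - S`
  set x := R - S with hx
  have hxred : s58g_Red A WA x (Point.some xt yt ht) := s12l_red_sub_E1 hR hS
  have hpx : p • x = 0 := by rw [hx, smul_sub, hpS, sub_self]
  have hx0 : x ≠ 0 := (s58g_red_ne_zero hxred).1
  have hxord : addOrderOf x = p := addOrderOf_eq_prime hpx hx0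
  -- `Φ x` has non-singular reduction
  obtain ⟨Yt, hΦred⟩ : ∃ Yt, s58g_Red A WA (Φ x) Yt := by
    obtain ⟨a, b, h, h', e, e'⟩ := hxred
    obtain ⟨a', b', h'', e'', ha, hb⟩ := hΦ a b h
    have hns : (s41a_Wk A WA).toAffine.Nonsingular (residue A a') (residue A b') := by
      rw [ha, hb]; exact hF _ _ h'
    exact ⟨Point.some _ _ hns, a', b', h'', hns, by rw [e, e''], rfl⟩
  have hpΦx : p • Φ x = 0 := by rw [← map_nsmul, hpx, map_zero]
  obtain ⟨k, hk⟩ := hcof x hpx
  -- a non-zero difference with non-singular reduction is impossible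
  have hbad : ∀ Zt, s58g_Red A WA (Φ x - x) Zt → False := by
    intro Zt hZ
    have hz0 : Φ x - x ≠ 0 := (s58g_red_ne_zero hZ).1
    have hpz : p • (Φ x - x) = 0 := by rw [smul_sub, hpΦx, hpx, sub_zero]
    have hzord : addOrderOf (Φ x - x) = p := addOrderOf_eq_prime hpz hz0
    rw [hk] at hz0
    obtain ⟨m, hm⟩ := s12l_generator hp hQ hz0
    rw [← hk] at hm
    exact hno (s12l_red_of_multiple hp hp2 hvp hzord hZ m hm hQ0)
  have hfix : Φ x = x := by
    by_cases h1 : Yt = Point.some xt yt ht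
    · rw [h1] at hΦred
      have h2 := (s58e_E1_iff A.valuation _ _).mp (s58g_sub_mem_E1 hΦred hxred)
      have hpz : p • (Φ x - x) = 0 := by rw [smul_sub, hpΦx, hpx, sub_zero]
      exact sub_eq_zero.mp
        (s58e_E1_torsion_free (s41a_WK A WA) A.valuation hb2 hb4 hb6 hb8 hp hp2 hvp h2 hpz)
    · exfalso
      by_cases h2 : Yt = -Point.some xt yt ht
      · rw [h2] at hΦred
        have h3 := (s58e_E1_iff A.valuation _ _).mp
          (s58g_sub_mem_E1 hΦred (s58g_red_neg hxred))
        have hpz : p • (Φ x - -x) = 0 := by rw [smul_sub, smul_neg, hpΦx, hpx, neg_zero, sub_zero]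
        have h4 : Φ x = -x := sub_eq_zero.mp
          (s58e_E1_torsion_free (s41a_WK A WA) A.valuation hb2 hb4 hb6 hb8 hp hp2 hvp h3 hpz)
        have hp3 : 3 ≤ p := by
          rcases Nat.lt_or_ge p 3 with h | h
          · omega
          · exact h
        have h5 := s15b_red_all hp hp2 hvp hxord hxred (p - 2) (by omega) (by omega)
        have e : (p - 2) • x = Φ x - x := by
          rw [h4]
          have : (p - 2) • x + 2 • x = 0 := by
            rw [← add_nsmul, show p - 2 + 2 = p by omega, hpx]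
          rw [two_nsmul] at this
          have e' : (p - 2) • x = -(x + x) := eq_neg_of_add_eq_zero_left this
          rw [e']; abel
        rw [e] at h5
        exact hbad _ h5
      · have h3 := s58g_red_add hΦred (s58g_red_neg hxred) h2
          (by rw [neg_neg]; exact h1)
        rw [← sub_eq_add_neg] at h3
        exact hbad _ h3
  exact s12l_fixed_false hq hqp hp hp2 hvp Φ hΦ hxord hxred hfix

end Fermat.Agent.Lib.S12
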