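/-
S12 node [N-L3] (helper8, prefix `s12l_`), part 3: **the theorem for an integral Weierstrass
model** `W / ℤ`, `p ≥ 11` prime, `Q ∈ E(ℚ̄)` of order `p` generating a line `N` with
`(σ - 1) E[p] ⊂ N` for all `σ ∈ G_ℚ`:

* `3 ∣ Δ(W)` (else a Frobenius at `3` fixes a point of order `p`, whose `p - 1` non-zero multiples
  reduce to distinct affine `𝔽₃`-points: at most `9`);
* if moreover `3 ∤ c₄(W)` (multiplicative reduction), then `Q` lies in the zero component at every
  place over `3` (else `E[p] ∩ E₀` contains a Frobenius-fixed point of order `p`, same count).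
-/
import Mathlib
import Fermat.Agent.Lib.S12.L3Core
import Fermat.Agent.Lib.S15.BRedD
import Fermat.Agent.Lib.S41.ALocal
import Fermat.Agent.Lib.S41.ARedRes
import Fermat.Agent.Lib.S18.NResidue
import Fermat.Agent.Lib.EN.Torsion
import Fermat.Agent.Lib.Frobenius.Exists
import Fermat.Prelude.Def_EllipticCurve_ZeroComponentAt
import Fermat.Prelude.Def_EllipticCurve_FrobeniusTrace

set_option autoImplicit false
set_option linter.unusedSectionVars false
set_option linter.unusedVariables false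
set_option linter.style.haveILetI false

noncomputable section

namespace Fermat.Agent.Lib.S12

open WeierstrassCurve WeierstrassCurve.Affine IsLocalRing Finset
open Fermat.Agent.Lib.S58 Fermat.Agent.Lib.S41 Fermat.Agent.Lib.Frey Fermat.Agent.Lib.S15
  Fermat.Agent.Lib.S18 Fermat.Agent.Lib.EN

local notation "Kb" => AlgebraicClosure ℚ
local notation "GQ" => (AlgebraicClosure ℚ ≃ₐ[ℚ] AlgebraicClosure ℚ)

section Transport

variable {K : Type*} [Field K] [DecidableEq K] {A : ValuationSubring K} {WA : WeierstrassCurve A}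
  [DecidableEq (ResidueField A)]

/-- `s12l_good_false` for a curve propositionally equal to the generic fibre. -/
theorem s12l_good_false' (W' : WeierstrassCurve K) (hW' : s41a_WK A WA = W') {p q : ℕ}
    (hq : 2 ≤ q) (hqp : q ^ 2 < p - 1) (hp : p.Prime)
    (hp2 : p ≠ 2) (hvp : A.valuation (p : K) = 1)
    (Φ : W'.toAffine.Point →+ W'.toAffine.Point)
    (hΦ : s12l_IsFrobLift (A := A) q W' Φ)
    (hΔ : A.valuation W'.Δ = 1)
    {Q : W'.toAffine.Point} (hQ : addOrderOf Q = p)
    (hcof : ∀ x : W'.toAffine.Point, p • x = 0 → ∃ k : ℕ, Φ x - x = k • Q)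
    (hcard : p < Nat.card {x : W'.toAffine.Point // p • x = 0}) : False := by
  subst hW'
  exact s12l_good_false hq hqp hp hp2 hvp Φ hΦ hΔ hQ hcof hcard

/-- `s12l_mult_red` for curves propositionally equal to the two fibres. -/
theorem s12l_mult_red' [IsAlgClosed K] [CharZero K] [IsAlgClosed (ResidueField A)]
    (W' : WeierstrassCurve K) (hW' : s41a_WK A WA = W')
    (Wκ : WeierstrassCurve (ResidueField A)) (hWκ : s41a_Wk A WA = Wκ) {p q : ℕ}
    (hq : 2 ≤ q) (hqp : q ^ 2 < p - 1) (hp : p.Prime)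
    (hp2 : p ≠ 2) (hvp : A.valuation (p : K) = 1)
    (Φ : W'.toAffine.Point →+ W'.toAffine.Point)
    (hΦ : s12l_IsFrobLift (A := A) q W' Φ)
    (hF : ∀ s t : ResidueField A, Wκ.toAffine.Nonsingular s t →
      Wκ.toAffine.Nonsingular (s ^ q) (t ^ q))
    (hΔ0 : W'.Δ ≠ 0) (hΔ : A.valuation W'.Δ < 1) (hc₄ : A.valuation W'.c₄ = 1)
    {Q : W'.toAffine.Point} (hQ : addOrderOf Q = p)
    (hcof : ∀ x : W'.toAffine.Point, p • x = 0 → ∃ k : ℕ, Φ x - x = k • Q) :
    ∃ (a b : A) (h : W'.toAffine.Nonsingular (a : K) (b : K)),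
      Q = Point.some (a : K) (b : K) h ∧
        Wκ.toAffine.Nonsingular (residue A a) (residue A b) := by
  subst hW' hWκ
  obtain ⟨Qt, a, b, h, h', e, -⟩ := s12l_mult_red hq hqp hp hp2 hvp Φ hΦ hF hΔ0 hΔ hc₄ hQ hcof
  exact ⟨a, b, h, e, h'⟩

end Transport

section Concrete

variable (W : WeierstrassCurve ℤ)

/-- the Frobenius power map preserves the non-singular points of the special fibre of a model
over `ℤ`. -/
theorem s12l_frob_nonsingular {κ : Type*} [Field κ] (ℓ : ℕ) [Fact ℓ.Prime] [CharP κ ℓ] {s t : κ}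
    (h : (W.map (Int.castRingHom κ)).toAffine.Nonsingular s t) :
    (W.map (Int.castRingHom κ)).toAffine.Nonsingular (s ^ ℓ) (t ^ ℓ) := by
  have h1 := (Affine.map_nonsingular (W.map (Int.castRingHom κ)).toAffine
    (frobenius κ ℓ).injective s t).mpr h
  have e : (W.map (Int.castRingHom κ)).map (frobenius κ ℓ) = W.map (Int.castRingHom κ) := by
    rw [WeierstrassCurve.map_map]
    congr 1
    exact RingHom.ext_int _ _
  have h2 : (W.map (Int.castRingHom κ)).toAffine.Nonsingular (frobenius κ ℓ s)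
      (frobenius κ ℓ t) := by
    have := h1
    rw [show ((W.map (Int.castRingHom κ)).toAffine.map (frobenius κ ℓ)) =
      (W.map (Int.castRingHom κ)).toAffine from e] at this
    exact this
  simpa only [frobenius_def] using h2

/-- the Galois action of a Frobenius element is a Frobenius lift on the points. -/
theorem s12l_isFrobLift (A : ValuationSubring Kb) {ℓ : ℕ} {φ : GQ} (hφ : A.IsFrobeniusAt φ ℓ) :
    s12l_IsFrobLift (A := A) ℓ ((W.map (Int.castRingHom ℚ)).baseChange Kb)
      (DistribSMul.toAddMonoidHom ((W.map (Int.castRingHom ℚ))⁄Kb).Point φ) := by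
  intro a b h
  obtain ⟨h', e⟩ : ∃ h', φ • (Point.some (a : Kb) (b : Kb) h :
      ((W.map (Int.castRingHom ℚ))⁄Kb).Point) = Point.some (φ (a : Kb)) (φ (b : Kb)) h' :=
    ⟨_, rfl⟩
  exact ⟨⟨φ (a : Kb), s41a_frob_mem hφ a a.2⟩, ⟨φ (b : Kb), s41a_frob_mem hφ b b.2⟩, h', e,
    s41a_frob_res hφ a _, s41a_frob_res hφ b _⟩

/-- **[N-L3] for an integral Weierstrass model.** -/
theorem s12l_main (hΔ : W.Δ ≠ 0) {p : ℕ} (hp : p.Prime) (hp11 : 11 ≤ p)
    (Q : ((W.map (Int.castRingHom ℚ))⁄Kb).Point) (hQ : addOrderOf Q = p)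
    (hcof : ∀ (σ : GQ) (x : ((W.map (Int.castRingHom ℚ))⁄Kb).Point), p • x = 0 →
      ∃ k : ℕ, σ • x - x = k • Q) :
    (3 : ℤ) ∣ W.Δ ∧ (¬ (3 : ℤ) ∣ W.c₄ →
      ∀ A : ValuationSubring Kb, A.LiesOverPrime 3 → W.InZeroComponentAt A Q) := by
  classical
  haveI : Fact (Nat.Prime 3) := ⟨Nat.prime_three⟩
  have hp2 : p ≠ 2 := by omega
  have hp3 : ¬ 3 ∣ p := fun h => by
    have := (Nat.prime_dvd_prime_iff_eq Nat.prime_three hp).mp h; omega
  have hΔ0 : ((W.map (Int.castRingHom ℚ)).baseChange Kb).Δ ≠ 0 := by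
    rw [s15b_bc_Δ]
    exact_mod_cast hΔ
  -- the frame at a place over `3`
  have frame : ∀ A : ValuationSubring Kb, A.LiesOverPrime 3 →
      A.valuation ((p : ℕ) : Kb) = 1 ∧
      s41a_WK A (W.map (Int.castRingHom A)) = (W.map (Int.castRingHom ℚ)).baseChange Kb ∧
      s41a_Wk A (W.map (Int.castRingHom A)) = W.map (Int.castRingHom (ResidueField A)) := by
    intro A hA
    refine ⟨s41a_valuation_natCast_eq_one A Nat.prime_three hA hp3, ?_, ?_⟩
    · show (W.map (Int.castRingHom A)).map A.subtype =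
        (W.map (Int.castRingHom ℚ)).map (algebraMap ℚ Kb)
      rw [WeierstrassCurve.map_map, WeierstrassCurve.map_map]
      congr 1
    · show (W.map (Int.castRingHom A)).map (residue A) = _
      rw [WeierstrassCurve.map_map]
      congr 1
  constructor
  · -- good reduction is impossible
    by_contra h3
    obtain ⟨A, φ, hA, hφ⟩ := Fermat.Agent.Lib.Frobenius.exists_isFrobeniusAt 3 Nat.prime_three
    obtain ⟨hvp, hWK, hWk⟩ := frame A hA
    have hvΔ : A.valuation ((W.map (Int.castRingHom ℚ)).baseChange Kb).Δ = 1 := by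
      rw [s15b_bc_Δ]
      exact s41a_valuation_intCast_eq_one A Nat.prime_three hA h3
    haveI : ((W.map (Int.castRingHom ℚ)).baseChange Kb).IsElliptic :=
      ⟨isUnit_iff_ne_zero.mpr hΔ0⟩
    have hcard : p < Nat.card
        {x : ((W.map (Int.castRingHom ℚ)).baseChange Kb).toAffine.Point // p • x = 0} := by
      rw [ent_natCard_torsion ((W.map (Int.castRingHom ℚ)).baseChange Kb) p hp.one_le]
      nlinarith
    exact s12l_good_false' (A := A) (WA := W.map (Int.castRingHom A)) _ hWK (q := 3)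
      (by norm_num) (by omega) hp hp2 hvp _ (s12l_isFrobLift W A hφ) hvΔ hQ
      (fun x hx => hcof φ x hx) hcard
  · intro hc4 A hA
    obtain ⟨φ, hφ⟩ :=
      Fermat.Agent.Lib.Frobenius.exists_isFrobeniusAt_of_liesOverPrime A 3 Nat.prime_three hA
    obtain ⟨hvp, hWK, hWk⟩ := frame A hA
    haveI := s18n_isAlgClosed_residueField A
    haveI : CharP (ResidueField A) 3 := s41a_charP_residueField A Nat.prime_three hA
    have h3 : (3 : ℤ) ∣ W.Δ := by
      by_contra h3
      obtain ⟨hvp, hWK, hWk⟩ := frame A hA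
      have hvΔ : A.valuation ((W.map (Int.castRingHom ℚ)).baseChange Kb).Δ = 1 := by
        rw [s15b_bc_Δ]
        exact s41a_valuation_intCast_eq_one A Nat.prime_three hA h3
      haveI : ((W.map (Int.castRingHom ℚ)).baseChange Kb).IsElliptic :=
        ⟨isUnit_iff_ne_zero.mpr hΔ0⟩
      have hcard : p < Nat.card
          {x : ((W.map (Int.castRingHom ℚ)).baseChange Kb).toAffine.Point // p • x = 0} := by
        rw [ent_natCard_torsion ((W.map (Int.castRingHom ℚ)).baseChange Kb) p hp.one_le]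
        nlinarith
      exact s12l_good_false' (A := A) (WA := W.map (Int.castRingHom A)) _ hWK (q := 3)
        (by norm_num) (by omega) hp hp2 hvp _ (s12l_isFrobLift W A hφ) hvΔ hQ
        (fun x hx => hcof φ x hx) hcard
    have hvΔ : A.valuation ((W.map (Int.castRingHom ℚ)).baseChange Kb).Δ < 1 := by
      rw [s15b_bc_Δ]
      exact s15b_val_int_lt hA h3
    have hvc₄ : A.valuation ((W.map (Int.castRingHom ℚ)).baseChange Kb).c₄ = 1 := by
      rw [s15b_bc_c₄]
      exact s41a_valuation_intCast_eq_one A Nat.prime_three hA hc4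
    obtain ⟨a, b, h, e, h'⟩ := s12l_mult_red' (A := A) (WA := W.map (Int.castRingHom A)) _ hWK
      _ hWk (q := 3) (by norm_num) (by omega) hp hp2 hvp _ (s12l_isFrobLift W A hφ)
      (fun s t hst => s12l_frob_nonsingular W 3 hst) hΔ0 hvΔ hvc₄ hQ (fun x hx => hcof φ x hx)
    exact Or.inr ⟨a, b, h, e, Or.inr ⟨a.2, b.2, h'⟩⟩

end Concrete

end Fermat.Agent.Lib.S12
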