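/-
S12 node [N-L3] (helper8, prefix `s12l_`), part 4: **`s12l_L3 : s12n_L3`** — the typed node of
`NGraph.lean` (helper6), from `s12l_main` (L3Main.lean) and the arithmetic [N-AR] of the integral
Frey model (`s12s_Arith`, helper5, NArith.lean).
-/
import Mathlib
import Fermat.Agent.Lib.S12.L3Main
import Fermat.Agent.Lib.S12.NGraph
import Fermat.Agent.Lib.S12.NArith

set_option autoImplicit false

namespace Fermat.Agent.Lib.S12

/-- **[N-L3]** a cofixed line of the Frey curve (`p ≥ 11`) forces `3 ∣ abc` and is canonical at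
`3`. -/
theorem s12l_L3 : s12n_L3 := by
  intro P hp11 Q hQ
  obtain ⟨hord, -, hcof⟩ := hQ
  obtain ⟨-, hΔ, hdvd, hc4⟩ := s12s_Arith P
  obtain ⟨h3, hin⟩ := s12l_main P.freyCurveInt hΔ P.pp hp11 Q hord hcof
  have h3' : ((3 : ℕ) : ℤ) ∣ P.freyCurveInt.Δ := by exact_mod_cast h3
  refine ⟨(hdvd 3 Nat.prime_three).mp h3', hin ?_⟩
  have := hc4 3 Nat.prime_three h3'
  exact_mod_cast this

end Fermat.Agent.Lib.S12
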