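/-
S12 shortcut (helper6): [N-CORE] against `m15_Eis''` (the form of [EIS] that is proved:
`m15_eis : m15_Eis''`, helper7's MFinal).  Same proof as `s12n_core` (NGraph.lean).
-/
import Fermat.Agent.Lib.S12.NGraph
import Fermat.Agent.Lib.S15.MGraph3

set_option autoImplicit false
set_option linter.unusedSectionVars false
set_option linter.unusedVariables false
set_option linter.style.haveILetI false

noncomputable section

namespace Fermat.Agent.Lib.S12

open ModularCurve AlgebraicCurve WeierstrassCurve WeierstrassCurve.Affine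
open Fermat.Agent.Lib.S15

local notation "Kb" => AlgebraicClosure ℚ
local notation "GQ" => (AlgebraicClosure ℚ ≃ₐ[ℚ] AlgebraicClosure ℚ)

/-- **[N-CORE]** the wiring of `m15_S15_of''` (MGraph3, rational cusps) for an abstract
Galois-fixed place. -/
theorem s12n_core'' (hC : m15_CuspNode) (hE : m15_Eis'') (hR : m15_R) (hT : m15_Tprime')
    (h23 : m15_Red23) {p : ℕ} [NeZero p] (hp : p.Prime)
    (hp' : p ∉ ({2, 3, 5, 7, 13} : Finset ℕ)) :
    ∃ c : m15_Cusps p, ∀ x : m15_Pl p, (∀ σ : GQ, m15_gal p σ x = x) →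
      (∀ (A : ValuationSubring Kb), A.LiesOverPrime 2 → ∀ h : ReductionInputsModL A p,
        placeReductionModL h x = placeReductionModL h c.zero) →
      (∀ (A : ValuationSubring Kb), A.LiesOverPrime 3 → ∀ h : ReductionInputsModL A p,
        placeReductionModL h x = placeReductionModL h c.zero) →
      ∀ ℓ : ℕ, ℓ.Prime → 5 ≤ ℓ → ℓ ≠ p → ∀ (A : ValuationSubring Kb), A.LiesOverPrime ℓ →
        ∀ h : ReductionInputsModL A p, placeReductionModL h x ≠ placeReductionModL h c.inf := by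
  have hp5 : 5 ≤ p := by
    by_contra hlt
    rw [not_le] at hlt
    have h2' := hp.two_le
    simp only [Finset.mem_insert, Finset.mem_singleton, not_or] at hp'
    interval_cases p
    · exact hp'.1 rfl
    · exact hp'.2.1 rfl
    · exact absurd hp (by norm_num)
  have h2np : ¬ 2 ∣ p := fun h => by
    have := (Nat.prime_dvd_prime_iff_eq Nat.prime_two hp).mp h; omega
  have h3np : ¬ 3 ∣ p := fun h => by
    have := (Nat.prime_dvd_prime_iff_eq Nat.prime_three hp).mp h; omega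
  haveI : Fact (Nat.Prime 2) := ⟨Nat.prime_two⟩
  haveI : Fact (Nat.Prime 3) := ⟨Nat.prime_three⟩
  obtain ⟨A₂, hA₂⟩ := Fermat.Agent.Lib.Mz.ptm_exists_liesOverPrime 2 Nat.prime_two
  obtain ⟨A₃, hA₃⟩ := Fermat.Agent.Lib.Mz.ptm_exists_liesOverPrime 3 Nat.prime_three
  have hred₂ : ReductionInputsModL A₂ p := by
    obtain ⟨r, hr⟩ := h23 p hp hp5 2 (Or.inl rfl) A₂ hA₂
    exact ⟨r, hr, Fermat.Agent.Lib.S37.s37g_principalGenerated p h2np A₂ hA₂⟩
  have hred₃ : ReductionInputsModL A₃ p := by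
    obtain ⟨r, hr⟩ := h23 p hp hp5 3 (Or.inr rfl) A₃ hA₃
    exact ⟨r, hr, Fermat.Agent.Lib.S37.s37g_principalGenerated p h3np A₃ hA₃⟩
  obtain ⟨c, hcinf, hczero, hdeg⟩ := hC p hp
  obtain ⟨t, htT', httors, htc⟩ := hE p hp hp' c hcinf hczero hdeg
  have htT : t ∈ m15_T p := m15_Tg_le p htT'
  refine ⟨c, ?_⟩
  intro x hxfix hx2 hx3 ℓ hℓ hℓ5 hℓp A hA hred hin
  -- Step A: `t • cl(x − 0) = 0`
  have hz'fix : ∀ σ : GQ, σ • m15_cl p x c.zero = m15_cl p x c.zero := by
    intro σ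
    rw [m15_gal_cl hdeg, hxfix, hczero]
  obtain ⟨m, hm, hmt⟩ := httors _ hz'fix
  have hA2 : reductionModL A₂ p (t (m15_cl p x c.zero)) = 0 := by
    refine hR p hp 2 Nat.prime_two (by omega) A₂ hA₂ hred₂ t htT _ ?_
    exact m15_red_cl hdeg hred₂ (hx2 A₂ hA₂ hred₂)
  have hA3 : reductionModL A₃ p (t (m15_cl p x c.zero)) = 0 := by
    refine hR p hp 3 Nat.prime_three (by omega) A₃ hA₃ hred₃ t htT _ ?_
    exact m15_red_cl hdeg hred₃ (hx3 A₃ hA₃ hred₃)
  have hstepA : t (m15_cl p x c.zero) = 0 :=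
    m15_eq_zero_of_red23 h2np h3np hA₂ hA₃ hred₂ hred₃ _ hm hmt hA2 hA3
  -- Step B: `red_A (t • cl(x − ∞)) = 0`
  have hB : reductionModL A p (t (m15_cl p x c.inf)) = 0 := by
    refine hR p hp ℓ hℓ hℓp A hA hred t htT _ ?_
    exact m15_red_cl hdeg hred hin
  have hsplit : m15_cl p x c.inf = m15_cl p x c.zero + m15_cl p c.zero c.inf :=
    m15_cl_add hdeg x c.zero c.inf
  rw [hsplit, map_add, hstepA, zero_add] at hB
  exact htc (hT p hp c ℓ hℓ hℓ5 hℓp A hA hred t htT' hB)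

end Fermat.Agent.Lib.S12
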