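/-
S12 shortcut, [N-FIN] (helper6): the final arithmetic, Mathlib only.
-/
import Mathlib

set_option autoImplicit false
set_option linter.style.haveILetI false

namespace Fermat.Agent.Lib.S12

/-- a non-zero rational all of whose `ℓ`-adic valuations vanish has square `1`. -/
theorem s12f_sq_eq_one_of_val_zero (q : ℚ) (hq : q ≠ 0)
    (h : ∀ ℓ : ℕ, ℓ.Prime → padicValRat ℓ q = 0) : q ^ 2 = 1 := by
  have hnum : q.num ≠ 0 := Rat.num_ne_zero.mpr hq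
  have hden : q.den = 1 := by
    rw [Nat.eq_one_iff_not_exists_prime_dvd]
    intro ℓ hℓ hdvd
    haveI : Fact ℓ.Prime := ⟨hℓ⟩
    have hcop : q.num.natAbs.Coprime q.den := q.reduced
    have hndvd : ¬ ℓ ∣ q.num.natAbs := fun hn =>
      hℓ.one_lt.ne' (Nat.eq_one_of_dvd_coprimes hcop hn hdvd)
    have h1 : padicValInt ℓ q.num = 0 := by
      unfold padicValInt
      exact padicValNat.eq_zero_of_not_dvd hndvd
    have h2 : 1 ≤ padicValNat ℓ q.den := one_le_padicValNat_of_dvd q.den_nz hdvd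
    have h3 := h ℓ hℓ
    rw [padicValRat_def, h1] at h3
    omega
  have hnat : q.num.natAbs = 1 := by
    rw [Nat.eq_one_iff_not_exists_prime_dvd]
    intro ℓ hℓ hdvd
    haveI : Fact ℓ.Prime := ⟨hℓ⟩
    have h1 : 1 ≤ padicValInt ℓ q.num := by
      unfold padicValInt
      exact one_le_padicValNat_of_dvd (Int.natAbs_ne_zero.mpr hnum) hdvd
    have h3 := h ℓ hℓ
    rw [padicValRat_def, hden, padicValNat_one_right] at h3
    push_cast at h3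
    omega
  have hq' : q = q.num := by
    conv_lhs => rw [← Rat.num_div_den q, hden]
    simp
  rw [hq']
  have : q.num ^ 2 = 1 := by
    rw [← Int.natAbs_sq, hnat]; simp
  exact_mod_cast this

/-- two non-zero rationals with the same valuations at all primes have the same square. -/
theorem s12f_sq_eq_of_val_eq (r s : ℚ) (hr : r ≠ 0) (hs : s ≠ 0)
    (h : ∀ ℓ : ℕ, ℓ.Prime → padicValRat ℓ r = padicValRat ℓ s) : r ^ 2 = s ^ 2 := by
  have h1 : (r / s) ^ 2 = 1 := by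
    refine s12f_sq_eq_one_of_val_zero _ (div_ne_zero hr hs) (fun ℓ hℓ => ?_)
    haveI : Fact ℓ.Prime := ⟨hℓ⟩
    rw [padicValRat.div hr hs, h ℓ hℓ, sub_self]
  rw [div_pow, div_eq_one_iff_eq (pow_ne_zero 2 hs)] at h1
  exact h1

/-- the archimedean inequality: `(t+1)^p - t^p ≥ 2^{1-p}` for `p` odd. -/
theorem s12f_real (p : ℕ) (hp : Odd p) (t : ℚ) : 1 ≤ 2 ^ (p - 1) * ((t + 1) ^ p - t ^ p) := by
  have hp0 : p ≠ 0 := by
    rintro rfl; simp at hp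
  have h2 : (1 : ℚ) ≤ 2 ^ (p - 1) := one_le_pow₀ (by norm_num)
  rcases le_or_gt 0 t with ht | ht
  · have h := pow_add_pow_le ht (zero_le_one (α := ℚ)) hp0
    rw [one_pow] at h
    have h3 : (1 : ℚ) ≤ (t + 1) ^ p - t ^ p := by linarith
    calc (1 : ℚ) = 1 * 1 := by ring
      _ ≤ 2 ^ (p - 1) * ((t + 1) ^ p - t ^ p) := mul_le_mul h2 h3 zero_le_one (by positivity)
  · rcases le_or_gt t (-1) with ht1 | ht1
    · have hs : (0 : ℚ) ≤ -t - 1 := by linarith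
      have h := pow_add_pow_le hs (zero_le_one (α := ℚ)) hp0
      rw [one_pow] at h
      have e1 : (t + 1) ^ p = -((-t - 1) ^ p) := by
        rw [← Odd.neg_pow hp]; ring_nf
      have e2 : t ^ p = -((-t - 1 + 1) ^ p) := by
        rw [← Odd.neg_pow hp]; ring_nf
      have h3 : (1 : ℚ) ≤ (t + 1) ^ p - t ^ p := by
        rw [e1, e2]; linarith
      calc (1 : ℚ) = 1 * 1 := by ring
        _ ≤ 2 ^ (p - 1) * ((t + 1) ^ p - t ^ p) := mul_le_mul h2 h3 zero_le_one (by positivity)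
    · have hu : (0 : ℚ) ≤ t + 1 := by linarith
      have hw : (0 : ℚ) ≤ -t := by linarith
      have h := add_pow_le hu hw p
      have e : t + 1 + -t = 1 := by ring
      rw [e, one_pow, Odd.neg_pow hp] at h
      linarith

/-- valuation of a power of `2` at `2`. -/
theorem s12f_val_two_pow (k : ℕ) : padicValRat 2 ((2 : ℚ) ^ k) = k := by
  haveI : Fact (Nat.Prime 2) := ⟨Nat.prime_two⟩
  have h2 : padicValRat 2 (2 : ℚ) = 1 := by
    have := padicValRat.self (p := 2) (by norm_num)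
    exact_mod_cast this
  rw [padicValRat.pow, h2, mul_one]

/-- valuation of a power of `2` at an odd prime. -/
theorem s12f_val_odd_two_pow (ℓ : ℕ) (hℓ : ℓ.Prime) (hℓ2 : ℓ ≠ 2) (k : ℕ) :
    padicValRat ℓ ((2 : ℚ) ^ k) = 0 := by
  haveI : Fact ℓ.Prime := ⟨hℓ⟩
  have h2 : padicValRat ℓ (2 : ℚ) = 0 := by
    have : ((2 : ℕ) : ℚ) = 2 := by norm_num
    rw [← this, padicValRat.of_nat]
    have hnd : ¬ ℓ ∣ 2 := fun h => hℓ2 ((Nat.prime_dvd_prime_iff_eq hℓ Nat.prime_two).mp h)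
    exact_mod_cast padicValNat.eq_zero_of_not_dvd hnd
  rw [padicValRat.pow, h2, mul_zero]

/-- **[N-FIN]**. -/
theorem s12f_fin (p : ℕ) (hpo : Odd p) (hp3 : 3 ≤ p) (a b r₁ r₂ r₃ : ℚ) (ha : a ≠ 0) (hb : b ≠ 0)
    (hab : a + b ≠ 0) (hr₁ : r₁ ≠ 0) (hr₂ : r₂ ≠ 0) (hr₃ : r₃ ≠ 0)
    (h31 : ∀ ℓ : ℕ, ℓ.Prime → padicValRat ℓ r₃ = padicValRat ℓ r₁)
    (h21 : ∀ ℓ : ℕ, ℓ.Prime → ℓ ≠ 2 → padicValRat ℓ r₂ = padicValRat ℓ r₁)
    (h22 : padicValRat 2 r₂ = padicValRat 2 r₁ - 2 * ((p : ℤ) - 1)) :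
    a ^ p * r₃ ^ 2 - (a + b) ^ p * r₁ ^ 2 + b ^ p * r₂ ^ 2 ≠ 0 := by
  intro heq
  have e3 : r₃ ^ 2 = r₁ ^ 2 := s12f_sq_eq_of_val_eq r₃ r₁ hr₃ hr₁ h31
  have hk : (2 : ℚ) ^ (2 * (p - 1)) ≠ 0 := pow_ne_zero _ two_ne_zero
  have e2 : (r₂ * 2 ^ (2 * (p - 1))) ^ 2 = r₁ ^ 2 := by
    refine s12f_sq_eq_of_val_eq _ r₁ (mul_ne_zero hr₂ hk) hr₁ (fun ℓ hℓ => ?_)
    haveI : Fact ℓ.Prime := ⟨hℓ⟩
    rw [padicValRat.mul hr₂ hk]
    by_cases hℓ2 : ℓ = 2
    · subst hℓ2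
      rw [s12f_val_two_pow, h22]
      have : ((2 * (p - 1) : ℕ) : ℤ) = 2 * ((p : ℤ) - 1) := by
        have : 1 ≤ p := by omega
        push_cast [Nat.cast_sub this]
        ring
      rw [this]; ring
    · rw [s12f_val_odd_two_pow ℓ hℓ hℓ2, add_zero, h21 ℓ hℓ hℓ2]
  -- eliminate `r₂`, `r₃`
  have hr1sq : r₁ ^ 2 ≠ 0 := pow_ne_zero 2 hr₁
  have e2' : r₂ ^ 2 * 16 ^ (p - 1) = r₁ ^ 2 := by
    rw [← e2, mul_pow, ← pow_mul]
    congr 1
    rw [show (16 : ℚ) = 2 ^ 4 by norm_num, ← pow_mul]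
    congr 1
    ring
  have h16 : (16 : ℚ) ^ (p - 1) ≠ 0 := pow_ne_zero _ (by norm_num)
  -- `16^(p-1) ((a+b)^p - a^p) = b^p`
  have key : 16 ^ (p - 1) * ((a + b) ^ p - a ^ p) = b ^ p := by
    have h1 : 16 ^ (p - 1) * (a ^ p * r₃ ^ 2 - (a + b) ^ p * r₁ ^ 2 + b ^ p * r₂ ^ 2) = 0 := by
      rw [heq, mul_zero]
    rw [e3] at h1
    have h2 : r₁ ^ 2 * (16 ^ (p - 1) * a ^ p - 16 ^ (p - 1) * (a + b) ^ p + b ^ p) = 0 := by
      have : 16 ^ (p - 1) * (a ^ p * r₁ ^ 2 - (a + b) ^ p * r₁ ^ 2 + b ^ p * r₂ ^ 2)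
          = r₁ ^ 2 * (16 ^ (p - 1) * a ^ p - 16 ^ (p - 1) * (a + b) ^ p)
            + b ^ p * (r₂ ^ 2 * 16 ^ (p - 1)) := by ring
      rw [this, e2'] at h1
      linear_combination h1
    have h3 := (mul_eq_zero.mp h2).resolve_left hr1sq
    linear_combination -h3
  -- divide by `b^p`
  have hbp : b ^ p ≠ 0 := pow_ne_zero _ hb
  have ht : (a + b) ^ p - a ^ p = b ^ p * ((a / b + 1) ^ p - (a / b) ^ p) := by
    have e1 : a + b = b * (a / b + 1) := by field_simp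
    have e2 : a = b * (a / b) := by field_simp
    have e3 : (a + b) ^ p = b ^ p * (a / b + 1) ^ p := by rw [← mul_pow, ← e1]
    have e4 : a ^ p = b ^ p * (a / b) ^ p := by rw [← mul_pow, ← e2]
    rw [e3, e4]; ring
  rw [ht] at key
  have key2 : 16 ^ (p - 1) * ((a / b + 1) ^ p - (a / b) ^ p) = 1 := by
    have : b ^ p * (16 ^ (p - 1) * ((a / b + 1) ^ p - (a / b) ^ p)) = b ^ p * 1 := by
      rw [mul_one]; linear_combination key
    exact mul_left_cancel₀ hbp this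
  have hreal := s12f_real p hpo (a / b)
  -- `16^(p-1) = 8^(p-1) * 2^(p-1)`
  have h8 : (16 : ℚ) ^ (p - 1) = 8 ^ (p - 1) * 2 ^ (p - 1) := by
    rw [← mul_pow]; norm_num
  rw [h8, mul_assoc] at key2
  have h8' : (8 : ℚ) ≤ 8 ^ (p - 1) := by
    have : (8 : ℚ) ^ 1 ≤ 8 ^ (p - 1) := pow_le_pow_right₀ (by norm_num) (by omega)
    simpa using this
  have : (8 : ℚ) ≤ 8 ^ (p - 1) * (2 ^ (p - 1) * ((a / b + 1) ^ p - (a / b) ^ p)) := by
    calc (8 : ℚ) = 8 * 1 := by ring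
      _ ≤ 8 ^ (p - 1) * (2 ^ (p - 1) * ((a / b + 1) ^ p - (a / b) ^ p)) :=
        mul_le_mul h8' hreal zero_le_one (by positivity)
  rw [key2] at this
  norm_num at this

end Fermat.Agent.Lib.S12
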