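/-
S12 shortcut, [N-FIN] (helper6): the node `s12n_Fin` of `NGraph.lean`.
-/
import Fermat.Agent.Lib.S12.NGraph
import Fermat.Agent.Lib.S12.NFinA

set_option autoImplicit false

namespace Fermat.Agent.Lib.S12

/-- **[N-FIN]** as a node. -/
theorem s12f_Fin : s12n_Fin :=
  fun p hpo hp3 a b r₁ r₂ r₃ ha hb hab hr₁ hr₂ hr₃ h31 h21 h22 =>
    s12f_fin p hpo hp3 a b r₁ r₂ r₃ ha hb hab hr₁ hr₂ hr₃ h31 h21 h22

end Fermat.Agent.Lib.S12
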