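/-
(M)/S12, node [N-∗] (helper5, prefix `s12s_`), part 2: transport of the identity
`(e₂-e₁)^p P₃² + (e₃-e₂)^p P₁² + (e₁-e₃)^p P₂² = 0` from `ℂ` to any field which embeds into `ℂ`,
in particular to `ℚ̄`.
-/
import Mathlib
import Fermat.Agent.Lib.S12.StarAn
import Fermat.Agent.Lib.S15.DTransfer

set_option autoImplicit false

open WeierstrassCurve Fermat.Agent.Lib.FF Fermat.Agent.Lib.S15

noncomputable section

namespace Fermat.Agent.Lib.S12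

section pmap

variable {K F : Type*} [Field K] [Field F] [DecidableEq K] [DecidableEq F]
  (W : WeierstrassCurve K) (f : K →+* F)

theorem s12s_P_pmap (Q : W.toAffine.Point) (p : ℕ) (e : K) :
    s12s_P (W.map f) (s15da_pmap W f Q) p (f e) = f (s12s_P W Q p e) := by
  unfold s12s_P
  rw [map_prod]
  refine Finset.prod_congr rfl fun k _ => ?_
  rw [← map_nsmul, s15da_px_pmap, map_sub]

end pmap

/-- **[N-∗] over a field which embeds into `ℂ`.** -/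
theorem s12s_star_of_hom {K : Type*} [Field K] [DecidableEq K] (f : K →+* ℂ) (p : ℕ)
    (hp : p.Prime) (hp2 : p ≠ 2) (W : WeierstrassCurve K) (hΔ : W.Δ ≠ 0)
    (Q : W.toAffine.Point) (hQ : addOrderOf Q = p) (e₁ e₂ e₃ : K)
    (hs1 : e₁ + e₂ + e₃ = -W.b₂ / 4) (hs2 : e₁ * e₂ + e₁ * e₃ + e₂ * e₃ = W.b₄ / 2)
    (hs3 : e₁ * e₂ * e₃ = -W.b₆ / 4) :
    (e₂ - e₁) ^ p * s12s_P W Q p e₃ ^ 2 + (e₃ - e₂) ^ p * s12s_P W Q p e₁ ^ 2 +
      (e₁ - e₃) ^ p * s12s_P W Q p e₂ ^ 2 = 0 := by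
  have hΔ' : (W.map f).Δ ≠ 0 := by
    rw [map_Δ]
    exact (map_ne_zero_iff _ f.injective).mpr hΔ
  have hQ' : addOrderOf (s15da_pmap W f Q) = p := by
    rw [addOrderOf_injective (s15da_pmap W f) (s15da_pmap_injective W f) Q, hQ]
  have key := s12s_star_C p hp hp2 (W.map f) hΔ' _ hQ' (f e₁) (f e₂) (f e₃)
    (by
      rw [map_b₂, ← map_add, ← map_add, hs1]
      simp only [map_div₀, map_neg, map_ofNat])
    (by
      rw [map_b₄, ← map_mul, ← map_mul, ← map_mul, ← map_add, ← map_add, hs2]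
      simp only [map_div₀, map_ofNat])
    (by
      rw [map_b₆, ← map_mul, ← map_mul, hs3]
      simp only [map_div₀, map_neg, map_ofNat])
  rw [s12s_P_pmap, s12s_P_pmap, s12s_P_pmap] at key
  apply f.injective
  simp only [map_add, map_mul, map_pow, map_sub, map_zero]
  exact key

local notation "Kb" => AlgebraicClosure ℚ

/-- **[N-∗] over `ℚ̄`.** -/
theorem s12s_star_Kb (p : ℕ) (hp : p.Prime) (hp2 : p ≠ 2) (W : WeierstrassCurve Kb) (hΔ : W.Δ ≠ 0)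
    (Q : W.toAffine.Point) (hQ : addOrderOf Q = p) (e₁ e₂ e₃ : Kb)
    (hs1 : e₁ + e₂ + e₃ = -W.b₂ / 4) (hs2 : e₁ * e₂ + e₁ * e₃ + e₂ * e₃ = W.b₄ / 2)
    (hs3 : e₁ * e₂ * e₃ = -W.b₆ / 4) :
    (e₂ - e₁) ^ p * s12s_P W Q p e₃ ^ 2 + (e₃ - e₂) ^ p * s12s_P W Q p e₁ ^ 2 +
      (e₁ - e₃) ^ p * s12s_P W Q p e₂ ^ 2 = 0 :=
  s12s_star_of_hom (IsAlgClosed.lift : Kb →ₐ[ℚ] ℂ).toRingHom p hp hp2 W hΔ Q hQ e₁ e₂ e₃ hs1 hs2 hs3

end Fermat.Agent.Lib.S12
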