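/-
(M)/S12, node [N-RAT] (helper5, prefix `s12s_`): for a point `Q` of odd prime order `p` generating a
Galois-STABLE subgroup (`σ • Q = g_σ • Q`), Vélu's `j'` and the products
`P_e = Π_{0<k<p} (x(kQ) - e)`, `e ∈ ℚ`, are rational.
-/
import Mathlib
import Fermat.Agent.Lib.S12.StarKb
import Fermat.Agent.Lib.S15.DRat

set_option autoImplicit false
set_option linter.unusedSectionVars false

open WeierstrassCurve WeierstrassCurve.Affine Fermat.Agent.Lib.S15

noncomputable section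

namespace Fermat.Agent.Lib.S12

local notation "Kb" => AlgebraicClosure ℚ
local notation "GQ" => (AlgebraicClosure ℚ ≃ₐ[ℚ] AlgebraicClosure ℚ)

/-! ### parity and change of generator over any field -/

section gen

variable {K : Type*} [Field K] [DecidableEq K] (W : WeierstrassCurve K)

theorem s12s_px_neg (P : W.toAffine.Point) : s15d_px W (-P) = s15d_px W P := by
  rcases P with _ | ⟨x, y, h⟩
  · rfl
  · rw [Affine.Point.neg_some]; rfl

theorem s12s_t1_neg (P : W.toAffine.Point) : s15d_t1 W (-P) = s15d_t1 W P := by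
  unfold s15d_t1; rw [s12s_px_neg]

theorem s12s_u1_neg (P : W.toAffine.Point) : s15d_u1 W (-P) = s15d_u1 W P := by
  unfold s15d_u1; rw [s12s_px_neg]

/-- a half sum of an even function of the multiples of `Q` does not depend on the generator. -/
theorem s12s_half_sum_change_gen (h2 : (2 : K) ≠ 0) (p : ℕ) (hp : p.Prime) (hp2 : p ≠ 2)
    {Q : W.toAffine.Point} (hpQ : p • Q = 0) (g : ℕ) (hg : ¬ p ∣ g)
    (F : W.toAffine.Point → K) (hF : ∀ P, F (-P) = F P) :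
    ∑ k ∈ Finset.Icc 1 ((p - 1) / 2), F (k • (g • Q)) =
      ∑ k ∈ Finset.Icc 1 ((p - 1) / 2), F (k • Q) := by
  have := Fact.mk hp
  obtain ⟨h, hh⟩ := hp.odd_of_ne_two hp2
  have hph : p - 1 = 2 * h := by omega
  have hph' : (p - 1) / 2 = h := by omega
  have hrefl : ∀ R : W.toAffine.Point, p • R = 0 → ∀ k, 1 ≤ k → k ≤ h →
      (2 * h + 1 - k) • R = -(k • R) := by
    intro R hR k _ hk
    have : (2 * h + 1 - k) • R + k • R = 0 := by
      rw [← add_nsmul, Nat.sub_add_cancel (by omega), ← hh, hR]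
    exact eq_neg_of_add_eq_zero_left this
  have hpgQ : p • (g • Q) = 0 := by rw [smul_comm, hpQ, nsmul_zero]
  have e1 := s15da_sum_full_eq_half (fun k => F (k • (g • Q))) h (fun k hk1 hk2 => by
    show F ((2 * h + 1 - k) • (g • Q)) = F (k • (g • Q))
    rw [hrefl _ hpgQ k hk1 hk2, hF])
  have e2 := s15da_sum_full_eq_half (fun k => F (k • Q)) h (fun k hk1 hk2 => by
    show F ((2 * h + 1 - k) • Q) = F (k • Q)
    rw [hrefl _ hpQ k hk1 hk2, hF])
  have e3 := s15da_sum_change_gen p hpQ g hg F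
  rw [hph] at e3
  rw [hph']
  have e4 : (2 : K) * ∑ k ∈ Finset.Icc 1 h, F (k • (g • Q)) =
      (2 : K) * ∑ k ∈ Finset.Icc 1 h, F (k • Q) := by
    have e5 := e1.symm.trans (e3.trans e2)
    rw [two_nsmul, two_nsmul] at e5
    rw [two_mul, two_mul]
    exact e5
  exact mul_left_cancel₀ h2 e4

theorem s12s_vt_change_gen (h2 : (2 : K) ≠ 0) (p : ℕ) (hp : p.Prime) (hp2 : p ≠ 2)
    {Q : W.toAffine.Point} (hpQ : p • Q = 0) (g : ℕ) (hg : ¬ p ∣ g) :
    s15d_vt W (g • Q) p = s15d_vt W Q p :=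
  s12s_half_sum_change_gen W h2 p hp hp2 hpQ g hg (fun P => s15d_t1 W P) (s12s_t1_neg W)

theorem s12s_vw_change_gen (h2 : (2 : K) ≠ 0) (p : ℕ) (hp : p.Prime) (hp2 : p ≠ 2)
    {Q : W.toAffine.Point} (hpQ : p • Q = 0) (g : ℕ) (hg : ¬ p ∣ g) :
    s15d_vw W (g • Q) p = s15d_vw W Q p :=
  s12s_half_sum_change_gen W h2 p hp hp2 hpQ g hg
    (fun P => s15d_u1 W P + s15d_px W P * s15d_t1 W P)
    (fun P => by rw [s12s_u1_neg, s12s_px_neg, s12s_t1_neg])

theorem s12s_j'_change_gen (h2 : (2 : K) ≠ 0) (p : ℕ) (hp : p.Prime) (hp2 : p ≠ 2)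
    {Q : W.toAffine.Point} (hpQ : p • Q = 0) (g : ℕ) (hg : ¬ p ∣ g) :
    s15d_j' W (g • Q) p = s15d_j' W Q p := by
  unfold s15d_j' s15d_c4' s15d_c6'
  rw [s12s_vt_change_gen W h2 p hp hp2 hpQ g hg, s12s_vw_change_gen W h2 p hp hp2 hpQ g hg]

theorem s12s_P_change_gen (p : ℕ) (hp : p.Prime) {Q : W.toAffine.Point} (hpQ : p • Q = 0)
    (g : ℕ) (hg : ¬ p ∣ g) (e : K) : s12s_P W (g • Q) p e = s12s_P W Q p e := by
  have := Fact.mk hp
  unfold s12s_P
  exact s15da_prod_change_gen p hpQ g hg (fun P => s15d_px W P - e)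

end gen

/-! ### rationality -/

variable (V : WeierstrassCurve ℚ)

theorem s12s_P_smul (σ : GQ) (Q : (V⁄Kb).Point) (p : ℕ) (e : Kb) :
    s12s_P (V.baseChange Kb) (σ • Q) p (σ e) = σ (s12s_P (V.baseChange Kb) Q p e) := by
  unfold s12s_P
  rw [map_prod]
  refine Finset.prod_congr rfl fun k _ => ?_
  rw [← s15da_smul_nsmul, s15da_px_smul, map_sub]

/-- **[N-RAT] (a)**: `j'` of a Galois-stable cyclic subgroup of odd prime order is rational. -/
theorem s12s_j'_rat (p : ℕ) (hp : p.Prime) (hp2 : p ≠ 2) (Q : (V⁄Kb).Point) (hpQ : p • Q = 0)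
    (hst : ∀ σ : GQ, ∃ g : ℕ, ¬ p ∣ g ∧ σ • Q = g • Q) :
    ∃ j₂ : ℚ, algebraMap ℚ Kb j₂ = s15d_j' (V.baseChange Kb) Q p := by
  have := s15da_isGalois_Qbar
  have hfix : ∀ σ : GQ, σ (s15d_j' (V.baseChange Kb) Q p) = s15d_j' (V.baseChange Kb) Q p := by
    intro σ
    obtain ⟨g, hg, hσ⟩ := hst σ
    rw [← s15da_j'_smul, hσ]
    exact s12s_j'_change_gen (V.baseChange Kb) two_ne_zero p hp hp2 hpQ g hg
  exact (InfiniteGalois.mem_range_algebraMap_iff_fixed (k := ℚ) (K := Kb) _).mpr hfix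

/-- **[N-RAT] (b)**: the products `P_e`, `e ∈ ℚ`, of a Galois-stable cyclic subgroup of prime order
are rational. -/
theorem s12s_P_rat (p : ℕ) (hp : p.Prime) (Q : (V⁄Kb).Point) (hpQ : p • Q = 0)
    (hst : ∀ σ : GQ, ∃ g : ℕ, ¬ p ∣ g ∧ σ • Q = g • Q) (e : ℚ) :
    ∃ P : ℚ, algebraMap ℚ Kb P = s12s_P (V.baseChange Kb) Q p (algebraMap ℚ Kb e) := by
  have := s15da_isGalois_Qbar
  have hfix : ∀ σ : GQ, σ (s12s_P (V.baseChange Kb) Q p (algebraMap ℚ Kb e)) =
      s12s_P (V.baseChange Kb) Q p (algebraMap ℚ Kb e) := by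
    intro σ
    obtain ⟨g, hg, hσ⟩ := hst σ
    rw [← s12s_P_smul, hσ, σ.commutes]
    exact s12s_P_change_gen (V.baseChange Kb) p hp hpQ g hg _
  exact (InfiniteGalois.mem_range_algebraMap_iff_fixed (k := ℚ) (K := Kb) _).mpr hfix

end Fermat.Agent.Lib.S12
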