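/-
(M)/S12, node [N-PL] (helper5, prefix `s12s_`): THE FLIPPED PLACE.  For a point `Q` of prime order
`p ≥ 5` generating a Galois-STABLE subgroup of an integral Weierstrass curve, the place of `X₀(p)`
with values `(J₁, J₂) = (j(E/⟨Q⟩), j(E))` (the Atkin–Lehner image of the place of `m15_D`) exists,
is Galois-fixed, and at every multiplicative prime `ℓ ≠ p` reduces to the cusp `0` when
`Q ∈ E₀` and to the cusp `∞` when `Q ∉ E₀`.
-/
import Mathlib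
import Fermat.Agent.Lib.S12.StarRat
import Fermat.Agent.Lib.S15.BDTop

set_option autoImplicit false
set_option linter.unusedSectionVars false
set_option linter.unusedVariables false

open ModularCurve AlgebraicCurve WeierstrassCurve WeierstrassCurve.Affine UpperHalfPlane
open Fermat.Agent.Lib.FF Fermat.Agent.Lib.S15

noncomputable section

namespace Fermat.Agent.Lib.S12

local notation "Kb" => AlgebraicClosure ℚ
local notation "GQ" => (AlgebraicClosure ℚ ≃ₐ[ℚ] AlgebraicClosure ℚ)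

/-- the Fricke flip `τ ↦ -1/(pτ)` exchanges `j(τ)` and `j(pτ)`. -/
theorem s12s_flip (p : ℕ) [NeZero p] (τ : ℍ) :
    ∃ τ' : ℍ, ffj_j τ' = ffj_j (ffb_dmul p τ) ∧ ffj_j (ffb_dmul p τ') = ffj_j τ := by
  refine ⟨ModularGroup.S • ffb_dmul p τ, ffj_smul _ _, ?_⟩
  have hp : (p : ℂ) ≠ 0 := Nat.cast_ne_zero.mpr (NeZero.ne p)
  have h : ffb_dmul p (ModularGroup.S • ffb_dmul p τ) = ModularGroup.S • τ := by
    apply UpperHalfPlane.ext
    rw [ffb_dmul_coe, UpperHalfPlane.modular_S_smul, UpperHalfPlane.modular_S_smul]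
    simp only [ffb_dmul_coe]
    have hτ : (τ : ℂ) ≠ 0 := UpperHalfPlane.ne_zero τ
    field_simp
  rw [h, ffj_smul]

/-- **[N-PL]** the flipped moduli dictionary for a Galois-stable cyclic subgroup. -/
theorem s12s_place (h23 : m15_Red23) :
    ∀ (p : ℕ) [NeZero p], p.Prime → 5 ≤ p → ∀ c : m15_Cusps p,
      ∀ (W : WeierstrassCurve ℤ), W.Δ ≠ 0 →
      ∀ (Q : ((W.map (Int.castRingHom ℚ))⁄Kb).Point),
        (∀ σ : GQ, ∃ g : ℕ, ¬ p ∣ g ∧ σ • Q = g • Q) → addOrderOf Q = p →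
        ∃ x : m15_Pl p, (∀ σ : GQ, m15_gal p σ x = x) ∧
          ∀ ℓ : ℕ, ℓ.Prime → ℓ ≠ p → (ℓ : ℤ) ∣ W.Δ → ¬ (ℓ : ℤ) ∣ W.c₄ →
            ∀ (A : ValuationSubring Kb) (hA : A.LiesOverPrime ℓ) (h : ReductionInputsModL A p),
              (W.InZeroComponentAt A Q →
                placeReductionModL h x = placeReductionModL h c.zero) ∧
              (¬ W.InZeroComponentAt A Q →
                placeReductionModL h x = placeReductionModL h c.inf) := by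
  intro p _ hp hp5 c W hΔ Q hst hQord
  have hp2 : p ≠ 2 := by omega
  have hΔK : ((W.map (Int.castRingHom ℚ)).baseChange Kb).Δ ≠ 0 := by
    simp only [WeierstrassCurve.baseChange, WeierstrassCurve.map_Δ, eq_intCast]
    rw [map_intCast]
    exact_mod_cast hΔ
  obtain ⟨hAN1, ι, τ, hτ1, hτ2⟩ :=
    s15da_AnKb p hp hp2 ((W.map (Int.castRingHom ℚ)).baseChange Kb) hΔK Q hQord
  have hpQ : p • Q = 0 := by rw [← hQord]; exact addOrderOf_nsmul_eq_zero Q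
  obtain ⟨j', hj'⟩ := s12s_j'_rat (W.map (Int.castRingHom ℚ)) p hp hp2 Q hpQ hst
  rw [s15d_j_baseChange W hΔ] at hτ1
  -- the place of `m15_D` (values `(j, j')`)
  have hrel : s15d_Rel p (algebraMap ℚ Kb (s15d_j W)) (algebraMap ℚ Kb j') := by
    apply s15d_rel_of_algHom ι
    rw [hτ1, hj', hτ2]
    exact s15da_Bridge p τ
  obtain ⟨y, hy⟩ := s15b_PlaceExists p hp _ _ hrel
  -- the flipped place (values `(j', j)`)
  obtain ⟨τ', hτ'1, hτ'2⟩ := s12s_flip p τ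
  have hrel' : s15d_Rel p (algebraMap ℚ Kb j') (algebraMap ℚ Kb (s15d_j W)) := by
    apply s15d_rel_of_algHom ι
    rw [hτ1, hj', hτ2, ← hτ'1, ← hτ'2]
    exact s15da_Bridge p τ'
  obtain ⟨x, hx⟩ := s15b_PlaceExists p hp _ _ hrel'
  -- the decision at a multiplicative prime
  have hdec : ∀ ℓ : ℕ, ℓ.Prime → ℓ ≠ p → (ℓ : ℤ) ∣ W.Δ → ¬ (ℓ : ℤ) ∣ W.c₄ →
      ∀ (A : ValuationSubring Kb), A.LiesOverPrime ℓ → ReductionInputsModL A p →
        (W.InZeroComponentAt A Q →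
          A.valuation (algebraMap ℚ Kb j') = A.valuation (algebraMap ℚ Kb (s15d_j W)) ^ p) ∧
        (¬ W.InZeroComponentAt A Q →
          A.valuation (algebraMap ℚ Kb j') ^ p = A.valuation (algebraMap ℚ Kb (s15d_j W))) := by
    intro ℓ hℓ hℓp hℓΔ hℓc₄ A hA h
    have hd := s15b_Dich p hp ℓ hℓ hℓp A hA h y _ _ hy (s15d_j_not_mem hΔ hℓ hℓΔ hℓc₄ hA)
    rw [hj'] at hd ⊢
    exact s15b_Red p hp hp5 W hΔ Q hQord hAN1 ℓ hℓ hℓp hℓΔ hℓc₄ A hA hd
  -- `j'` is not integral at a multiplicative prime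
  have hj'A : ∀ ℓ : ℕ, ℓ.Prime → ℓ ≠ p → (ℓ : ℤ) ∣ W.Δ → ¬ (ℓ : ℤ) ∣ W.c₄ →
      ∀ (A : ValuationSubring Kb), A.LiesOverPrime ℓ → ReductionInputsModL A p →
        algebraMap ℚ Kb j' ∉ A := by
    intro ℓ hℓ hℓp hℓΔ hℓc₄ A hA h hmem
    have hjA := s15d_j_not_mem hΔ hℓ hℓΔ hℓc₄ hA
    have hlt : 1 < A.valuation (algebraMap ℚ Kb (s15d_j W)) := by
      rw [← not_le, A.valuation_le_one_iff]
      exact hjA
    have hle : A.valuation (algebraMap ℚ Kb j') ≤ 1 := (A.valuation_le_one_iff _).mpr hmem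
    obtain ⟨d1, d2⟩ := hdec ℓ hℓ hℓp hℓΔ hℓc₄ A hA h
    by_cases hin : W.InZeroComponentAt A Q
    · have h1 := d1 hin
      rw [h1] at hle
      have : 1 < A.valuation (algebraMap ℚ Kb (s15d_j W)) ^ p :=
        one_lt_pow₀ hlt hp.ne_zero
      exact absurd hle (not_le.mpr this)
    · have h1 := d2 hin
      have : A.valuation (algebraMap ℚ Kb j') ^ p ≤ 1 := pow_le_one₀ zero_le hle
      rw [h1] at this
      exact absurd this (not_le.mpr hlt)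
  by_cases hex : ∃ ℓ : ℕ, ℓ.Prime ∧ ℓ ≠ p ∧ (ℓ : ℤ) ∣ W.Δ ∧ ¬ (ℓ : ℤ) ∣ W.c₄
  · refine ⟨x, ?_, ?_⟩
    · -- Galois-fixed
      intro σ
      obtain ⟨ℓ, hℓ, hℓp, hℓΔ, hℓc₄⟩ := hex
      obtain ⟨w, hw⟩ := s15b_exists_al p hp
      obtain ⟨A, hA⟩ := Fermat.Agent.Lib.Mz.ptm_exists_liesOverPrime ℓ hℓ
      have : Fact ℓ.Prime := ⟨hℓ⟩
      have hℓnp : ¬ ℓ ∣ p := fun hd => hℓp ((Nat.prime_dvd_prime_iff_eq hℓ hp).mp hd)
      have hred : ReductionInputsModL A p := by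
        by_cases hℓ5 : 5 ≤ ℓ
        · obtain ⟨r, hr⟩ := Fermat.Agent.Lib.S37.s37r12_exists p ℓ hℓ ⟨hℓnp, Or.inl hℓ5⟩ A hA
          exact ⟨r, hr, Fermat.Agent.Lib.S37.s37g_principalGenerated p hℓnp A hA⟩
        · have h23' : ℓ = 2 ∨ ℓ = 3 := by
            have h2 := hℓ.two_le
            rw [not_le] at hℓ5
            interval_cases ℓ
            · exact Or.inl rfl
            · exact Or.inr rfl
            · exact absurd hℓ (by norm_num)
          obtain ⟨r, hr⟩ := h23 p hp hp5 ℓ h23' A hA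
          exact ⟨r, hr, Fermat.Agent.Lib.S37.s37g_principalGenerated p hℓnp A hA⟩
      exact s15b_unique_of_values hp hℓ hℓp hA hred hw (s15b_gal_hasValues σ hx) hx
        (hj'A ℓ hℓ hℓp hℓΔ hℓc₄ A hA hred)
    · intro ℓ hℓ hℓp hℓΔ hℓc₄ A hA h
      have hval := s15b_Val p hp c ℓ hℓ hℓp A hA h x _ _ hx (hj'A ℓ hℓ hℓp hℓΔ hℓc₄ A hA h)
      obtain ⟨d1, d2⟩ := hdec ℓ hℓ hℓp hℓΔ hℓc₄ A hA h
      exact ⟨fun hin => hval.2 (d1 hin).symm, fun hnin => hval.1 (d2 hnin).symm⟩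
  · -- no multiplicative prime `≠ p`: nothing to decide
    obtain ⟨c', hc'inf, -, -⟩ := s15b_cuspNode p hp
    refine ⟨c'.inf, hc'inf, ?_⟩
    intro ℓ hℓ hℓp hℓΔ hℓc₄
    exact absurd ⟨ℓ, hℓ, hℓp, hℓΔ, hℓc₄⟩ hex

end Fermat.Agent.Lib.S12
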