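/-
(M)/S12, node [N-PL] in the shape of helper6's `NGraph.lean` (helper5, prefix `s12s_`):
`s12s_Places : s12n_Places` — (AN1) and the two places over `(E, ⟨Q⟩)`, with values `(j, j')` and
(Atkin–Lehner / Fricke flip) `(j', j)`.  No rationality of `Q` is needed.
-/
import Mathlib
import Fermat.Agent.Lib.S12.NGraph
import Fermat.Agent.Lib.S12.NPlace

set_option autoImplicit false
set_option linter.unusedSectionVars false
set_option linter.unusedVariables false

open ModularCurve AlgebraicCurve WeierstrassCurve WeierstrassCurve.Affine UpperHalfPlane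
open Fermat.Agent.Lib.FF Fermat.Agent.Lib.S15

noncomputable section

namespace Fermat.Agent.Lib.S12

local notation "Kb" => AlgebraicClosure ℚ
local notation "GQ" => (AlgebraicClosure ℚ ≃ₐ[ℚ] AlgebraicClosure ℚ)

/-- **[N-PL]** as typed in `NGraph.lean`. -/
theorem s12s_Places : s12n_Places := by
  intro p _ hp hp2 W hΔ Q hQord
  have hΔK : ((W.map (Int.castRingHom ℚ)).baseChange Kb).Δ ≠ 0 := by
    simp only [WeierstrassCurve.baseChange, WeierstrassCurve.map_Δ, eq_intCast]
    rw [map_intCast]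
    exact_mod_cast hΔ
  obtain ⟨hAN1, ι, τ, hτ1, hτ2⟩ :=
    s15da_AnKb p hp hp2 ((W.map (Int.castRingHom ℚ)).baseChange Kb) hΔK Q hQord
  rw [s15d_j_baseChange W hΔ] at hτ1
  have hrel : s15d_Rel p (algebraMap ℚ Kb (s15d_j W))
      (s15d_j' ((W.map (Int.castRingHom ℚ)).baseChange Kb) Q p) := by
    apply s15d_rel_of_algHom ι
    rw [hτ1, hτ2]
    exact s15da_Bridge p τ
  obtain ⟨τ', hτ'1, hτ'2⟩ := s12s_flip p τ
  have hrel' : s15d_Rel p (s15d_j' ((W.map (Int.castRingHom ℚ)).baseChange Kb) Q p)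
      (algebraMap ℚ Kb (s15d_j W)) := by
    apply s15d_rel_of_algHom ι
    rw [hτ1, hτ2, ← hτ'1, ← hτ'2]
    exact s15da_Bridge p τ'
  exact ⟨hAN1, s15b_PlaceExists p hp _ _ hrel, s15b_PlaceExists p hp _ _ hrel'⟩

end Fermat.Agent.Lib.S12
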