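/-
(M) S12 (helper6, prefix `s12n_`): the CHECKED wiring `s12n_S12_of : (nodes) → <frozen S12>`.
NOT FOR MAIN yet.
-/
import Fermat.Agent.Lib.S12.NGraph
import Fermat.Agent.Lib.S12.NCore
import Fermat.Agent.Lib.S12.NConv
import Fermat.Agent.Lib.S12.StarRat

set_option autoImplicit false
set_option linter.unusedSectionVars false
set_option linter.unusedVariables false
set_option linter.style.haveILetI false

noncomputable section

namespace Fermat.Agent.Lib.S12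

open ModularCurve AlgebraicCurve WeierstrassCurve WeierstrassCurve.Affine
open Fermat.Agent.Lib.S15 Fermat.Agent.Lib.Frey

local notation "Kb" => AlgebraicClosure ℚ
local notation "GQ" => (AlgebraicClosure ℚ ≃ₐ[ℚ] AlgebraicClosure ℚ)

/-- the decision at a multiplicative prime `ℓ ≠ p`, for the Atkin–Lehner place `x` with values
`(j', j)`: `Q ∈ E₀` iff `x` reduces to the cusp `0`. -/
theorem s12n_decide (hVal : s15d_Val) (hDich : s15d_Dich) (hRed : s15d_Red)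
    {p : ℕ} [NeZero p] (hp : p.Prime) (hp5 : 5 ≤ p) (c : m15_Cusps p)
    (W : WeierstrassCurve ℤ) (hΔ : W.Δ ≠ 0)
    (Q : ((W.map (Int.castRingHom ℚ))⁄Kb).Point) (hQ : addOrderOf Q = p)
    (hAN1 : s15d_AN1 ((W.map (Int.castRingHom ℚ)).baseChange Kb) Q p)
    (x y : m15_Pl p)
    (hy : s15d_HasValues p y (algebraMap ℚ Kb (s15d_j W))
      (s15d_j' ((W.map (Int.castRingHom ℚ)).baseChange Kb) Q p))
    (hx : s15d_HasValues p x (s15d_j' ((W.map (Int.castRingHom ℚ)).baseChange Kb) Q p)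
      (algebraMap ℚ Kb (s15d_j W)))
    {ℓ : ℕ} (hℓ : ℓ.Prime) (hℓp : ℓ ≠ p) (hℓΔ : (ℓ : ℤ) ∣ W.Δ) (hℓc₄ : ¬ (ℓ : ℤ) ∣ W.c₄)
    (A : ValuationSubring Kb) (hA : A.LiesOverPrime ℓ) (h : ReductionInputsModL A p) :
    s15d_j' ((W.map (Int.castRingHom ℚ)).baseChange Kb) Q p ∉ A ∧
    (W.InZeroComponentAt A Q → placeReductionModL h x = placeReductionModL h c.zero) ∧
    (¬ W.InZeroComponentAt A Q → placeReductionModL h x = placeReductionModL h c.inf) := by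
  set j' := s15d_j' ((W.map (Int.castRingHom ℚ)).baseChange Kb) Q p with hj'
  have hjA : algebraMap ℚ Kb (s15d_j W) ∉ A := s15d_j_not_mem hΔ hℓ hℓΔ hℓc₄ hA
  have hj1 : 1 < A.valuation (algebraMap ℚ Kb (s15d_j W)) := by
    rw [← not_le, A.valuation_le_one_iff]
    exact hjA
  have hdich := hDich p hp ℓ hℓ hℓp A hA h y _ _ hy hjA
  have hred := hRed p hp hp5 W hΔ Q hQ hAN1 ℓ hℓ hℓp hℓΔ hℓc₄ A hA hdich
  have hp0 : p ≠ 0 := hp.ne_zero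
  have hj'A : j' ∉ A := by
    rw [← A.valuation_le_one_iff, not_le]
    rcases hdich with h1 | h1
    · rw [h1]
      exact one_lt_pow₀ hj1 hp0
    · by_contra hle
      rw [not_lt] at hle
      have : A.valuation j' ^ p ≤ 1 := pow_le_one₀ zero_le' hle
      rw [h1] at this
      exact absurd hj1 (not_lt.mpr this)
  have hval := hVal p hp c ℓ hℓ hℓp A hA h x _ _ hx hj'A
  exact ⟨hj'A, fun hin => hval.2 (hred.1 hin).symm, fun hnin => hval.1 (hred.2 hnin).symm⟩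


/-- **S12 from the nodes** (the frozen text of S12, restated). -/
theorem s12n_S12_of
    (hC : m15_CuspNode) (hE : m15_Eis'') (hR : m15_R) (hT : m15_Tprime') (h23 : m15_Red23)
    (hVal : s15d_Val)
    (hPlace : ∀ (p : ℕ) [NeZero p], p.Prime → 5 ≤ p → ∀ (j₁ j₂ : ℚ) (x : m15_Pl p),
      s15d_HasValues p x (algebraMap ℚ Kb j₁) (algebraMap ℚ Kb j₂) →
        (∃ ℓ : ℕ, ℓ.Prime ∧ ℓ ≠ p ∧ padicValRat ℓ j₁ < 0) →
          ∀ σ : GQ, m15_gal p σ x = x)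
    (hDich : s15d_Dich) (hRed : s15d_Red)
    (hAr : s12n_Arith) (hRoots : s12n_Roots) (hLine : s12n_Line) (hPl : s12n_Places)
    (hL2 : s12n_L2) (hL3 : s12n_L3) (hVO : s12n_ValOdd) (hV2 : s12n_ValTwo) (hVP : s12n_ValP)
    (hFin : s12n_Fin) (P : FreyPackage) (hp17 : 17 ≤ P.p) :
    ¬ WeierstrassCurve.Affine.Point.HasGaloisStableCofixedLine (K := Kb) ℚ P.freyCurve P.p := by
  intro hline
  obtain ⟨Q, hQco⟩ := hLine P hline
  obtain ⟨hQord, hQst, hQcf⟩ := hQco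
  obtain ⟨hmap, hΔ, hbad, hss⟩ := hAr P
  have hpp : P.p.Prime := P.pp
  haveI : NeZero P.p := ⟨hpp.ne_zero⟩
  have hp2 : P.p ≠ 2 := by omega
  have hp5 : 5 ≤ P.p := by omega
  have hp' : P.p ∉ ({2, 3, 5, 7, 13} : Finset ℕ) := by
    simp only [Finset.mem_insert, Finset.mem_singleton, not_or]
    refine ⟨?_, ?_, ?_, ?_, ?_⟩ <;> omega
  have h2p : (2 : ℕ) ≠ P.p := by omega
  have h3p : (3 : ℕ) ≠ P.p := by omega
  have hodd : Odd P.p := hpp.odd_of_ne_two hp2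
  -- the places and the core
  obtain ⟨hAN1, ⟨y, hy⟩, ⟨x, hx⟩⟩ := hPl P.p hpp hp2 P.freyCurveInt hΔ Q hQord
  obtain ⟨c, hcore⟩ := s12n_core'' hC hE hR hT h23 hpp hp'
  -- `2` and `3` are bad
  have h2Δ : ((2 : ℕ) : ℤ) ∣ P.freyCurveInt.Δ :=
    (hbad 2 Nat.prime_two).mpr (by exact_mod_cast P.two_dvd_abc)
  obtain ⟨h3abc, hQ3⟩ := hL3 P (by omega) Q ⟨hQord, hQst, hQcf⟩
  have h3Δ : ((3 : ℕ) : ℤ) ∣ P.freyCurveInt.Δ :=
    (hbad 3 Nat.prime_three).mpr (by exact_mod_cast h3abc)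
  have hQ2 := hL2 P Q ⟨hQord, hQst, hQcf⟩
  -- the decisions
  have hdec : ∀ {ℓ : ℕ} (hℓ : ℓ.Prime), ℓ ≠ P.p → (ℓ : ℤ) ∣ P.freyCurveInt.Δ →
      ∀ (A : ValuationSubring Kb), A.LiesOverPrime ℓ → ∀ h : ReductionInputsModL A P.p,
      s15d_j' ((P.freyCurveInt.map (Int.castRingHom ℚ)).baseChange Kb) Q P.p ∉ A ∧
      (P.freyCurveInt.InZeroComponentAt A Q →
        placeReductionModL h x = placeReductionModL h c.zero) ∧
      (¬ P.freyCurveInt.InZeroComponentAt A Q →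
        placeReductionModL h x = placeReductionModL h c.inf) :=
    fun {ℓ} hℓ hℓp hℓΔ A hA h =>
      s12n_decide hVal hDich hRed hpp hp5 c P.freyCurveInt hΔ Q hQord hAN1 x y hy hx hℓ hℓp hℓΔ
        (hss ℓ hℓ hℓΔ) A hA h
  -- rationality
  have hpQ : P.p • Q = 0 := by rw [← hQord]; exact addOrderOf_nsmul_eq_zero Q
  have hQ0 : Q ≠ 0 := by
    intro h0
    rw [h0, addOrderOf_zero] at hQord
    exact hpp.one_lt.ne hQord
  have hst : ∀ σ : GQ, ∃ g : ℕ, ¬ P.p ∣ g ∧ σ • Q = g • Q := by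
    intro σ
    obtain ⟨k, hk⟩ := hQst σ
    refine ⟨k, ?_, hk⟩
    rintro ⟨m, rfl⟩
    have h0 : σ • Q = 0 := by rw [hk, mul_nsmul, hpQ, nsmul_zero]
    apply hQ0
    have := congrArg (fun z => σ⁻¹ • z) h0
    simp only [inv_smul_smul] at this
    rw [this]
    exact smul_zero (A := s12n_Pt P) σ⁻¹
  obtain ⟨j₂, hj₂⟩ := s12s_j'_rat (P.freyCurveInt.map (Int.castRingHom ℚ)) P.p hpp hp2 Q hpQ hst
  -- `x` is Galois-fixed
  haveI : Fact (Nat.Prime 2) := ⟨Nat.prime_two⟩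
  haveI : Fact (Nat.Prime 3) := ⟨Nat.prime_three⟩
  have h2np : ¬ 2 ∣ P.p := fun h => by
    have := (Nat.prime_dvd_prime_iff_eq Nat.prime_two hpp).mp h; omega
  obtain ⟨A₂, hA₂⟩ := Fermat.Agent.Lib.Mz.ptm_exists_liesOverPrime 2 Nat.prime_two
  have hred₂ : ReductionInputsModL A₂ P.p := by
    obtain ⟨r, hr⟩ := h23 P.p hpp hp5 2 (Or.inl rfl) A₂ hA₂
    exact ⟨r, hr, Fermat.Agent.Lib.S37.s37g_principalGenerated P.p h2np A₂ hA₂⟩
  have hj₂neg : padicValRat 2 j₂ < 0 := by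
    apply s12n_padic_neg_of_not_mem Nat.prime_two hA₂
    rw [hj₂]
    exact (hdec Nat.prime_two h2p h2Δ A₂ hA₂ hred₂).1
  have hxfix : ∀ σ : GQ, m15_gal P.p σ x = x := by
    refine hPlace P.p hpp hp5 j₂ (s15d_j P.freyCurveInt) x ?_ ⟨2, Nat.prime_two, h2p, hj₂neg⟩
    rw [hj₂]
    exact hx
  -- canonical everywhere
  have hx2 : ∀ (A : ValuationSubring Kb), A.LiesOverPrime 2 → ∀ h : ReductionInputsModL A P.p,
      placeReductionModL h x = placeReductionModL h c.zero := fun A hA h =>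
    (hdec Nat.prime_two h2p h2Δ A hA h).2.1 (hQ2 A hA)
  have hx3 : ∀ (A : ValuationSubring Kb), A.LiesOverPrime 3 → ∀ h : ReductionInputsModL A P.p,
      placeReductionModL h x = placeReductionModL h c.zero := fun A hA h =>
    (hdec Nat.prime_three h3p h3Δ A hA h).2.1 (hQ3 A hA)
  have hcan : ∀ ℓ : ℕ, ℓ.Prime → ℓ ≠ P.p → (ℓ : ℤ) ∣ P.a * P.b * P.c →
      ∀ A : ValuationSubring Kb, A.LiesOverPrime ℓ → P.freyCurveInt.InZeroComponentAt A Q := by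
    intro ℓ hℓ hℓp hℓabc A hA
    by_cases h2 : ℓ = 2
    · subst h2; exact hQ2 A hA
    by_cases h3 : ℓ = 3
    · subst h3; exact hQ3 A hA
    have hℓ5 : 5 ≤ ℓ := by
      by_contra hlt
      rw [not_le] at hlt
      have h2' := hℓ.two_le
      interval_cases ℓ
      · exact h2 rfl
      · exact h3 rfl
      · exact absurd hℓ (by norm_num)
    have hℓΔ := (hbad ℓ hℓ).mpr hℓabc
    have hℓnp : ¬ ℓ ∣ P.p := fun h => hℓp ((Nat.prime_dvd_prime_iff_eq hℓ hpp).mp h)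
    haveI : Fact ℓ.Prime := ⟨hℓ⟩
    have hred : ReductionInputsModL A P.p := by
      obtain ⟨r, hr⟩ := Fermat.Agent.Lib.S37.s37r12_exists P.p ℓ hℓ ⟨hℓnp, Or.inl hℓ5⟩ A hA
      exact ⟨r, hr, Fermat.Agent.Lib.S37.s37g_principalGenerated P.p hℓnp A hA⟩
    by_contra hnin
    exact hcore x hxfix hx2 hx3 ℓ hℓ hℓ5 hℓp A hA hred ((hdec hℓ hℓp hℓΔ A hA hred).2.2 hnin)
  -- the three rational products
  obtain ⟨r₁, hr₁⟩ := s12s_P_rat (P.freyCurveInt.map (Int.castRingHom ℚ)) P.p hpp Q hpQ hst 0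
  obtain ⟨r₂, hr₂⟩ := s12s_P_rat (P.freyCurveInt.map (Int.castRingHom ℚ)) P.p hpp Q hpQ hst
    (s12n_e2 P)
  obtain ⟨r₃, hr₃⟩ := s12s_P_rat (P.freyCurveInt.map (Int.castRingHom ℚ)) P.p hpp Q hpQ hst
    (s12n_e3 P)
  rw [map_zero] at hr₁
  -- valuations at the odd primes `≠ p`
  have hvo : ∀ ℓ : ℕ, ℓ.Prime → ℓ ≠ 2 → ℓ ≠ P.p →
      ∃ A : ValuationSubring Kb, A.LiesOverPrime ℓ ∧
        A.valuation (algebraMap ℚ Kb r₁) = 1 ∧ A.valuation (algebraMap ℚ Kb r₂) = 1 ∧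
        A.valuation (algebraMap ℚ Kb r₃) = 1 := by
    intro ℓ hℓ hℓ2 hℓp
    obtain ⟨A, hA⟩ := Fermat.Agent.Lib.Mz.ptm_exists_liesOverPrime ℓ hℓ
    obtain ⟨h1, h2, h3⟩ := hVO P Q ⟨hQord, hQst, hQcf⟩ ℓ hℓ hℓ2 hℓp A hA
      (fun habc => hcan ℓ hℓ hℓp habc A hA)
    exact ⟨A, hA, by rw [hr₁]; exact h1, by rw [hr₂]; exact h2, by rw [hr₃]; exact h3⟩
  -- non-vanishing
  obtain ⟨B₃, hB₃, hb1, hb2, hb3⟩ := hvo 3 Nat.prime_three (by norm_num) h3p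
  have hne : ∀ {r : ℚ} {B : ValuationSubring Kb}, B.valuation (algebraMap ℚ Kb r) = 1 → r ≠ 0 := by
    intro r B h hr0
    rw [hr0, map_zero, map_zero] at h
    exact zero_ne_one h
  have hr₁0 : r₁ ≠ 0 := hne hb1
  have hr₂0 : r₂ ≠ 0 := hne hb2
  have hr₃0 : r₃ ≠ 0 := hne hb3
  -- the `ℓ`-adic valuations
  have hpo : ∀ ℓ : ℕ, ℓ.Prime → ℓ ≠ 2 → ℓ ≠ P.p →
      padicValRat ℓ r₁ = 0 ∧ padicValRat ℓ r₂ = 0 ∧ padicValRat ℓ r₃ = 0 := by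
    intro ℓ hℓ hℓ2 hℓp
    obtain ⟨A, hA, h1, h2, h3⟩ := hvo ℓ hℓ hℓ2 hℓp
    exact ⟨s12n_padic_of_val_eq_one hℓ hA hr₁0 h1, s12n_padic_of_val_eq_one hℓ hA hr₂0 h2,
      s12n_padic_of_val_eq_one hℓ hA hr₃0 h3⟩
  obtain ⟨t1, t2, t3⟩ := hV2 P Q ⟨hQord, hQst, hQcf⟩ A₂ hA₂ (hQ2 A₂ hA₂)
  rw [← hr₁] at t1
  rw [← hr₂] at t2
  rw [← hr₃] at t3
  have hp21 : padicValRat 2 r₁ = 0 := s12n_padic_of_val_eq_one Nat.prime_two hA₂ hr₁0 t1
  have hp23 : padicValRat 2 r₃ = 0 := s12n_padic_of_val_eq_one Nat.prime_two hA₂ hr₃0 t3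
  have hp22 : padicValRat 2 r₂ = -((2 * (P.p - 1) : ℕ) : ℤ) :=
    s12n_padic_of_val_mul_pow hA₂ hr₂0 _ (by exact_mod_cast t2) Nat.prime_two
  obtain ⟨Ap, hAp⟩ := Fermat.Agent.Lib.Mz.ptm_exists_liesOverPrime P.p hpp
  obtain ⟨u1, u2⟩ := hVP P Q ⟨hQord, hQst, hQcf⟩ Ap hAp
  rw [← hr₁, ← hr₂] at u1
  rw [← hr₁, ← hr₃] at u2
  have hpp12 : padicValRat P.p r₁ = padicValRat P.p r₂ :=
    s12n_padic_eq_of_val_eq hpp hAp hr₁0 hr₂0 u1
  have hpp13 : padicValRat P.p r₁ = padicValRat P.p r₃ :=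
    s12n_padic_eq_of_val_eq hpp hAp hr₁0 hr₃0 u2
  -- the identity (∗)
  obtain ⟨hΔK, hs1, hs2, hs3⟩ := hRoots P
  have hstar := s12s_star_Kb P.p hpp hp2 (s12n_E P) hΔK Q hQord 0 (algebraMap ℚ Kb (s12n_e2 P))
    (algebraMap ℚ Kb (s12n_e3 P)) (by rw [zero_add]; exact hs1)
    (by rw [zero_mul, zero_mul, zero_add, zero_add]; exact hs2)
    (by rw [zero_mul, zero_mul, hs3, neg_zero, zero_div])
  rw [← hr₁, ← hr₂, ← hr₃, sub_zero, zero_sub, ← map_sub, ← map_neg, ← map_pow, ← map_pow,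
    ← map_pow, ← map_pow, ← map_pow, ← map_pow, ← map_mul, ← map_mul, ← map_mul, ← map_add,
    ← map_add] at hstar
  have hstarQ : s12n_e2 P ^ P.p * r₃ ^ 2 + (s12n_e3 P - s12n_e2 P) ^ P.p * r₁ ^ 2 +
      (-s12n_e3 P) ^ P.p * r₂ ^ 2 = 0 :=
    (map_eq_zero_iff (algebraMap ℚ Kb) (algebraMap ℚ Kb).injective).mp hstar
  -- the final arithmetic
  have ha0 : ((P.a : ℚ)) ^ P.p ≠ 0 := pow_ne_zero _ (by exact_mod_cast P.ha0)
  have hb0 : ((P.b : ℚ)) ^ P.p ≠ 0 := pow_ne_zero _ (by exact_mod_cast P.hb0)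
  have hab0 : ((P.a : ℚ)) ^ P.p + ((P.b : ℚ)) ^ P.p ≠ 0 := by
    have h1 : ((P.a : ℚ)) ^ P.p + ((P.b : ℚ)) ^ P.p = ((P.c : ℚ)) ^ P.p := by
      exact_mod_cast congrArg (Int.cast : ℤ → ℚ) P.hFLT
    rw [h1]
    exact pow_ne_zero _ (by exact_mod_cast P.hc0)
  refine hFin P.p hodd (by omega) (((P.a : ℚ)) ^ P.p) (((P.b : ℚ)) ^ P.p) r₁ r₂ r₃ ha0 hb0 hab0
    hr₁0 hr₂0 hr₃0 ?_ ?_ ?_ ?_
  · intro ℓ hℓ
    by_cases h2 : ℓ = 2
    · subst h2; rw [hp21, hp23]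
    by_cases hp : ℓ = P.p
    · subst hp; exact hpp13.symm
    · obtain ⟨q1, -, q3⟩ := hpo ℓ hℓ h2 hp
      rw [q1, q3]
  · intro ℓ hℓ h2
    by_cases hp : ℓ = P.p
    · subst hp; exact hpp12.symm
    · obtain ⟨q1, q2, -⟩ := hpo ℓ hℓ h2 hp
      rw [q1, q2]
  · rw [hp22, hp21]
    have : 1 ≤ P.p := hpp.one_le
    push_cast [Nat.cast_sub this]
    ring
  · -- `4^p · (∗)`
    have h4 : ((4 : ℚ)) ^ P.p ≠ 0 := pow_ne_zero _ (by norm_num)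
    have e1 : s12n_e2 P ^ P.p * (4 : ℚ) ^ P.p = ((P.a : ℚ) ^ P.p) ^ P.p := by
      rw [← mul_pow]; congr 1; unfold s12n_e2; field_simp
    have e2 : (s12n_e3 P - s12n_e2 P) ^ P.p * (4 : ℚ) ^ P.p =
        -(((P.a : ℚ)) ^ P.p + ((P.b : ℚ)) ^ P.p) ^ P.p := by
      rw [← mul_pow, ← hodd.neg_pow]; congr 1; unfold s12n_e2 s12n_e3; field_simp; ring
    have e3 : (-s12n_e3 P) ^ P.p * (4 : ℚ) ^ P.p = ((P.b : ℚ) ^ P.p) ^ P.p := by
      rw [← mul_pow]; congr 1; unfold s12n_e3; field_simp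
    have := congrArg (fun z => z * (4 : ℚ) ^ P.p) hstarQ
    simp only [zero_mul] at this
    linear_combination this - r₃ ^ 2 * e1 - r₁ ^ 2 * e2 - r₂ ^ 2 * e3

end Fermat.Agent.Lib.S12
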