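/-
S12 shortcut (helper6): all the leaves of `s12n_S12_of` are closed; the frozen text of S12.
Leaves: [CUSP] helper2, [EIS''] helper7 (+ everybody), [R] helper9, [RED23] helper3 (with helper9's
[SF1-4]), [T''] helper6, [D-VAL/PLACE/DICH/RED] helper2 + helper5, [N-AR], [N-AR2], [N-PL], [N-∗],
[N-RAT] helper5, [N-LINE], [N-VP] helper1, [N-L2] helper4, [N-L3] helper8, [N-VO], [N-V2] helper2,
[N-CORE], [N-FIN] helper6.
-/
import Fermat.Agent.Lib.S12.NWire
import Fermat.Agent.Lib.S12.NFin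
import Fermat.Agent.Lib.S12.NPlaces
import Fermat.Agent.Lib.S12.NArith
import Fermat.Agent.Lib.S12.BValOdd
import Fermat.Agent.Lib.S12.BValTwo
import Fermat.Agent.Lib.S12.KLine
import Fermat.Agent.Lib.S12.KValP
import Fermat.Agent.Lib.S12.CL2
import Fermat.Agent.Lib.S12.L3
import Fermat.Agent.Lib.S15.MFinal
import Fermat.Agent.Lib.S15.GTop

set_option autoImplicit false

namespace Fermat.Agent.Lib.S12

open Fermat.Agent.Lib.S15

/-- **S12**: no Galois-stable cofixed line in `E[p]` for the Frey curve, `p ≥ 17`. -/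
theorem s12n_S12 (P : FreyPackage) (hp17 : 17 ≤ P.p) :
    ¬ WeierstrassCurve.Affine.Point.HasGaloisStableCofixedLine (K := AlgebraicClosure ℚ) ℚ
      P.freyCurve P.p :=
  s12n_S12_of s15b_cuspNode m15_eis m15r_R s15w_tprime' m15g_red23 s15b_Val
    (s15b_Place m15g_red23) s15b_Dich s15b_Red s12s_Arith s12s_Roots s12k_Line s12s_Places
    s12c_L2 s12l_L3 (s12b_ValOdd s12s_Arith s12s_Roots) (s12b_ValTwo s12s_Roots) s12k_ValP
    s12f_Fin P hp17

end Fermat.Agent.Lib.S12
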